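/-
MLT / stream [P] = AtP, Hecke side (helper4), part 2: **`a_q(g)² = 1` for an eigenform which is new
at `q ∥ M`** (Prelude's `CuspForm.IsNewformAt`), for EVERY prime `q` (in particular `q = p`).

* `mltph_eq_zero_of_newformAt`, `mltph_newAt` : the newness core of T2-F (helper8's
  `t2fn_eq_zero_of_newform`, `t2f_newform`) for `IsNewformAt q` instead of `IsNewform`;
* `mltph_coeff_sq_of_newformAt` : `qCoeff g q ^ 2 = 1` (from (H8) of the Tate module package at an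
  auxiliary prime `p' ≠ q`: `lam (U_q) ^ 2 = 1`, pure Betti/Atkin–Lehner);
* `mltph_old_or_sq` : the dichotomy for an eigenform `g` of level `M`, `q ∥ M`: either its good
  eigensystem occurs at level `M / q`, or `a_q(g)² = 1`.
-/
import Mathlib
import Fermat.Agent.Lib.T2.F.Glue
import Fermat.Agent.Lib.T2.F.Pkg
import Fermat.Agent.Lib.T2.F.Uq
import Fermat.Agent.Lib.T2.F.NewAt
import Fermat.Agent.Lib.T2.F.Newform
import Fermat.Agent.Lib.T2.F.ToricLevel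
import Fermat.Agent.Lib.T2.F.ToricMain
import Fermat.Agent.Lib.T2.Inst.ExportF
import Fermat.Agent.Lib.S58.Coeff
import Fermat.Agent.Lib.LR.Wire.Back

set_option autoImplicit false
set_option linter.style.haveILetI false
set_option linter.unusedSectionVars false
set_option linter.unusedVariables false

namespace Fermat.Agent.MLT

open ModularFormClass CuspForm Fermat.Agent.Lib.Helper8 Fermat.Agent.T1 Fermat.Agent.T2
  IsLocalRing

local notation "Γ₀(" N ")" => CongruenceSubgroup.Gamma0 N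

/-- **the newness core for `IsNewformAt q`**: the good eigensystem of an eigenform of level
`M = N' q` which is new at `q` does not occur in a torsion-free Hecke module of level `N'` -/
theorem mltph_eq_zero_of_newformAt {M : ℕ} [NeZero M] {g : CuspForm Γ₀(M) 2} {q : ℕ}
    (hg : g.IsNewformAt q) {N' : ℕ} [NeZero N'] (hM : M = N' * q) (hq : q.Prime)
    (S : Set ℕ) (hS : ∀ ℓ : ℕ, ℓ.Prime → (ℓ ∈ S ↔ ℓ ∣ M))
    {R : Type*} [CommRing R] (emb : R →+* ℂ)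
    {𝒪 : Type*} [CommRing 𝒪] [IsDomain 𝒪] (ι : R →+* 𝒪) (hι : Function.Injective ι)
    {X : Type*} [AddCommGroup X] [Module 𝒪 X] [Module.IsTorsionFree 𝒪 X]
    (act : heckeAlgebra N' 2 S →+* Module.End 𝒪 X) (x : X)
    (a : ℕ → R) (ha : ∀ ℓ : ℕ, ℓ.Prime → ¬ ℓ ∣ M → emb (a ℓ) = qCoeff ⇑g ℓ)
    (hx : ∀ (ℓ : ℕ) (hℓ : ℓ.Prime) (hℓM : ¬ ℓ ∣ M),
      act (heckeAlgebra.T hℓ (fun h => hℓM (h.trans ⟨q, hM⟩))
        (fun h => hℓM ((hS ℓ hℓ).mp h))) x = ι (a ℓ) • x) :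
    x = 0 := by
  classical
  have hN' : N' ∣ M := ⟨q, hM⟩
  have hdiv : M / q = N' := by rw [hM]; exact Nat.mul_div_cancel _ hq.pos
  have hnot : ¬ GoodEigensystemOccursAt g N' := hdiv ▸ hg.2.2
  by_contra hx0
  have hgen : ∀ (t : Module.End ℂ (CuspForm Γ₀(N') 2)) (ht : t ∈ heckeGenerators N' 2 S),
      ∃ r : R, act ⟨t, Algebra.subset_adjoin ht⟩ x = ι r • x := by
    rintro t (⟨ℓ, hℓ, hℓN, hℓS, rfl⟩ | ⟨r, hrN, hr, hrS, rfl⟩)
    · have hℓM : ¬ ℓ ∣ M := fun h => hℓS ((hS ℓ hℓ).mpr h)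
      exact ⟨a ℓ, hx ℓ hℓ hℓM⟩
    · exact absurd ((hS r hr).mpr (hrN.trans hN')) hrS
  obtain ⟨χ, hχ⟩ : ∃ χ : heckeAlgebra N' 2 S →+* R, ∀ t, act t x = ι (χ t) • x :=
    t2fn_exists_complexChar (heckeGenerators N' 2 S) ι hι act x hx0 hgen
  obtain ⟨f, hf, hfℓ⟩ := t2fn_exists_eigenform_of_char N' S (emb.comp χ)
  refine hnot ⟨f, hf, fun ℓ hℓ hℓM => ?_⟩
  rw [hfℓ ℓ hℓ (fun h => hℓM (h.trans hN')) (fun h => hℓM ((hS ℓ hℓ).mp h)), RingHom.comp_apply,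
    ← ha ℓ hℓ hℓM]
  congr 1
  apply hι
  apply t2fn_eigenvalue_unique hx0
  rw [← hχ]
  exact hx ℓ hℓ hℓM

/-- **(F2) for `IsNewformAt q`**: the full eigencharacter of an eigenform of level `M = N' q` which
is new at `q` (composed with any ring homomorphism from its range to a domain of characteristic
zero) does not occur at level `N'` -/
theorem mltph_newAt {M : ℕ} [NeZero M] {g : CuspForm Γ₀(M) 2} {q : ℕ} (hg : g.IsNewformAt q)
    {N' : ℕ} [NeZero N'] (hM : M = N' * q) (hq : q.Prime)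
    (𝒪 : Type) [CommRing 𝒪] [IsDomain 𝒪] [CharZero 𝒪]
    (j : (terEigenCharC hg.1 (∅ : Set ℕ)).range →+* 𝒪) :
    T2fNewAt M N' (j.comp (terEigenCharC hg.1 (∅ : Set ℕ)).rangeRestrict) := by
  classical
  rintro ⟨lam', hlam'⟩
  let ψ := terEigenCharC hg.1 (∅ : Set ℕ)
  haveI : Module.Finite ℤ (heckeAlgebra M 2 (∅ : Set ℕ)) :=
    Fermat.Agent.S22Lib.moduleFinite_heckeAlgebra M 2 _
  haveI hfin : Module.Finite ℤ ψ.range :=
    Module.Finite.of_surjective ψ.rangeRestrict.toIntAlgHom.toLinearMap ψ.rangeRestrict_surjective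
  haveI : Algebra.IsIntegral ℤ ψ.range := Algebra.IsIntegral.of_finite ℤ _
  have hj : Function.Injective j := t2fn_injective_of_isIntegral j
  have hN'M : N' ∣ M := ⟨q, hM⟩
  let S : Set ℕ := {r : ℕ | r ∣ M}
  have hS : ∀ ℓ : ℕ, ℓ.Prime → (ℓ ∈ S ↔ ℓ ∣ M) := fun ℓ _ => Iff.rfl
  let act : heckeAlgebra N' 2 S →+* Module.End 𝒪 𝒪 :=
    (Algebra.lmul 𝒪 𝒪).toRingHom.comp lam'
  have hact : ∀ t, act t (1 : 𝒪) = lam' t := fun t => by
    show lam' t * 1 = lam' t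
    rw [mul_one]
  let a : ℕ → ψ.range := fun ℓ =>
    if h : ℓ.Prime ∧ ¬ ℓ ∣ M then ψ.rangeRestrict (heckeAlgebra.T h.1 h.2 (Set.notMem_empty ℓ))
    else 0
  have ha : ∀ (ℓ : ℕ) (hℓ : ℓ.Prime) (hℓM : ¬ ℓ ∣ M),
      a ℓ = ψ.rangeRestrict (heckeAlgebra.T hℓ hℓM (Set.notMem_empty ℓ)) := by
    intro ℓ hℓ hℓM
    simp only [a]
    rw [dif_pos ⟨hℓ, hℓM⟩]
  have h1 : (1 : 𝒪) = 0 := by
    refine mltph_eq_zero_of_newformAt hg hM hq S hS ψ.range.subtype j hj act (1 : 𝒪) a ?_ ?_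
    · intro ℓ hℓ hℓM
      rw [ha ℓ hℓ hℓM]
      exact terEigenCharC_T hg.1 _ hℓ hℓM _
    · intro ℓ hℓ hℓM
      rw [hact, ha ℓ hℓ hℓM, smul_eq_mul, mul_one]
      exact hlam' ℓ hℓ hℓM (fun h => hℓM (h.trans hN'M))
  exact one_ne_zero h1

/-- an auxiliary prime different from `q` -/
theorem mltph_exists_prime_ne (q : ℕ) : ∃ p' : ℕ, p'.Prime ∧ q ≠ p' := by
  by_cases h : q = 2
  · exact ⟨3, Nat.prime_three, by omega⟩
  · exact ⟨2, Nat.prime_two, h⟩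

/-- **`a_q(g)² = 1` for an eigenform which is new at `q ∥ M`** -/
theorem mltph_coeff_sq_of_newformAt {M : ℕ} [NeZero M] {g : CuspForm Γ₀(M) 2} {q : ℕ}
    (hq : q.Prime) (hg : g.IsNewformAt q) (hq2 : ¬ q ^ 2 ∣ M) : qCoeff ⇑g q ^ 2 = 1 := by
  classical
  obtain ⟨N', hN'⟩ := hg.2.1
  have hM : M = N' * q := by rw [hN', mul_comm]
  have hN'0 : N' ≠ 0 := by
    rintro rfl
    rw [zero_mul] at hM
    exact NeZero.ne M hM
  haveI : NeZero N' := ⟨hN'0⟩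
  have hqN' : ¬ q ∣ N' := by
    rintro ⟨r, rfl⟩
    apply hq2
    rw [hN', pow_two]
    exact ⟨r, by ring⟩
  have hqM : q ∣ M := ⟨N', hN'⟩
  obtain ⟨p', hp', hqp'⟩ := mltph_exists_prime_ne q
  haveI : Fact p'.Prime := ⟨hp'⟩
  set ψ := terEigenCharC hg.1 (∅ : Set ℕ) with hψ
  haveI := Fermat.Agent.S58.s58f_finite_range (M := M) 2 (∅ : Set ℕ) ψ
  obtain ⟨O', i1, i2, i3, i4, i5, i6, hpO', ⟨iota⟩⟩ := Fermat.Agent.S58.s58f_exists_dvr ψ.range p'
  letI : Algebra ℤ_[p'] O' := tePadicAlgebra p' O' hpO'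
  obtain ⟨T, j1, j2, j3, j4, gal, hecke, hcomm, hcont, hunr, hES, hH8, h56⟩ :=
    t2f_package_all p' M t2f_P1K (t2f_P4K_of_good (t2f_P4KGood_of_export t2i_export)) t2f_WT t2f_P3
  have hnew : T2fNewAt M N' (iota.comp ψ.rangeRestrict) := mltph_newAt hg hM hq O' iota
  have hsq := (hH8 q hq hqM hqp' N' hM hqN' O' (iota.comp ψ.rangeRestrict) hnew).1
  -- back to `ℂ`
  haveI : Algebra.IsIntegral ℤ ψ.range := Algebra.IsIntegral.of_finite ℤ _
  have hj : Function.Injective iota := t2fn_injective_of_isIntegral iota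
  have h1 : ψ.rangeRestrict (heckeAlgebra.U hq hqM (Set.notMem_empty q)) ^ 2 = 1 := by
    apply hj
    rw [map_pow, map_one]
    exact hsq
  have h2 : ψ (heckeAlgebra.U hq hqM (Set.notMem_empty q)) ^ 2 = 1 := by
    have := congrArg (fun z : ψ.range => (z : ℂ)) h1
    simpa using this
  have h3 : qCoeff ⇑g q = ψ (heckeAlgebra.U hq hqM (Set.notMem_empty q)) :=
    Fermat.Agent.LR.lrw_qCoeff_prime_eq_eigenvalue_U g hg.1.qCoeff_one hq hqM _
      (terEigenCharC_apply hg.1 (∅ : Set ℕ) (heckeAlgebra.U hq hqM (Set.notMem_empty q)))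
  rw [h3]
  exact h2

/-- **the old/new dichotomy at `q ∥ M`** -/
theorem mltph_old_or_sq {M : ℕ} [NeZero M] {g : CuspForm Γ₀(M) 2} (hg : g.IsNormalizedEigenform)
    {q : ℕ} (hq : q.Prime) (hqM : q ∣ M) (hq2 : ¬ q ^ 2 ∣ M) :
    GoodEigensystemOccursAt g (M / q) ∨ qCoeff ⇑g q ^ 2 = 1 := by
  by_cases h : GoodEigensystemOccursAt g (M / q)
  · exact Or.inl h
  · exact Or.inr (mltph_coeff_sq_of_newformAt hq ⟨hg, hqM, h⟩ hq2)

end Fermat.Agent.MLT
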