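/-
MLT / stream [P] = AtP, Hecke side (helper4), part 6: **the Eichler–Shimura relation AT `p` on
functions and on torsion classes of `J₀(N)`, `p ∤ N`** (no hypothesis on the exponent `m`, in
particular `m = p`).

`A ⊂ ℚ̄` a valuation subring over `p ∤ N`, `σ` a Frobenius element at `A`.

* `mltph_frob_inf` : for every unit `y` of the function field,
  `σ²y · y^p / T_p(σ y) ∈ ℚ̄^× (1 + 𝔪_A)` (`T2fInf N A`, i.e. a constant multiple is a quotient of two
  Laurent series over `A` with the same non-zero reduction) — this is the computation in helper7's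
  `tkr_K3_frob`, which does not use that `m` is prime to `p`;
* `mltph_ES_class` : for `x ∈ J₀(N)[m]` there is a Kummer function `Z` (`m ∣ div Z`) with
  `T2fInf N A Z` and `[div Z / m] = σ²x + p x − T_p(σ x)`: "`T_p = F + V` modulo the kernel of
  reduction".
-/
import Mathlib
import Fermat.Agent.Lib.T2.F.Defs
import Fermat.Agent.Lib.Delta.Wire.EigenSpace
import Fermat.Agent.Lib.S33.F12.Sub

set_option autoImplicit false
set_option linter.unusedSectionVars false
set_option linter.unusedVariables false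
set_option linter.style.haveILetI false
set_option synthInstance.maxHeartbeats 400000

namespace Fermat.Agent.MLT

open ModularCurve HahnSeries AlgebraicCurve Fermat.Agent.T1 Fermat.Agent.T2 Fermat.Agent.Alpha
  Fermat.Agent.Delta Fermat.Agent.T3

local notation "Kbar" => AlgebraicClosure ℚ
local notation "GQ" => (AlgebraicClosure ℚ ≃ₐ[ℚ] AlgebraicClosure ℚ)

section Functions

variable {N : ℕ} {A : ValuationSubring Kbar}

/-- **Eichler–Shimura at `l` on functions, modulo `ℚ̄^× (1 + 𝔪_A)`** (`A | l`, `l ∤ N`) -/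
theorem mltph_frob_inf [NeZero N] (hnorm : TkrNormal N A) {l : ℕ}
    (hl : l.Prime) (hlN : ¬ l ∣ N) (hA : A.LiesOverPrime l) {σ : GQ} (hσ : A.IsFrobeniusAt σ l)
    (y : (↥(modularFunctionFieldBar N))ˣ) :
    T2fInf N A (tkrSig N σ (tkrSig N σ y) * y ^ l * (tkrHeckeUnits N l (tkrSig N σ y))⁻¹) := by
  haveI : NeZero l := ⟨hl.ne_zero⟩
  haveI : Fact l.Prime := ⟨hl⟩
  haveI : CharP (IsLocalRing.ResidueField ↥A) l := tkr_charP_residue hl hA
  obtain ⟨hσD, hfrob⟩ := hσ
  set g : A.decompositionSubgroup ℚ := ⟨σ, hσD⟩ with hgdef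
  have hgσ : (g : GQ) = σ := rfl
  have hgκ : MulSemiringAction.toRingHom (A.decompositionSubgroup ℚ)
      (IsLocalRing.ResidueField ↥A) g = frobenius (IsLocalRing.ResidueField ↥A) l := by
    ext x
    exact hfrob x
  -- the root of unity
  obtain ⟨ζ, hζ, -⟩ := tkr_exists_zeta l
  have hζl : ζ ^ l = 1 := by
    apply Units.ext
    rw [Units.val_pow_eq_pow_val, Units.val_one]
    exact hζ.pow_eq_one
  obtain ⟨ζA, hζA'⟩ := tkr_exists_unit_of_pow_eq_one (A := A) hl.ne_zero hζl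
  subst hζA'
  have hζA : IsPrimitiveRoot (ζA : ↥A) l :=
    IsPrimitiveRoot.of_map_of_injective (f := A.subtype) hζ A.subtype_injective
  -- the representations
  obtain ⟨c, hc, a, b, ha, hb, hrep⟩ := hnorm y
  have hσc : (σ : Kbar →+* Kbar) c ≠ 0 := (map_ne_zero _).mpr hc
  have hσσc : (σ : Kbar →+* Kbar) ((σ : Kbar →+* Kbar) c) ≠ 0 := (map_ne_zero _).mpr hσc
  have hy0 : ((y : ↥(modularFunctionFieldBar N)) : LaurentSeries Kbar) ≠ 0 := by simp
  have rep1 := hrep.act g
  rw [hgσ, map_mul, coeffMap_algebraMap] at rep1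
  have rep2 := rep1.act g
  rw [hgσ, map_mul, coeffMap_algebraMap] at rep2
  have repT := rep1.tilde l hζA hζ
  have hC : ∀ x : Kbar, algebraMap Kbar (LaurentSeries Kbar) x = HahnSeries.C x := fun x => by
    rw [algebraMap_laurentSeries_eq_single]; rfl
  rw [tkrTilde_mul, hC, tkrTilde_C, ← hC, ← tkrSig_coe,
    tkrTilde_eq_tkrHecke hl hlN hζ ((tkrSig N σ y : (↥(modularFunctionFieldBar N))ˣ) :
      ↥(modularFunctionFieldBar N))] at repT
  have hT0 : ((tkrHecke N l ((tkrSig N σ y : (↥(modularFunctionFieldBar N))ˣ) :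
      ↥(modularFunctionFieldBar N)) : ↥(modularFunctionFieldBar N)) : LaurentSeries Kbar) ≠ 0 := by
    have := (tkrHeckeUnits N l (tkrSig N σ y)).ne_zero
    rw [tkrHeckeUnits_coe] at this
    simp
  have hTne : algebraMap Kbar (LaurentSeries Kbar) ((σ : Kbar →+* Kbar) c ^ (l + 1))
      * ((tkrHecke N l ((tkrSig N σ y : (↥(modularFunctionFieldBar N))ˣ) :
      ↥(modularFunctionFieldBar N)) : ↥(modularFunctionFieldBar N)) : LaurentSeries Kbar) ≠ 0 :=
    mul_ne_zero ((map_ne_zero _).mpr (pow_ne_zero _ hσc)) hT0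
  have hrep' := (rep2.mul (hrep.pow l)).mul (repT.inv hTne)
  have hd : (σ : Kbar →+* Kbar) ((σ : Kbar →+* Kbar) c) * c ^ l
      / ((σ : Kbar →+* Kbar) c) ^ (l + 1) ≠ 0 :=
    div_ne_zero (mul_ne_zero hσσc (pow_ne_zero _ hc)) (pow_ne_zero _ hσc)
  -- reductions
  set φ := coeffMap (frobenius (IsLocalRing.ResidueField ↥A) l) with hφ
  set ab := coeffMap (IsLocalRing.residue ↥A) a with hab
  set bb := coeffMap (IsLocalRing.residue ↥A) b with hbb
  have hφinj : Function.Injective φ :=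
    tkr_coeffMap_injective (frobenius (IsLocalRing.ResidueField ↥A) l).injective
  have hredA : coeffMap (IsLocalRing.residue ↥A)
      (tkrActA g (tkrActA g a) * a ^ l * tkrTilde l hζA (tkrActA g b))
      = φ (φ ab) * qExpand _ l (φ ab) * (qExpand _ l (φ bb) * φ (φ bb)) := by
    rw [map_mul, map_mul, map_pow, tkr_red_tilde, tkr_red_actA, tkr_red_actA, tkr_red_actA, hgκ,
      tkr_pow_char l]
  have hredB : coeffMap (IsLocalRing.residue ↥A)
      (tkrActA g (tkrActA g b) * b ^ l * tkrTilde l hζA (tkrActA g a))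
      = φ (φ bb) * qExpand _ l (φ bb) * (qExpand _ l (φ ab) * φ (φ ab)) := by
    rw [map_mul, map_mul, map_pow, tkr_red_tilde, tkr_red_actA, tkr_red_actA, tkr_red_actA, hgκ,
      tkr_pow_char l]
  refine ⟨(σ : Kbar →+* Kbar) ((σ : Kbar →+* Kbar) c) * c ^ l / ((σ : Kbar →+* Kbar) c) ^ (l + 1),
    hd, tkrActA g (tkrActA g a) * a ^ l * tkrTilde l hζA (tkrActA g b),
    tkrActA g (tkrActA g b) * b ^ l * tkrTilde l hζA (tkrActA g a), ?_, ?_, ?_⟩
  · rw [hredA, hredB]; ring
  · rw [hredB]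
    have h1 : φ bb ≠ 0 := fun h => hb (hφinj (by rw [h, map_zero]))
    have h2 : φ (φ bb) ≠ 0 := fun h => h1 (hφinj (by rw [h, map_zero]))
    have h3 : φ ab ≠ 0 := fun h => ha (hφinj (by rw [h, map_zero]))
    have h4 : φ (φ ab) ≠ 0 := fun h => h3 (hφinj (by rw [h, map_zero]))
    have hq : ∀ x : LaurentSeries (IsLocalRing.ResidueField ↥A), x ≠ 0 →
        qExpand (IsLocalRing.ResidueField ↥A) l x ≠ 0 := fun x hx h =>
      hx (qExpand_injective (R := IsLocalRing.ResidueField ↥A) l (by rw [h, map_zero]))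
    exact mul_ne_zero (mul_ne_zero h2 (hq _ h1)) (mul_ne_zero (hq _ h3) h4)
  · convert hrep' using 1
    rw [Units.val_mul, Units.val_mul, MulMemClass.coe_mul, MulMemClass.coe_mul, tkrSig_coe,
      tkrSig_coe, Units.val_inv_eq_inv_val, Units.val_pow_eq_pow_val, SubmonoidClass.coe_pow,
      tkrHeckeUnits_coe, map_div₀, map_mul, map_pow, map_pow, mul_inv, mul_pow]
    have : ((((tkrHecke N l ((tkrSig N σ y : (↥(modularFunctionFieldBar N))ˣ) :
        ↥(modularFunctionFieldBar N)))⁻¹ : ↥(modularFunctionFieldBar N))) :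
        LaurentSeries Kbar) = ((tkrHecke N l ((tkrSig N σ y : (↥(modularFunctionFieldBar N))ˣ) :
        ↥(modularFunctionFieldBar N)) : ↥(modularFunctionFieldBar N)) : LaurentSeries Kbar)⁻¹ :=
      rfl
    rw [this, div_eq_mul_inv]
    ring

end Functions

section Classes

variable {K F : Type*} [Field K] [Field F] [Algebra K F] [HasPrincipalDivisors K F]

/-- divisibility of the orders of a power -/
theorem mltph_dvd_npow {m : ℕ} (y : Fˣ) (hy : ∀ v : Place K F, (m : ℤ) ∣ v.ord (y : F)) (n : ℕ)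
    (v : Place K F) : (m : ℤ) ∣ v.ord ((y ^ n : Fˣ) : F) := by
  rw [Units.val_pow_eq_pow_val, ← zpow_natCast, v.ord_zpow]
  exact Dvd.dvd.mul_left (hy v) _

/-- the Kummer class of a power -/
theorem mltph_class_npow {m : ℕ} (hm : m ≠ 0) (y : Fˣ)
    (hy : ∀ v : Place K F, (m : ℤ) ∣ v.ord (y : F)) (n : ℕ) :
    alpfClass hm (y ^ n) (mltph_dvd_npow y hy n) = n • alpfClass hm y hy := by
  induction n with
  | zero =>
    rw [zero_nsmul]
    have h1 := alpfClass_pow (K := K) hm (1 : Fˣ) (fun v => by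
      rw [one_pow, Units.val_one, Place.ord_one]; exact dvd_zero _)
    rw [← h1]
    exact dlw_class_congr hm (by rw [pow_zero, one_pow]) _ _
  | succ n ih =>
    rw [succ_nsmul, ← ih, ← alpfClass_mul hm (y ^ n) y (mltph_dvd_npow y hy n) hy
      (fun v => by rw [← pow_succ]; exact mltph_dvd_npow y hy (n + 1) v)]
    exact dlw_class_congr hm (pow_succ y n) _ _

end Classes

section ES

variable (N : ℕ) [NeZero N] {A : ValuationSubring Kbar}

/-- **Eichler–Shimura at `l` on the `m`-torsion of `J₀(N)`, modulo the Kummer classes of the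
functions in `ℚ̄^× (1 + 𝔪_A)`** (`A | l`, `l ∤ N`, `m` arbitrary) -/
theorem mltph_ES_class (hnorm : TkrNormal N A) {l : ℕ} (hl : l.Prime) (hlN : ¬ l ∣ N)
    (hA : A.LiesOverPrime l) {σ : GQ} (hσ : A.IsFrobeniusAt σ l) {m : ℕ} (hm : m ≠ 0)
    (x : JZero N) (hx : (m : ℤ) • x = 0) :
    ∃ (Z : (↥(modularFunctionFieldBar N))ˣ)
      (hZ : ∀ v : Place Kbar ↥(modularFunctionFieldBar N),
        (m : ℤ) ∣ v.ord (Z : ↥(modularFunctionFieldBar N))),
      T2fInf N A Z ∧
      alpfClass hm Z hZ = σ • σ • x + l • x - heckeOperatorBar N ⟨l, hl⟩ (σ • x) := by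
  haveI : NeZero l := ⟨hl.ne_zero⟩
  obtain ⟨y, hy, rfl⟩ := alpf_exists_class hm x hx
  have hyW : y ∈ tWsub Kbar N m := hy
  have hσy : tkrSig N σ y ∈ tWsub Kbar N m := tkrSig_mem_tWsub N m σ hyW
  have hσσy : tkrSig N σ (tkrSig N σ y) ∈ tWsub Kbar N m := tkrSig_mem_tWsub N m σ hσy
  have hyl : y ^ l ∈ tWsub Kbar N m := (tWsub Kbar N m).pow_mem hyW l
  have hT : tkrHeckeUnits N l (tkrSig N σ y) ∈ tWsub Kbar N m :=
    dlw_hecke_dvd N hl hlN (tkrSig N σ y) hσy
  have hTinv : (tkrHeckeUnits N l (tkrSig N σ y))⁻¹ ∈ tWsub Kbar N m :=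
    (tWsub Kbar N m).inv_mem hT
  have h12 : tkrSig N σ (tkrSig N σ y) * y ^ l ∈ tWsub Kbar N m :=
    (tWsub Kbar N m).mul_mem hσσy hyl
  have hZ : tkrSig N σ (tkrSig N σ y) * y ^ l * (tkrHeckeUnits N l (tkrSig N σ y))⁻¹
      ∈ tWsub Kbar N m := (tWsub Kbar N m).mul_mem h12 hTinv
  refine ⟨_, hZ, mltph_frob_inf hnorm hl hlN hA hσ y, ?_⟩
  have e1 : ∀ (u : (↥(modularFunctionFieldBar N))ˣ) (hu : u ∈ tWsub Kbar N m),
      σ • alpfClass hm u hu = alpfClass hm (tkrSig N σ u) (tkrSig_mem_tWsub N m σ hu) := by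
    intro u hu
    rw [galois_smul_pic0_def, alpfClass_smul hm]
    congr 1
  rw [alpfClass_mul hm _ _ h12 hTinv hZ, alpfClass_mul hm _ _ hσσy hyl h12,
    Fermat.Agent.S33.s33g_class_inv (K := Kbar) hm _ hT hTinv, e1 y hyW, e1 _ hσy,
    dlw_class_hecke N hl hlN hm (tkrSig N σ y) hσy hT, ← sub_eq_add_neg]
  congr 2
  exact mltph_class_npow hm y hy l

end ES

end Fermat.Agent.MLT
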