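/-
MLT / stream [P] = AtP, Hecke side (helper4), part 5: **a copy of `W[p]` in `J₀(N)[p]` killed by
`T_p`** (`p ∤ N`), from an eigenform `f` of level `N` congruent to `W` with `a_p(f) ∈ 𝔪`.

* `mltph_exists_eigen_p` : a non-zero `x ∈ J₀(N)[p]` with `T_ℓ x = a_ℓ(W) x` (good `ℓ ∤ N p`) and
  `T_p x = 0`;
* `mltphEigP N p W` : the part of the `W`-eigenspace `dlwEig N p W` killed by `T_p`;
* `mltph_exists_iso_p` : a Galois-stable `V₀ ≤ mltphEigP N p W` with an equivariant `W[p] ≃ V₀`.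
-/
import Mathlib
import Fermat.Agent.Lib.Delta.Wire.D1

set_option autoImplicit false
set_option linter.unusedSectionVars false
set_option linter.unusedVariables false
set_option linter.style.haveILetI false

namespace Fermat.Agent.MLT

open Complex Set Filter Topology Matrix MatrixGroups CongruenceSubgroup ModularCurve
open Fermat.Agent.S24Lib ModularCurve.Period
open AlgebraicCurve Fermat.Agent.T1 Fermat.Agent.T3 Fermat.Agent.Alpha Fermat.Agent.LR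
  Fermat.Agent.Delta Fermat.Agent.S58
open scoped TensorProduct

local notation "Qb" => AlgebraicClosure ℚ
local notation "GQ" => (AlgebraicClosure ℚ ≃ₐ[ℚ] AlgebraicClosure ℚ)

noncomputable section

variable {N : ℕ} [NeZero N] {p : ℕ} [hp : Fact p.Prime]

/-- **an eigenvector in `J₀(N)[p]` killed by `T_p`** -/
theorem mltph_exists_eigen_p (hpN : ¬ p ∣ N) {W : WeierstrassCurve ℤ}
    (f : CuspForm (CongruenceSubgroup.Gamma0 N) 2) (𝔪 : Ideal (integralClosure ℤ ℂ))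
    (hf : f.IsNormalizedEigenform) (hmax : 𝔪.IsMaximal) (hpm : (p : integralClosure ℤ ℂ) ∈ 𝔪)
    (hcong : ∀ ℓ : ℕ, ℓ.Prime → W.IsGoodPrimeFor ℓ → ¬ ℓ ∣ N → ℓ ≠ p →
      ∃ a : integralClosure ℤ ℂ, (a : ℂ) = ModularFormClass.qCoeff f ℓ ∧
        a - ((W.apOfModel ℓ : ℤ) : integralClosure ℤ ℂ) ∈ 𝔪)
    (a : integralClosure ℤ ℂ) (ha : (a : ℂ) = ModularFormClass.qCoeff f p) (ha𝔪 : a ∈ 𝔪) :
    ∃ x : JZero N, x ≠ 0 ∧ p • x = 0 ∧
      (∀ (ℓ : ℕ) (hℓ : ℓ.Prime), ¬ ℓ ∣ N → W.IsGoodPrimeFor ℓ → ℓ ≠ p →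
        heckeOperatorBar N ⟨ℓ, hℓ⟩ x = W.apOfModel ℓ • x) ∧
      heckeOperatorBar N ⟨p, hp.out⟩ x = 0 := by
  have hp0 : p ≠ 0 := hp.out.ne_zero
  obtain ⟨v, hv, hcore⟩ := lrc_core hp0 f hf 𝔪 hmax hpm
  set φ : ↥(parabolicHoms ℤ_[p] (Gamma0 N) ℤ_[p]) := tdmCastL N ℤ_[p] v with hφ
  have hφBC : φ = tdmBC N ℤ_[p] ((1 : ℤ_[p]) ⊗ₜ[ℤ] v) := by
    rw [tdmBC_tmul, one_smul]
  set x : ↥(Submodule.torsionBy ℤ (JZero N) ((p : ℤ) ^ 1)) := alptKummer p N 1 φ with hx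
  have key : ∀ y : ↥(Submodule.torsionBy ℤ (JZero N) ((p : ℤ) ^ 1)), (p : ℤ) • (y : JZero N) = 0 := by
    intro y
    have h1 := (Submodule.mem_torsionBy_iff _ _).mp y.2
    calc (p : ℤ) • (y : JZero N) = ((p : ℤ) ^ 1) • (y : JZero N) := by
          congr 1; exact (pow_one _).symm
      _ = 0 := h1
  have hxtor : p • (x : JZero N) = 0 := by
    rw [← natCast_zsmul]
    exact key x
  have hkill : ∀ z : ↥(tdmL N), (p : ℤ) • alptKummer p N 1 (tdmCastL N ℤ_[p] z) = 0 :=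
    fun z => Subtype.ext (key _)
  -- the general eigen-relation
  have hgen : ∀ (ℓ : ℕ) (hℓ : ℓ.Prime) (hℓN : ¬ ℓ ∣ N) (b : ℤ),
      terEigenChar hf ∅ (CuspForm.heckeAlgebra.T hℓ hℓN (Set.notMem_empty ℓ)) -
        (b : integralClosure ℤ ℂ) ∈ 𝔪 →
      heckeOperatorBar N ⟨ℓ, hℓ⟩ (x : JZero N) = b • (x : JZero N) := by
    intro ℓ hℓ hℓN b hb
    obtain ⟨z, hz⟩ := hcore (CuspForm.heckeAlgebra.T hℓ hℓN (Set.notMem_empty ℓ)) b hb
    have hT : tdmHeckeP p N (CuspForm.heckeAlgebra.T hℓ hℓN (Set.notMem_empty ℓ)) φ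
        = b • φ + (p : ℤ) • tdmCastL N ℤ_[p] z := by
      rw [hφBC, ← tdmHeckeP_he, LinearMap.baseChange_tmul, tdmBC_tmul, one_smul, ← hφBC, hφ,
        ← map_zsmul, ← map_zsmul, ← map_add]
      congr 1
      rw [← hz]
      abel
    rw [← dlw_kummer_hecke N p 1 hℓ hℓN φ, hT, map_add, map_zsmul, map_zsmul, hkill z, add_zero]
    rfl
  refine ⟨(x : JZero N), ?_, hxtor, ?_, ?_⟩
  · intro h0
    have h1 : x = 0 := Subtype.ext h0
    rw [hx, alptKummer_eq_zero_iff] at h1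
    obtain ⟨z, hz⟩ := dlw_dvd_of_cast_dvd v h1
    exact hv ⟨z, hz⟩
  · intro ℓ hℓ hℓN hgood hℓp
    obtain ⟨b, hbℓ, hb⟩ := hcong ℓ hℓ hgood hℓN hℓp
    exact hgen ℓ hℓ hℓN (W.apOfModel ℓ) (by rw [lrc_eigenChar_T hf hℓ hℓN hbℓ]; exact hb)
  · have := hgen p hp.out hpN 0 (by
      rw [lrc_eigenChar_T hf hp.out hpN ha, Int.cast_zero, sub_zero]; exact ha𝔪)
    rw [this, zero_zsmul]

variable (N p)

/-- the part of the `W`-eigenspace of `J₀(N)[p]` killed by `T_p` -/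
def mltphEigP (W : WeierstrassCurve ℤ) : AddSubgroup (JZero N) where
  carrier := {x | x ∈ dlwEig N p W ∧ heckeOperatorBar N ⟨p, hp.out⟩ x = 0}
  zero_mem' := ⟨(dlwEig N p W).zero_mem, map_zero _⟩
  add_mem' := by
    rintro x y ⟨hx, hx'⟩ ⟨hy, hy'⟩
    exact ⟨(dlwEig N p W).add_mem hx hy, by rw [map_add, hx', hy', add_zero]⟩
  neg_mem' := by
    rintro x ⟨hx, hx'⟩
    exact ⟨(dlwEig N p W).neg_mem hx, by rw [map_neg, hx', neg_zero]⟩

variable {N p}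

theorem mem_mltphEigP {W : WeierstrassCurve ℤ} {x : JZero N} :
    x ∈ mltphEigP N p W ↔ x ∈ dlwEig N p W ∧ heckeOperatorBar N ⟨p, hp.out⟩ x = 0 := Iff.rfl

/-- the `T_p`-part of the eigenspace is Galois stable -/
theorem mltph_eigP_smul_mem (hpN : ¬ p ∣ N) {W : WeierstrassCurve ℤ} (σ : GQ) {x : JZero N}
    (hx : x ∈ mltphEigP N p W) : σ • x ∈ mltphEigP N p W := by
  have hp0 : p ≠ 0 := hp.out.ne_zero
  obtain ⟨hx1, hx2⟩ := hx
  refine ⟨dlw_eig_smul_mem hp0 σ hx1, ?_⟩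
  show heckeOperatorBar N ⟨p, hp.out⟩ (σ • x) = 0
  rw [dlw_hecke_galois N hp.out hpN hp0 σ x (by rw [natCast_zsmul]; exact hx1.1)]
  have : heckeOperatorBar N ⟨p, hp.out⟩ x = 0 := hx2
  rw [this]
  exact smul_zero (A := JZero N) σ

/-- **a copy of `W[p]` in the part of the `W`-eigenspace of `J₀(N)[p]` killed by `T_p`** -/
theorem mltph_exists_iso_p (hpN : ¬ p ∣ N) (hp2 : p ≠ 2) (W : WeierstrassCurve ℤ)
    (hΔ : W.Δ ≠ 0) (hirr : W.ModRepIsIrreducible p) (x₀ : JZero N) (hx₀ : x₀ ≠ 0)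
    (hx₀mem : x₀ ∈ mltphEigP N p W) :
    ∃ (V₀ : AddSubgroup (JZero N)) (ψ : ↥(S58Tors W p) ≃+ ↥V₀), V₀ ≤ mltphEigP N p W ∧
      (∀ σ : GQ, ∀ x ∈ V₀, σ • x ∈ V₀) ∧
      ∀ (σ : GQ) (Q : S58Tors W p), ((ψ (σ • Q) : ↥V₀) : JZero N) = σ • ((ψ Q : ↥V₀) : JZero N) := by
  classical
  have hp0 : p ≠ 0 := hp.out.ne_zero
  haveI := dlw_eig_finite (N := N) hp0 W
  haveI : Finite ↥(mltphEigP N p W) :=
    Finite.of_injective (fun x : ↥(mltphEigP N p W) => (⟨x.1, x.2.1⟩ : dlwEig N p W))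
      (fun x y h => Subtype.ext (congrArg (fun z : dlwEig N p W => (z : JZero N)) h))
  have hVne : mltphEigP N p W ≠ ⊥ := by
    intro h
    have : x₀ ∈ (⊥ : AddSubgroup (JZero N)) := h ▸ hx₀mem
    exact hx₀ (AddSubgroup.mem_bot.mp this)
  obtain ⟨V₀, hle, hne, hstab, hmin⟩ := dlw_exists_minimal (G := GQ) (mltphEigP N p W) hVne
    (fun σ x hx => mltph_eigP_smul_mem hpN σ hx)
  haveI : Finite V₀ := Finite.of_injective (fun x : V₀ => (⟨x.1, hle x.2⟩ : mltphEigP N p W))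
    (fun x y h => Subtype.ext (congrArg (fun z : mltphEigP N p W => (z : JZero N)) h))
  have htor : ∀ x ∈ V₀, p • x = 0 := fun x hx => (hle hx).1.1
  have hlevel := dlw_level_of_finite N hp0 V₀ htor
  obtain ⟨ψ, hψ⟩ := dlw_iso_of_ES V₀ hp2 hne htor hstab hmin hlevel W hΔ hirr N.primeFactors
    (by
      intro ℓ hℓ hℓT hgood hℓp B φ hB hφ x hx
      have hℓN : ¬ ℓ ∣ N := fun h => hℓT (Nat.mem_primeFactors.mpr ⟨hℓ, h, NeZero.ne N⟩)
      have hℓp' : ¬ ℓ ∣ p := fun h => hℓp ((Nat.prime_dvd_prime_iff_eq hℓ hp.out).mp h)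
      have h1 := dlw_ES N hℓ hℓN hℓp' B hB φ hφ x (htor x hx)
      have h2 := (hle (hstab φ x hx)).1.2 ℓ hℓ hℓN hgood hℓp
      rw [h2] at h1
      exact h1)
  exact ⟨V₀, ψ, hle, hstab, hψ⟩

end

end Fermat.Agent.MLT
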