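/-
MLT / stream [P] = AtP, Hecke side (helper4), part 13: **regular differentials reduce to regular
differentials** — the base-free argument (valid in residue characteristic `3`, where the `j`-line
criterion of `dll_red_mem` breaks down because `0 = 1728`).

Setting of T3-A: `hg : T3aGood d ℓ x` (good reduction with respect to the coordinate `x`), `r` a
reduction map of places.  Let `Q` be a place of the reduced function field on the chart `x̄ ≠ ∞` and
`t ∈ C = 𝒪 ∩ IntCl(K[x])` with `res t` a uniformizer at `Q`.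

* `mltph_tube_uniformizer` : for every `P` in the tube of `Q`, `t - t(P)` is a uniformizer at `P`
  (conservation law for `t - t(P)`: the sum of the non-negative orders over the tube is `1`);
* `mltph_ord_res_nonneg` : if `φ ∈ 𝒪` and `φ dt` is regular on the tube of `Q`, then
  `ord_Q (res φ) ≥ 0` (conservation law for `φ`);
* `mltph_ordDifferential_res_nonneg` : then `res φ · d(res t)` is regular at `Q`.
-/
import Mathlib
import Fermat.Agent.Lib.T3.Red.Cons2
import Fermat.Agent.Lib.CurveP.RiemannRoch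

set_option autoImplicit false
set_option linter.style.haveILetI false
set_option linter.unusedSectionVars false
set_option linter.unusedVariables false

namespace Fermat.Agent.MLT

open AlgebraicCurve IntermediateField Fermat.Agent.Curve Fermat.Agent.Curve.PlaceAux
  Fermat.Agent.T1 Fermat.Agent.T3 KaehlerDifferential

variable {K F k Fb : Type*} [Field K] [Field F] [Algebra K F] [Field k] [Field Fb] [Algebra k Fb]
  [IsAlgClosed K] [IsAlgClosed k]
variable {d : TbBase K F k Fb} {ℓ : ℕ} {x : F} (hg : T3aGood d ℓ x)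
variable {r : Place K F → Place k Fb}

include hg

/-- a place of the tube of a chart place is a chart place, and `x` is regular there -/
theorem mltph_tube_chart (hr : T3aIsRed d x r) (Q : Place k Fb) (hQ : 0 ≤ Q.ord hg.xb)
    (P : Place K F) (hP : r P = Q) : T3aChartPlace d x P ∧ 0 ≤ P.ord x := by
  have hPch : T3aChartPlace d x P := hr.chartPlace_of_ord_nonneg hg (by rw [hP]; exact hQ)
  obtain ⟨a, ha⟩ := id hPch
  exact ⟨hPch, ord_nonneg_of_mem P (CurveP.RRAux.mem_of_ordGE_sub_const P ha)⟩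

open Classical in
/-- **in the tube of `Q` the function `t - t(P)` is a uniformizer at `P`** -/
theorem mltph_tube_uniformizer (hr : T3aIsRed d x r) (Q : Place k Fb) (hQ : 0 ≤ Q.ord hg.xb)
    {t : F} (htC : t ∈ t3aC d x) (htQ : Q.ord (d.res ⟨t, htC.1⟩) = 1)
    (P : Place K F) (hP : r P = Q) :
    ∃ c : ↥d.A, P.ord (t - algebraMap K F (c : K)) = 1 := by
  haveI := hg.sep
  obtain ⟨hPch, hPx⟩ := mltph_tube_chart hg hr Q hQ P hP
  obtain ⟨c, hc⟩ := t3a_value_mem hg hPch htC
  refine ⟨c, ?_⟩
  have h1 := hr.eval1 P hPch t htC c hc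
  rw [hP] at h1
  have h2 : OrdGE Q (d.res ⟨t, htC.1⟩) 1 := (ordGE_iff Q).mpr (Or.inr (le_of_eq htQ.symm))
  have h3 := h2.sub Q h1
  rw [sub_sub_cancel] at h3
  have hc0 : d.resA c = 0 := t3a_const_eq_zero_of_ordGE Q h3
  have huC : t - algebraMap K F (c : K) ∈ t3aC d x :=
    (t3aC d x).sub_mem htC (t3a_algebraMap_mem_C d x c)
  have hresu : d.res ⟨t - algebraMap K F (c : K), huC.1⟩ = d.res ⟨t, htC.1⟩ := by
    rw [d.res_sub' htC.1 (d.algebraMap_mem c), d.res_algebraMap, hc0, map_zero, sub_zero]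
  have hres0 : d.res ⟨t - algebraMap K F (c : K), huC.1⟩ ≠ 0 := by
    rw [hresu]
    intro h0
    rw [h0, Q.ord_zero] at htQ
    exact zero_ne_one htQ
  have hu0 : t - algebraMap K F (c : K) ≠ 0 := t3a_ne_zero_of_res_ne_zero d huC.1 hres0
  have hcons := t3a_conservation_of_isRed hg hr huC.1 hres0
    (CurveP.divOf hg.gen (t - algebraMap K F (c : K)))
    (fun P' => CurveP.divOf_apply hg.gen hu0 P') Q
  rw [hresu, htQ, t3a_mapDomain_apply] at hcons
  have hDP : ∀ P' : Place K F, CurveP.divOf hg.gen (t - algebraMap K F (c : K)) P' =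
      P'.ord (t - algebraMap K F (c : K)) := fun P' => CurveP.divOf_apply hg.gen hu0 P'
  have hnn : ∀ P' ∈ (CurveP.divOf hg.gen (t - algebraMap K F (c : K))).support,
      0 ≤ (if r P' = Q then CurveP.divOf hg.gen (t - algebraMap K F (c : K)) P' else 0) := by
    intro P' _
    split_ifs with hP'
    · rw [hDP]
      exact ta_ord_nonneg_of_isIntegral huC.2 P' (mltph_tube_chart hg hr Q hQ P' hP').2
    · exact le_rfl
  have hge : 1 ≤ P.ord (t - algebraMap K F (c : K)) := by
    rcases (ordGE_iff P).mp hc with h0 | h0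
    · exact absurd h0 hu0
    · exact h0
  have hmem : P ∈ (CurveP.divOf hg.gen (t - algebraMap K F (c : K))).support := by
    rw [Finsupp.mem_support_iff, hDP]
    omega
  have hle := Finset.single_le_sum hnn hmem
  rw [if_pos hP, hcons, hDP] at hle
  omega

open Classical in
/-- **if `φ dt` is regular on the tube of `Q`, then `res φ` is regular at `Q`** -/
theorem mltph_ord_res_nonneg (hr : T3aIsRed d x r) (Q : Place k Fb) (hQ : 0 ≤ Q.ord hg.xb)
    {t : F} (htC : t ∈ t3aC d x) (htQ : Q.ord (d.res ⟨t, htC.1⟩) = 1)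
    {φ : F} (hφ : φ ∈ d.Ov)
    (hreg : ∀ P : Place K F, r P = Q → 0 ≤ P.ordDifferential (φ • D K F t)) :
    0 ≤ Q.ord (d.res ⟨φ, hφ⟩) := by
  haveI := hg.sep
  by_cases hres : d.res ⟨φ, hφ⟩ = 0
  · rw [hres, Q.ord_zero]
  have hφ0 : φ ≠ 0 := t3a_ne_zero_of_res_ne_zero d hφ hres
  have hcons := t3a_conservation_of_isRed hg hr hφ hres (CurveP.divOf hg.gen φ)
    (fun P => CurveP.divOf_apply hg.gen hφ0 P) Q
  rw [← hcons, t3a_mapDomain_apply]
  refine Finset.sum_nonneg fun P _ => ?_
  split_ifs with hP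
  · obtain ⟨c, hc⟩ := mltph_tube_uniformizer hg hr Q hQ htC htQ P hP
    haveI := hg.sep
    have hpos : 0 < P.ord (t - algebraMap K F (c : K)) := by rw [hc]; exact one_pos
    have hchar : (((P.ord (t - algebraMap K F (c : K))).toNat : ℕ) : K) ≠ 0 := by
      rw [hc]
      simp
    obtain ⟨h1, h2⟩ := CurveP.differentialCoeff_D_of_pos hg.gen P t (c : K) hpos hchar
    have hDt : D K F t ≠ 0 := by
      intro h0
      apply h1
      rw [h0]
      haveI := CurveP.dCoordGenerates hg.gen P
      haveI := CurveP.nontrivial_kaehler_of_place hg.gen P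
      exact P.differentialCoeff_zero
    have h3 := CurveP.ordDifferential_smul' hg.gen P hφ0 hDt
    have h4 : P.ordDifferential (D K F t) = 0 := by
      rw [Place.ordDifferential, h2, hc]
      ring
    have h5 := hreg P hP
    rw [h3, h4, add_zero] at h5
    rw [CurveP.divOf_apply hg.gen hφ0]
    exact h5
  · exact le_rfl

/-- **if `φ dt` is regular on the tube of `Q`, then `res φ · d(res t)` is regular at `Q`** -/
theorem mltph_ordDifferential_res_nonneg (hr : T3aIsRed d x r) (Q : Place k Fb)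
    (hQ : 0 ≤ Q.ord hg.xb)
    {t : F} (htC : t ∈ t3aC d x) (htQ : Q.ord (d.res ⟨t, htC.1⟩) = 1)
    {φ : F} (hφ : φ ∈ d.Ov)
    (hreg : ∀ P : Place K F, r P = Q → 0 ≤ P.ordDifferential (φ • D K F t)) :
    0 ≤ Q.ordDifferential (d.res ⟨φ, hφ⟩ • D k Fb (d.res ⟨t, htC.1⟩)) := by
  have hord := mltph_ord_res_nonneg hg hr Q hQ htC htQ hφ hreg
  haveI := hg.sepb'
  by_cases hres : d.res ⟨φ, hφ⟩ = 0
  · rw [hres, zero_smul, CurveP.ordDifferential_zero hg.genb']
  have hpos : 0 < Q.ord (d.res ⟨t, htC.1⟩ - algebraMap k Fb 0) := by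
    rw [map_zero, sub_zero, htQ]; exact one_pos
  have hchar : (((Q.ord (d.res ⟨t, htC.1⟩ - algebraMap k Fb 0)).toNat : ℕ) : k) ≠ 0 := by
    rw [map_zero, sub_zero, htQ]
    simp
  obtain ⟨h1, h2⟩ := CurveP.differentialCoeff_D_of_pos hg.genb' Q (d.res ⟨t, htC.1⟩) 0 hpos hchar
  have hDt : D k Fb (d.res ⟨t, htC.1⟩) ≠ 0 := by
    intro h0
    apply h1
    rw [h0]
    haveI := CurveP.dCoordGenerates hg.genb' Q
    haveI := CurveP.nontrivial_kaehler_of_place hg.genb' Q
    exact Q.differentialCoeff_zero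
  have h4 : Q.ordDifferential (D k Fb (d.res ⟨t, htC.1⟩)) = 0 := by
    rw [Place.ordDifferential, h2, map_zero, sub_zero, htQ]
    ring
  rw [CurveP.ordDifferential_smul' hg.genb' Q hres hDt, h4, add_zero]
  exact hord

end Fermat.Agent.MLT
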