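/-
MLT / stream [P] = AtP, Hecke side (helper4), part 14: **(LIFT-incl) in every residue
characteristic** — the reduction of an integral cusp form of level `M` (`4 ∣ M` or `9 ∣ M`,
`p ∤ M`) is the `q`-expansion of a regular differential of the reduced curve.  No hypothesis
`p ≥ 5`: the `j`-line criterion of `dll_red_mem` is replaced by the base-free argument of
`RegRed.lean` (conservation law of T3-A).

* `mltph_gauss_qTheta` : `θ = q d/dq` preserves the Gauss ring of `K((q))` and commutes with the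
  reduction;
* `mltph_dcoeff` : for `t ∈ F_M`, `dt = c dj` with `c θ(j) = θ(t)`; if `t` is Gauss-integral, so is
  `c`, and `res c · θ(j̄) = θ(res t)`;
* `mltph_red_regular_at` : the local statement at a place `Q` of the chart `x' ≠ ∞`
  (`x' = j` or `j⁻¹`);
* `mltph_red_mem` : **(LIFT-incl)**;
* `mltph_lift_of_indep`, `mltph_lift` : the `q`-expansion principle in weight `2`.
-/
import Mathlib
import Fermat.Agent.Lib.MLT.AtP.H.RegRed
import Fermat.Agent.Lib.Delta.Lift.Main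
import Fermat.Agent.Lib.Delta.Lift.Indep
import Fermat.Agent.Lib.Delta.Slope.Theta

set_option autoImplicit false
set_option linter.unusedSectionVars false
set_option linter.unusedVariables false
set_option linter.style.haveILetI false
set_option synthInstance.maxHeartbeats 400000

namespace Fermat.Agent.MLT

open ModularCurve HahnSeries Fermat.Agent.T1 Fermat.Agent.S23Lib Fermat.Agent.Igusa
  Fermat.Agent.TW KaehlerDifferential ModularFormClass CongruenceSubgroup AlgebraicCurve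
  IntermediateField Fermat.Agent.S24Lib Fermat.Agent.T3 Fermat.Agent.Curve Fermat.Agent.Delta
  Fermat.Agent.Curve.PlaceAux

local notation "Qb" => AlgebraicClosure ℚ

noncomputable section

/-! ### `θ` and the Gauss ring -/

section Gauss

variable {K : Type*} [Field K] (A : ValuationSubring K) {k : Type*} [Field k] (π : ↥A →+* k)

/-- `θ` preserves the Gauss ring and commutes with the reduction -/
theorem mltph_gauss_qTheta {f : LaurentSeries K} (hf : TbGauss A π f) :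
    TbGauss A π (qTheta f) ∧ tbRhoFun A π (qTheta f) = qTheta (tbRhoFun A π f) := by
  obtain ⟨a, b, hb, e⟩ := hf
  have hb' : tbInc A b ≠ 0 := tbInc_ne_zero_of_red A π hb
  have e2 : qTheta f * tbInc A (b * b) = tbInc A (qTheta a * b - a * qTheta b) := by
    rw [map_mul, map_sub, map_mul, map_mul, dls_inc_qTheta, dls_inc_qTheta, ← e, qTheta_mul]
    ring
  have hbb : tbRed π (b * b) ≠ 0 := by
    rw [map_mul]
    exact mul_ne_zero hb hb
  refine ⟨⟨_, _, hbb, e2⟩, ?_⟩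
  rw [tbRhoFun_eq A π hbb e2, tbRhoFun_eq A π hb e, map_mul, map_sub, map_mul, map_mul,
    dls_red_qTheta, dls_red_qTheta]
  set y := tbRed π a / tbRed π b with hy
  have ha : tbRed π a = y * tbRed π b := (div_mul_cancel₀ _ hb).symm
  rw [ha, qTheta_mul, div_eq_iff (mul_ne_zero hb hb)]
  ring

end Gauss

variable (𝔓 : FFPlace) (M : ℕ) [NeZero M]

/-! ### The coefficient of `dt` with respect to `dj` -/

/-- `dt = c dj` with `c θ(j) = θ(t)` -/
theorem mltph_dcoeff (t : ↥(modularFunctionFieldBar M)) :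
    ∃ c : ↥(modularFunctionFieldBar M),
      D Qb ↥(modularFunctionFieldBar M) t = c • D Qb ↥(modularFunctionFieldBar M) (tbJ M) ∧
      (c : LaurentSeries Qb) * thetaJ Qb = qTheta (t : LaurentSeries Qb) := by
  have hx : IsFunctionFieldGen Qb ↥(modularFunctionFieldBar M) (tbJ M) :=
    isFunctionFieldGen_jBar M
  haveI : Algebra.IsSeparable ↥(Qb⟮tbJ M⟯) ↥(modularFunctionFieldBar M) := by
    haveI := hx.finite
    haveI : CharZero ↥(Qb⟮tbJ M⟯) :=
      charZero_of_injective_algebraMap (algebraMap Qb ↥(Qb⟮tbJ M⟯)).injective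
    infer_instance
  obtain ⟨c, hc⟩ := CurveP.exists_eq_smul_D hx (D Qb ↥(modularFunctionFieldBar M) t)
  refine ⟨c, hc, ?_⟩
  have h1 := congrArg (dllPsiS (modularFunctionFieldBar M)) hc
  rw [dllPsiS_D, dllPsiS_smul_D] at h1
  exact h1.symm

/-- if `t` is Gauss-integral, so is the coefficient `c` of `dt = c dj`, and
`res c · θ(j̄) = θ(res t)` -/
theorem mltph_dcoeff_gauss (hM : ¬ 𝔓.p ∣ M) {t c : ↥(modularFunctionFieldBar M)}
    (ht : t ∈ tbOvQ 𝔓 M)
    (hc : (c : LaurentSeries Qb) * thetaJ Qb = qTheta (t : LaurentSeries Qb)) :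
    ∃ hcO : c ∈ tbOvQ 𝔓 M,
      ((tbResQ (t3aOK 𝔓 M hM) ⟨c, hcO⟩ : ↥(tbBarF 𝔓 M)) :
          LaurentSeries (IsLocalRing.ResidueField ↥𝔓.P)) *
        thetaJ (IsLocalRing.ResidueField ↥𝔓.P) =
      qTheta ((tbResQ (t3aOK 𝔓 M hM) ⟨t, ht⟩ : ↥(tbBarF 𝔓 M)) :
          LaurentSeries (IsLocalRing.ResidueField ↥𝔓.P)) := by
  have hOK := t3aOK 𝔓 M hM
  obtain ⟨hG, hρ⟩ := mltph_gauss_qTheta 𝔓.P (IsLocalRing.residue ↥𝔓.P)
    ((mem_tbOvQ 𝔓 M t).mp ht)
  obtain ⟨a, b, hb, e⟩ := hG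
  have hθres : coeffMap (IsLocalRing.residue ↥𝔓.P) (thetaJ ↥𝔓.P) =
      thetaJ (IsLocalRing.ResidueField ↥𝔓.P) := coeffMap_thetaJ _
  have hθsub : coeffMap 𝔓.P.subtype (thetaJ ↥𝔓.P) = thetaJ Qb := coeffMap_thetaJ _
  have hb2 : coeffMap (IsLocalRing.residue ↥𝔓.P) (thetaJ ↥𝔓.P * b) ≠ 0 := by
    rw [map_mul, hθres]
    exact mul_ne_zero (thetaJ_ne_zero _) hb
  have hf : (c : LaurentSeries Qb) * coeffMap 𝔓.P.subtype (thetaJ ↥𝔓.P * b) =
      coeffMap 𝔓.P.subtype a := by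
    rw [map_mul, hθsub, ← mul_assoc, hc]
    exact e
  refine ⟨tbq_mem_of_frac hb2 hf, ?_⟩
  rw [tbResQ_of_frac hOK hb2 hf, coe_tbResQ, ← hρ, tbRhoFun_eq 𝔓.P _ hb e, map_mul, hθres]
  have hθ0 := thetaJ_ne_zero (IsLocalRing.ResidueField ↥𝔓.P)
  show coeffMap (IsLocalRing.residue ↥𝔓.P) a /
      (thetaJ (IsLocalRing.ResidueField ↥𝔓.P) * coeffMap (IsLocalRing.residue ↥𝔓.P) b) *
      thetaJ (IsLocalRing.ResidueField ↥𝔓.P) =
    coeffMap (IsLocalRing.residue ↥𝔓.P) a / coeffMap (IsLocalRing.residue ↥𝔓.P) b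
  have hb0 : coeffMap (IsLocalRing.residue ↥𝔓.P) b ≠ 0 := hb
  field_simp

/-! ### The local statement -/

set_option maxHeartbeats 1600000 in
/-- the reduction of a regular differential `h dj` with Gauss-integral `h` is regular at the places
of the chart `x' ≠ ∞` -/
theorem mltph_red_regular_at (hM : ¬ 𝔓.p ∣ M) {x' : ↥(modularFunctionFieldBar M)}
    (hg' : T3aGood (t3aBase 𝔓 M hM) 𝔓.p x')
    {r : Place Qb ↥(modularFunctionFieldBar M) →
      Place (IsLocalRing.ResidueField ↥𝔓.P) ↥(tbBarF 𝔓 M)}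
    (hr : T3aIsRed (t3aBase 𝔓 M hM) x' r)
    (Q : Place (IsLocalRing.ResidueField ↥𝔓.P) ↥(tbBarF 𝔓 M)) (hQ : 0 ≤ Q.ord hg'.xb)
    (h : ↥(modularFunctionFieldBar M)) (hmem : h ∈ tbOvQ 𝔓 M)
    (hreg : ∀ P : Place Qb ↥(modularFunctionFieldBar M),
      0 ≤ P.ordDifferential (h • D Qb ↥(modularFunctionFieldBar M) (tbJ M))) :
    0 ≤ Q.ordDifferential (tbResQ (t3aOK 𝔓 M hM) ⟨h, hmem⟩ •
      D (IsLocalRing.ResidueField ↥𝔓.P) ↥(tbBarF 𝔓 M) (tbBarJ 𝔓 M)) := by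
  haveI : IsAlgClosed (IsLocalRing.ResidueField ↥𝔓.P) := tb_isAlgClosed_residueField 𝔓.P
  have hOK := t3aOK 𝔓 M hM
  set d := t3aBase 𝔓 M hM with hd
  haveI : Fact (IsFunctionFieldGen (IsLocalRing.ResidueField ↥𝔓.P) ↥(tbBarF 𝔓 M) hg'.xb) :=
    ⟨hg'.genb'⟩
  haveI := hg'.sepb'
  -- a uniformizer at `Q` and its lift
  have hxQ : hg'.xb ∈ Q.toValuationSubring := mem_of_ord_nonneg Q hQ
  obtain ⟨tb, htb, htb1⟩ := t3a_exists_uniformizer Q hxQ
  obtain ⟨t, htC, hres⟩ := t3a_exists_lift hg' htb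
  have htQ : Q.ord (d.res ⟨t, htC.1⟩) = 1 := by rw [hres]; exact htb1
  -- the coefficient of `dt`
  obtain ⟨c, hcD, hcθ⟩ := mltph_dcoeff M t
  have htO : t ∈ tbOvQ 𝔓 M := htC.1
  obtain ⟨hcO, hcres⟩ := mltph_dcoeff_gauss 𝔓 M hM htO hcθ
  -- `d(res t) ≠ 0`, hence `θ(res t) ≠ 0`
  have hpos : 0 < Q.ord (d.res ⟨t, htC.1⟩ - algebraMap (IsLocalRing.ResidueField ↥𝔓.P) _ 0) := by
    rw [map_zero, sub_zero, htQ]; exact one_pos
  have hchar : (((Q.ord (d.res ⟨t, htC.1⟩ -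
      algebraMap (IsLocalRing.ResidueField ↥𝔓.P) _ 0)).toNat : ℕ) :
        IsLocalRing.ResidueField ↥𝔓.P) ≠ 0 := by
    rw [map_zero, sub_zero, htQ]
    simp
  obtain ⟨h1, -⟩ := CurveP.differentialCoeff_D_of_pos hg'.genb' Q (d.res ⟨t, htC.1⟩) 0 hpos hchar
  have hDt : D (IsLocalRing.ResidueField ↥𝔓.P) ↥(tbBarF 𝔓 M) (d.res ⟨t, htC.1⟩) ≠ 0 := by
    intro h0
    apply h1
    rw [h0]
    haveI := CurveP.dCoordGenerates hg'.genb' Q
    haveI := CurveP.nontrivial_kaehler_of_place hg'.genb' Q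
    exact Q.differentialCoeff_zero
  have hθt : qTheta ((tbResQ hOK ⟨t, htO⟩ : ↥(tbBarF 𝔓 M)) :
      LaurentSeries (IsLocalRing.ResidueField ↥𝔓.P)) ≠ 0 := by
    intro h0
    apply hDt
    apply dllPsi_injective 𝔓 M hM
    rw [map_zero, dllPsi_D]
    exact h0
  have hcres0 : d.res ⟨c, hcO⟩ ≠ 0 := by
    intro h0
    apply hθt
    rw [← hcres]
    have : tbResQ hOK ⟨c, hcO⟩ = 0 := h0
    rw [this, IntermediateField.coe_zero, zero_mul]
  have hc0 : c ≠ 0 := t3a_ne_zero_of_res_ne_zero d hcO hcres0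
  -- `d(res t) = res c · dj̄`
  have hDtb : D (IsLocalRing.ResidueField ↥𝔓.P) ↥(tbBarF 𝔓 M) (d.res ⟨t, htC.1⟩) =
      d.res ⟨c, hcO⟩ • D (IsLocalRing.ResidueField ↥𝔓.P) ↥(tbBarF 𝔓 M) (tbBarJ 𝔓 M) := by
    apply dllPsi_injective 𝔓 M hM
    rw [dllPsi_D, dllPsi_smul_D]
    exact hcres.symm
  -- `φ = h / c`
  have hciO : c⁻¹ ∈ d.Ov := t3a_inv_mem_Ov d hcO hcres0
  have hφO : h * c⁻¹ ∈ d.Ov := d.Ov.mul_mem hmem hciO
  have hφD : (h * c⁻¹) • D Qb ↥(modularFunctionFieldBar M) t =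
      h • D Qb ↥(modularFunctionFieldBar M) (tbJ M) := by
    rw [hcD, smul_smul, mul_assoc, inv_mul_cancel₀ hc0, mul_one]
  have hmain := mltph_ordDifferential_res_nonneg hg' hr Q hQ htC htQ hφO
    (fun P _ => by rw [hφD]; exact hreg P)
  have hφres : d.res ⟨h * c⁻¹, hφO⟩ = d.res ⟨h, hmem⟩ * (d.res ⟨c, hcO⟩)⁻¹ := by
    rw [d.res_mul' hmem hciO, t3a_res_inv d hcO hcres0]
  rw [hφres, hDtb, smul_smul, mul_assoc, inv_mul_cancel₀ hcres0, mul_one] at hmain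
  exact hmain

/-! ### The main inclusion -/

set_option maxHeartbeats 1600000 in
/-- **(LIFT-incl), every residue characteristic**: at a rigid level (`4 ∣ M` or `9 ∣ M`, `p ∤ M`)
the reduction of an integral cusp form is the `q`-expansion of a regular differential of the reduced
curve -/
theorem mltph_red_mem (h49 : 4 ∣ M ∨ 9 ∣ M) (hM : ¬ 𝔓.p ∣ M)
    (g : CuspForm (Gamma0 M) 2) (hg : g ∈ CuspForm.intLattice M 2) :
    ∃ ω : Ω[↥(tbBarF 𝔓 M)⁄(IsLocalRing.ResidueField ↥𝔓.P)],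
      (∀ v : Place (IsLocalRing.ResidueField ↥𝔓.P) ↥(tbBarF 𝔓 M), 0 ≤ v.ordDifferential ω) ∧
      dllPsi 𝔓 M ω = dleRedForm 𝔓 M g := by
  haveI : IsAlgClosed (IsLocalRing.ResidueField ↥𝔓.P) := tb_isAlgClosed_residueField 𝔓.P
  have hOK := t3aOK 𝔓 M hM
  have hgood := t3a_good_modular 𝔓 M h49 hM
  -- (B1): the regular differential `h dj`
  obtain ⟨h, hreg, hser⟩ := dll_exists_regCoeff M g (fun n => ((dllCoeffZ M g n : ℤ) : Qb))
    (fun n => by rw [dllCoeffZ_spec M hg n, map_intCast])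
  -- (B2): `h` is Gauss-integral
  obtain ⟨hmem, hres⟩ := dll_gauss 𝔓 M hM h (dllCoeffZ M g) hser
  refine ⟨tbResQ hOK ⟨h, hmem⟩ •
    D (IsLocalRing.ResidueField ↥𝔓.P) ↥(tbBarF 𝔓 M) (tbBarJ 𝔓 M), ?_, ?_⟩
  swap
  · rw [dllPsi_smul_D, dleRedForm]
    exact hres
  -- (B3): regularity, chart by chart
  have hregv : ∀ v : Place Qb ↥(modularFunctionFieldBar M),
      0 ≤ v.ordDifferential (h • D Qb ↥(modularFunctionFieldBar M) (tbJ M)) := hreg
  intro Q
  have hr := t3aR_isRed hgood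
  by_cases hQ : 0 ≤ Q.ord hgood.xb
  · exact mltph_red_regular_at 𝔓 M hM hgood hr Q hQ h hmem hregv
  · have hQ' : 0 ≤ Q.ord hgood.inv.xb := by
      have h1 : hgood.inv.xb = hgood.xb⁻¹ := hgood.res_inv
      rw [h1, Q.ord_inv]
      omega
    exact mltph_red_regular_at 𝔓 M hM hgood.inv hr.inv Q hQ' h hmem hregv

/-! ### The `q`-expansion principle in weight 2 -/

set_option maxHeartbeats 1600000 in
/-- **the `q`-expansion principle in weight 2, every residue characteristic**, given enough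
independent reductions (the proof of `dll_lift_of_indep` with `mltph_red_mem`) -/
theorem mltph_lift_of_indep (h49 : 4 ∣ M ∨ 9 ∣ M) (hM : ¬ 𝔓.p ∣ M)
    (hind : ∃ (n : ℕ) (f : Fin n → ↥(CuspForm.intLattice M 2)),
      Module.finrank ℂ (CuspForm (Gamma0 M) 2) ≤ n ∧
      LinearIndependent (IsLocalRing.ResidueField ↥𝔓.P)
        (fun i => dleRedForm 𝔓 M ((f i : ↥(CuspForm.intLattice M 2)) : CuspForm (Gamma0 M) 2)))
    (ω : Ω[↥(tbBarF 𝔓 M)⁄(IsLocalRing.ResidueField ↥𝔓.P)])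
    (hω : ∀ v : Place (IsLocalRing.ResidueField ↥𝔓.P) ↥(tbBarF 𝔓 M), 0 ≤ v.ordDifferential ω) :
    dllPsi 𝔓 M ω ∈ Submodule.span (IsLocalRing.ResidueField ↥𝔓.P)
      (Set.range fun g : ↥(CuspForm.intLattice M 2) =>
        dleRedForm 𝔓 M (g : CuspForm (Gamma0 M) 2)) := by
  classical
  haveI : IsAlgClosed (IsLocalRing.ResidueField ↥𝔓.P) := tb_isAlgClosed_residueField 𝔓.P
  have hOK := t3aOK 𝔓 M hM
  have hxb := tbq_bar_isFunctionFieldGen 𝔓 M
  haveI := tbq_bar_isSeparable (𝔓 := 𝔓) (N := M) hM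
  obtain ⟨n, f, hn, hli⟩ := hind
  have hex : ∀ i, ∃ η : ↥(CurveP.regularDifferentials hxb),
      dllPsiRegS (tbBarF 𝔓 M) hxb η = dleRedForm 𝔓 M ((f i : ↥(CuspForm.intLattice M 2)) :
        CuspForm (Gamma0 M) 2) := by
    intro i
    obtain ⟨η, hη, hη2⟩ := mltph_red_mem 𝔓 M h49 hM (f i : CuspForm (Gamma0 M) 2) (f i).2
    exact ⟨⟨η, hη⟩, hη2⟩
  choose η hη using hex
  have hliη : LinearIndependent (IsLocalRing.ResidueField ↥𝔓.P) η := by
    refine LinearIndependent.of_comp (dllPsiRegS (tbBarF 𝔓 M) hxb) ?_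
    have : (dllPsiRegS (tbBarF 𝔓 M) hxb) ∘ η = fun i => dleRedForm 𝔓 M
        ((f i : ↥(CuspForm.intLattice M 2)) : CuspForm (Gamma0 M) 2) := by
      funext i
      exact hη i
    rw [this]
    exact hli
  have hg1 : (CurveP.genusR (IsLocalRing.ResidueField ↥𝔓.P) ↥(tbBarF 𝔓 M) : ℚ) ≤
      genusFormula M := tbq_genusR_le' hOK hM
  have hg2 : (Module.finrank ℂ (CuspForm (Gamma0 M) 2) : ℚ) = genusFormula M :=
    Fermat.Agent.S20.result M
  have hg3 : CurveP.genusR (IsLocalRing.ResidueField ↥𝔓.P) ↥(tbBarF 𝔓 M) ≤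
      Module.finrank ℂ (CuspForm (Gamma0 M) 2) := by
    rw [← hg2] at hg1
    exact_mod_cast hg1
  have hfr := CurveP.finrank_regularDifferentials hxb
  haveI : FiniteDimensional (IsLocalRing.ResidueField ↥𝔓.P)
      ↥(CurveP.regularDifferentials hxb) := dll_finiteDimensional_regular hxb
  have hcard : Fintype.card (Fin n) = Module.finrank (IsLocalRing.ResidueField ↥𝔓.P)
      ↥(CurveP.regularDifferentials hxb) := by
    have h1 := hliη.fintype_card_le_finrank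
    rw [Fintype.card_fin] at h1 ⊢
    omega
  have hspan := hliη.span_eq_top_of_card_eq_finrank' hcard
  have hmem : (⟨ω, hω⟩ : ↥(CurveP.regularDifferentials hxb)) ∈
      Submodule.span (IsLocalRing.ResidueField ↥𝔓.P) (Set.range η) := by
    rw [hspan]; exact Submodule.mem_top
  have h2 := Submodule.mem_map_of_mem (f := dllPsiRegS (tbBarF 𝔓 M) hxb) hmem
  rw [Submodule.map_span] at h2
  refine Submodule.span_mono ?_ h2
  rintro _ ⟨_, ⟨i, rfl⟩, rfl⟩
  exact ⟨f i, (hη i).symm⟩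

/-- **the `q`-expansion principle in weight 2** at the rigid levels, every residue
characteristic -/
theorem mltph_lift (h49 : 4 ∣ M ∨ 9 ∣ M) (hM : ¬ 𝔓.p ∣ M)
    (ω : Ω[↥(tbBarF 𝔓 M)⁄(IsLocalRing.ResidueField ↥𝔓.P)])
    (hω : ∀ v : Place (IsLocalRing.ResidueField ↥𝔓.P) ↥(tbBarF 𝔓 M), 0 ≤ v.ordDifferential ω) :
    dllPsi 𝔓 M ω ∈ Submodule.span (IsLocalRing.ResidueField ↥𝔓.P)
      (Set.range fun g : ↥(CuspForm.intLattice M 2) =>
        dleRedForm 𝔓 M (g : CuspForm (Gamma0 M) 2)) :=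
  mltph_lift_of_indep 𝔓 M h49 hM (dll_indep M 𝔓) ω hω

end

end Fermat.Agent.MLT
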