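/-
MLT / stream [P] = AtP, Hecke side (helper4), part 15: **the endgame of DELTA without `p ≥ 5`**.

Forks of helper3's `dle_old`, `dle_geoB`, `dle_endB` (`Lib/Delta/End/{Old,GeoB,EndB}.lean`): the
hypothesis `5 ≤ p` is replaced by
* `h49M : 4 ∣ M ∨ 9 ∣ M` — the final level `M` is rigid, so the `q`-expansion principle
  `mltph_lift` (Lift3.lean) applies in every residue characteristic;
* `d, hd, hpd` — the index `ψ(Me)/ψ(M)` is prime to `p` (for `p = 3` take `e = 1`, `d = 1`).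
The proofs are verbatim.
-/
import Mathlib
import Fermat.Agent.Lib.MLT.AtP.H.Lift3
import Fermat.Agent.Lib.Delta.End.EndB

set_option autoImplicit false
set_option linter.unusedSectionVars false
set_option linter.unusedVariables false
set_option linter.style.haveILetI false
set_option synthInstance.maxHeartbeats 400000

namespace Fermat.Agent.MLT

open ModularCurve HahnSeries Fermat.Agent.T1 Fermat.Agent.T2 Fermat.Agent.TW Fermat.Agent.S24Lib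
  Fermat.Agent.S33Q Fermat.Agent.S33 Fermat.Agent.S05Lib AlgebraicCurve Fermat.Agent.Curve
  Fermat.Agent.T3 Fermat.Agent.Alpha ModularFormClass CongruenceSubgroup Fermat.Agent.S23Lib
  KaehlerDifferential Fermat.Agent.Curve.PlaceAux Fermat.Agent.Delta

local notation "Qb" => AlgebraicClosure ℚ

noncomputable section

attribute [local instance] t2gp_fact
attribute [local instance] s33g_neZero
attribute [local instance 5000] dlhAlgK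

section Old

variable {𝔓 : FFPlace} {M e : ℕ} [NeZero M] [NeZero e]

/-- **the `p`-old theorem, every odd residue characteristic**: `dle_old` with the lift at a rigid
level `M` (`mltph_lift`) -/
theorem mltph_old (h49M : 4 ∣ M ∨ 9 ∣ M) (hMe : ¬ 𝔓.p ∣ M * e) (d : ℕ)
    (hd : dedekindPsi (M * e) = d * dedekindPsi M) (hpd : ¬ 𝔓.p ∣ d)
    (𝓛 : Set ℕ) (h𝓛 : ∀ ℓ ∈ 𝓛, ℓ.Prime ∧ ¬ ℓ ∣ M * 𝔓.p) (a : ℕ → ℤ)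
    (Y : (↥(modularFunctionFieldBar (M * 𝔓.p)))ˣ) (hside : DleSide 𝔓 M e hMe 𝓛 a Y)
    (hφ : dlsPhi 𝔓 ((Y : ↥(modularFunctionFieldBar (M * 𝔓.p))) : LaurentSeries Qb) ≠ 0) :
    ∃ (g : CuspForm (Gamma0 M) 2) (𝔪 : Ideal (integralClosure ℤ ℂ)),
      g.IsNormalizedEigenform ∧ 𝔪.IsMaximal ∧ (𝔓.p : integralClosure ℤ ℂ) ∈ 𝔪 ∧
      ∀ ℓ ∈ 𝓛, ∃ c : integralClosure ℤ ℂ, (c : ℂ) = qCoeff g ℓ ∧
        c - ((a ℓ : ℤ) : integralClosure ℤ ℂ) ∈ 𝔪 := by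
  have hM : ¬ 𝔓.p ∣ M := fun h => hMe (h.mul_right e)
  haveI : IsAlgClosed (IsLocalRing.ResidueField ↥𝔓.P) := tb_isAlgClosed_residueField 𝔓.P
  haveI : CharP (IsLocalRing.ResidueField ↥𝔓.P) 𝔓.p := tkr_charP_residue 𝔓.hp 𝔓.hP
  have hxb := tbq_bar_isFunctionFieldGen 𝔓 M
  haveI := tbq_bar_isSeparable (𝔓 := 𝔓) (N := M) hM
  set y := dlsRed 𝔓 M hM Y with hy
  have hy0 : y ≠ 0 := dlsRed_ne_zero 𝔓 M hM Y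
  -- the regular differential
  have hreg : ∀ v : Place (IsLocalRing.ResidueField ↥𝔓.P) ↥(tbBarF 𝔓 M),
      0 ≤ v.ordDifferential (y⁻¹ • D (IsLocalRing.ResidueField ↥𝔓.P) ↥(tbBarF 𝔓 M) y) :=
    fun v => dle_log_regular hxb 𝔓.p v y hy0 (hside.ord_dvd hM d hd hpd v)
  have hspan := mltph_lift 𝔓 M h49M hM _ hreg
  have hpsi : dllPsi 𝔓 M (y⁻¹ • D (IsLocalRing.ResidueField ↥𝔓.P) ↥(tbBarF 𝔓 M) y) =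
      dlsPhi 𝔓 ((Y : ↥(modularFunctionFieldBar (M * 𝔓.p))) : LaurentSeries Qb) := by
    rw [dllPsi_smul_D, dlsPhi_eq_log_red 𝔓 M hM Y, dlsLog, IntermediateField.coe_inv,
      div_eq_mul_inv, mul_comm]
  rw [hpsi] at hspan
  refine dle_ds M 𝔓 𝓛 (fun ℓ hℓ => ⟨(h𝓛 ℓ hℓ).1, fun h => (h𝓛 ℓ hℓ).2 (h.mul_right _)⟩) a _ hφ
    hspan ?_
  intro ℓ _ hℓ𝓛
  obtain ⟨hℓ, hℓN⟩ := h𝓛 ℓ hℓ𝓛
  have hℓp : ℓ ≠ 𝔓.p := by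
    rintro rfl
    exact hℓN (dvd_mul_left _ _)
  have h1 := dls_phi_eigen (M * 𝔓.p) 𝔓 hℓ hℓN hℓp Y hside.div _
    (dle_eigen_nat (M * 𝔓.p) hℓ Y hside.div (a ℓ) (hside.eigen ℓ hℓ hℓ𝓛))
  rw [h1]
  congr 2
  have hp0 : ((𝔓.p : ℕ) : ℤ) ≠ 0 := by exact_mod_cast 𝔓.hp.ne_zero
  have h2 : (((a ℓ % (𝔓.p : ℤ)).toNat : ℕ) : ℤ) = a ℓ % (𝔓.p : ℤ) :=
    Int.toNat_of_nonneg (Int.emod_nonneg _ hp0)
  have h3 : ((((a ℓ % (𝔓.p : ℤ)).toNat : ℕ) : ℤ) : IsLocalRing.ResidueField ↥𝔓.P) =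
      ((a ℓ : ℤ) : IsLocalRing.ResidueField ↥𝔓.P) := by
    rw [h2]
    conv_rhs => rw [← Int.emod_add_mul_ediv (a ℓ) (𝔓.p : ℤ)]
    rw [Int.cast_add, Int.cast_mul, Int.cast_natCast,
      CharP.cast_eq_zero (IsLocalRing.ResidueField ↥𝔓.P) 𝔓.p, zero_mul, add_zero]
  rw [← h3, Int.cast_natCast]


end Old

variable {𝔓 : FFPlace}

/-- **GEO-B**, every odd residue characteristic -/
theorem mltph_geoB (M e : ℕ) [NeZero M] [NeZero e] (h49M : 4 ∣ M ∨ 9 ∣ M)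
    (hMe : ¬ 𝔓.p ∣ M * e) (h49 : 4 ∣ M * e ∨ 9 ∣ M * e) (d : ℕ)
    (hd : dedekindPsi (M * e) = d * dedekindPsi M) (hpd : ¬ 𝔓.p ∣ d)
    (𝓛 : Set ℕ) (h𝓛 : ∀ ℓ ∈ 𝓛, ℓ.Prime ∧ ¬ ℓ ∣ M * 𝔓.p) (a : ℕ → ℤ)
    (Y : (↥(modularFunctionFieldBar (M * 𝔓.p)))ˣ)
    (hdiv : ∀ v : Place Qb ↥(modularFunctionFieldBar (M * 𝔓.p)),
      ((𝔓.p : ℕ) : ℤ) ∣ v.ord (Y : ↥(modularFunctionFieldBar (M * 𝔓.p))))
    (heig : ∀ (ℓ : ℕ) (hℓ : ℓ.Prime), ℓ ∈ 𝓛 →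
      heckeOperatorBar (M * 𝔓.p) ⟨ℓ, hℓ⟩ (alpfClass 𝔓.hp.ne_zero Y hdiv) =
        (a ℓ : ℤ) • alpfClass 𝔓.hp.ne_zero Y hdiv)
    (Y'' : (↥(modularFunctionFieldBar (M * e * 𝔓.p)))ˣ)
    (hYY : ((Y'' : ↥(modularFunctionFieldBar (M * e * 𝔓.p))) : LaurentSeries Qb) =
      ((Y : ↥(modularFunctionFieldBar (M * 𝔓.p))) : LaurentSeries Qb))
    (hdiv'' : ∀ v : Place Qb ↥(modularFunctionFieldBar (M * e * 𝔓.p)),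
      ((𝔓.p : ℕ) : ℤ) ∣ v.ord (Y'' : ↥(modularFunctionFieldBar (M * e * 𝔓.p))))
    (hC : alpfClass 𝔓.hp.ne_zero Y'' hdiv'' ∉ s33gC 𝔓 (M * e) hMe)
    (hsInf : ∀ s : Place (IsLocalRing.ResidueField ↥𝔓.P) ↥(tbBarF 𝔓 (M * e)),
      dlsSlope 𝔓 (M * e) hMe Y'' s = 0)
    (hsZero : ∀ s : Place (IsLocalRing.ResidueField ↥𝔓.P) ↥(tbBarF 𝔓 (M * e)),
      dlsSlope 𝔓 (M * e) hMe (dleWU (M * e) 𝔓.p hMe Y'') s = 0) :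
    ∃ (g : CuspForm (Gamma0 M) 2) (𝔪 : Ideal (integralClosure ℤ ℂ)),
      g.IsNormalizedEigenform ∧ 𝔪.IsMaximal ∧ (𝔓.p : integralClosure ℤ ℂ) ∈ 𝔪 ∧
      ∀ ℓ ∈ 𝓛, ∃ c : integralClosure ℤ ℂ, (c : ℂ) = qCoeff g ℓ ∧
        c - ((a ℓ : ℤ) : integralClosure ℤ ℂ) ∈ 𝔪 := by
  have hM : ¬ 𝔓.p ∣ M := fun h => hMe (h.mul_right e)
  by_cases hφ : dlsPhi 𝔓 ((Y : ↥(modularFunctionFieldBar (M * 𝔓.p))) : LaurentSeries Qb) = 0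
  · -- the side `v_0`
    have hφ0 : dlsPhi 𝔓 ((t2w Qb (M * e) 𝔓.p hMe (Y'' : ↥(modularFunctionFieldBar (M * e * 𝔓.p))) :
        ↥(modularFunctionFieldBar (M * e * 𝔓.p))) : LaurentSeries Qb) ≠ 0 := by
      intro h0
      exact hC (dls_ker 𝔓 (M * e) hMe h49 Y'' hdiv'' (by rw [hYY]; exact hφ) h0)
    -- `Y'' = incl Y`
    have hincl : (Y'' : ↥(modularFunctionFieldBar (M * e * 𝔓.p))) =
        t3pIncl M e 𝔓.p (Y : ↥(modularFunctionFieldBar (M * 𝔓.p))) := by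
      apply Subtype.ext
      rw [hYY, coe_t3pIncl]
    have hser : ((dleWU (M * e) 𝔓.p hMe Y'' : (↥(modularFunctionFieldBar (M * e * 𝔓.p)))ˣ) :
        ↥(modularFunctionFieldBar (M * e * 𝔓.p))) =
        t3pIncl M e 𝔓.p ((dleWU M 𝔓.p hM Y : (↥(modularFunctionFieldBar (M * 𝔓.p)))ˣ) :
          ↥(modularFunctionFieldBar (M * 𝔓.p))) := by
      rw [coe_dleWU, coe_dleWU, hincl, dlw_w_incl M e 𝔓.p hM hMe]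
    have hser' : (((dleWU (M * e) 𝔓.p hMe Y'' : (↥(modularFunctionFieldBar (M * e * 𝔓.p)))ˣ) :
        ↥(modularFunctionFieldBar (M * e * 𝔓.p))) : LaurentSeries Qb) =
        (((dleWU M 𝔓.p hM Y : (↥(modularFunctionFieldBar (M * 𝔓.p)))ˣ) :
          ↥(modularFunctionFieldBar (M * 𝔓.p))) : LaurentSeries Qb) := by
      rw [hser, coe_t3pIncl]
    have hside : DleSide 𝔓 M e hMe 𝓛 a (dleWU M 𝔓.p hM Y) :=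
      { div := dle_dvd_ord_w M 𝔓.p hM Y hdiv
        eigen := by
          intro ℓ hℓ hℓ𝓛
          haveI : Fact ℓ.Prime := ⟨hℓ⟩
          exact dle_class_w_eigen_int M 𝔓.p ℓ hM 𝔓.hp.ne_zero (h𝓛 ℓ hℓ𝓛).2 Y hdiv (a ℓ)
            (heig ℓ hℓ hℓ𝓛)
        up := ⟨dleWU (M * e) 𝔓.p hMe Y'', hser', hsZero⟩ }
    refine mltph_old h49M hMe d hd hpd 𝓛 h𝓛 a _ hside ?_
    rw [← hser', coe_dleWU]
    exact hφ0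
  · -- the side `v_∞`
    have hside : DleSide 𝔓 M e hMe 𝓛 a Y :=
      { div := hdiv
        eigen := heig
        up := ⟨Y'', hYY, hsInf⟩ }
    exact mltph_old h49M hMe d hd hpd 𝓛 h𝓛 a Y hside hφ


/-- **END-B**, every odd residue characteristic -/
theorem mltph_endB (M e : ℕ) [NeZero M] [NeZero e] (h49M : 4 ∣ M ∨ 9 ∣ M)
    (hMe : ¬ 𝔓.p ∣ M * e) (h49 : 4 ∣ M * e ∨ 9 ∣ M * e) (d : ℕ)
    (hd : dedekindPsi (M * e) = d * dedekindPsi M) (hpd : ¬ 𝔓.p ∣ d)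
    (f : (↥(modularFunctionFieldBar (M * e * 𝔓.p)))ˣ)
    (hfh : ∀ ℓ : ℕ, ℓ.Prime → ¬ ℓ ∣ M * e * 𝔓.p →
      ∃ (c : Qbˣ) (u : (↥(modularFunctionFieldBar (M * e * 𝔓.p)))ˣ),
        tkrHecke (M * e * 𝔓.p) ℓ (f : ↥(modularFunctionFieldBar (M * e * 𝔓.p))) =
          algebraMap Qb _ (c : Qb) * ((f ^ (ℓ + 1) * u ^ 𝔓.p :
            (↥(modularFunctionFieldBar (M * e * 𝔓.p)))ˣ) :
              ↥(modularFunctionFieldBar (M * e * 𝔓.p))))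
    (𝓛 : Set ℕ) (h𝓛 : ∀ ℓ ∈ 𝓛, ℓ.Prime ∧ ¬ ℓ ∣ M * e * 𝔓.p) (a : ℕ → ℤ)
    (ℓ₀ : ℕ) (hℓ₀ : ℓ₀ ∈ 𝓛) (hne : ((a ℓ₀ : ℤ) : ZMod 𝔓.p) ≠ (ℓ₀ : ZMod 𝔓.p) + 1)
    (Y : (↥(modularFunctionFieldBar (M * 𝔓.p)))ˣ)
    (hdiv : ∀ v : Place Qb ↥(modularFunctionFieldBar (M * 𝔓.p)),
      ((𝔓.p : ℕ) : ℤ) ∣ v.ord (Y : ↥(modularFunctionFieldBar (M * 𝔓.p))))
    (heig : ∀ (ℓ : ℕ) (hℓ : ℓ.Prime), ℓ ∈ 𝓛 →
      heckeOperatorBar (M * 𝔓.p) ⟨ℓ, hℓ⟩ (alpfClass 𝔓.hp.ne_zero Y hdiv) =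
        (a ℓ : ℤ) • alpfClass 𝔓.hp.ne_zero Y hdiv)
    (hC : alpfClass 𝔓.hp.ne_zero
        (dlwInclU (Nat.mul_dvd_mul_right (Dvd.intro e rfl : M ∣ M * e) 𝔓.p) Y)
        (dlw_dvd_ord_incl (Nat.mul_dvd_mul_right (Dvd.intro e rfl : M ∣ M * e) 𝔓.p) Y hdiv) ∉
      s33gC 𝔓 (M * e) hMe)
    (hE1 : DlsEis 𝔓 (M * e) hMe f
      (dlwInclU (Nat.mul_dvd_mul_right (Dvd.intro e rfl : M ∣ M * e) 𝔓.p) Y))
    (hE2 : DlsEis 𝔓 (M * e) hMe f (dleWU (M * e) 𝔓.p hMe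
      (dlwInclU (Nat.mul_dvd_mul_right (Dvd.intro e rfl : M ∣ M * e) 𝔓.p) Y))) :
    ∃ (g : CuspForm (Gamma0 M) 2) (𝔪 : Ideal (integralClosure ℤ ℂ)),
      g.IsNormalizedEigenform ∧ 𝔪.IsMaximal ∧ (𝔓.p : integralClosure ℤ ℂ) ∈ 𝔪 ∧
      ∀ ℓ ∈ 𝓛, ∃ c : integralClosure ℤ ℂ, (c : ℂ) = qCoeff g ℓ ∧
        c - ((a ℓ : ℤ) : integralClosure ℤ ℂ) ∈ 𝔪 := by
  have hm := 𝔓.hp.ne_zero
  set hdvd : M * 𝔓.p ∣ M * e * 𝔓.p := Nat.mul_dvd_mul_right (Dvd.intro e rfl : M ∣ M * e) 𝔓.p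
  set Y'' := dlwInclU hdvd Y with hY''
  have hdiv'' := dlw_dvd_ord_incl hdvd Y hdiv
  -- the eigen-relations at the rigid level
  have hT'' : ∀ (ℓ : ℕ) (hℓ : ℓ.Prime), ℓ ∈ 𝓛 →
      heckeOperatorBar (M * e * 𝔓.p) ⟨ℓ, hℓ⟩ (alpfClass hm Y'' hdiv'') =
        (a ℓ : ℤ) • alpfClass hm Y'' hdiv'' := by
    intro ℓ hℓ hℓ𝓛
    rw [← dlwPullDvd_class hdvd hm Y hdiv, ← dlwPullDvd_hecke hdvd hℓ (h𝓛 ℓ hℓ𝓛).2,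
      heig ℓ hℓ hℓ𝓛, map_zsmul]
  have hH := dlh_heckeOrd 𝔓 (M * e) hMe h49
  obtain ⟨hℓ₀p, hℓ₀N⟩ := h𝓛 ℓ₀ hℓ₀
  haveI : Fact ℓ₀.Prime := ⟨hℓ₀p⟩
  -- slopes on `Z_∞`
  have hsInf := dle_eisenstein_int 𝔓 (M * e) hMe hH f hfh Y'' hdiv'' hE1 hℓ₀p hℓ₀N (a ℓ₀)
    (hT'' ℓ₀ hℓ₀p hℓ₀) hne
  -- slopes on `Z_0`
  have hsZero := dle_eisenstein_int 𝔓 (M * e) hMe hH f hfh (dleWU (M * e) 𝔓.p hMe Y'')
    (dle_dvd_ord_w (M * e) 𝔓.p hMe Y'' hdiv'') hE2 hℓ₀p hℓ₀N (a ℓ₀)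
    (dle_class_w_eigen_int (M * e) 𝔓.p ℓ₀ hMe hm hℓ₀N Y'' hdiv'' (a ℓ₀) (hT'' ℓ₀ hℓ₀p hℓ₀)) hne
  refine mltph_geoB M e h49M hMe h49 d hd hpd 𝓛
    (fun ℓ hℓ => ⟨(h𝓛 ℓ hℓ).1, fun h1 => (h𝓛 ℓ hℓ).2 (h1.trans hdvd)⟩) a Y hdiv heig Y''
    (coe_dlwInclU hdvd Y) hdiv'' hC hsInf hsZero


end

end Fermat.Agent.MLT
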