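/-
MLT / stream [P] = AtP, Hecke side (helper4), part 7: **the pull-back of a "formal" class of the good
level `N` to the level `N' p` (`N ∣ N'`, `p ∤ N'`) lies in helper6's formal part `s33gC`**.

* `mltph_one_of_rep` : the dictionary `T2fInf` (T1-K's `TkrRep`) → `s33gOne` (T1-B's `TbGauss`);
* `mltph_one_qExpand` : `s33gOne f → s33gOne (f(q^n))`;
* `mltph_cong_of_inf` : for a unit `Z` of the function field of `X₀(N)` with `T2fInf N 𝔓.P Z`, a
  constant multiple of `Z`, seen at the level `N' p`, is `≡ (1, 1)` (`s33gCong`): its `q`-expansion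
  is unchanged and `w_p` maps it to `Z(q^p)`;
* `mltph_pull_mem_C` : `dlwPullDvd (alpfClass Z) ∈ s33gC 𝔓 N' h`.
-/
import Mathlib
import Fermat.Agent.Lib.MLT.AtP.H.ESp
import Fermat.Agent.Lib.Delta.Wire.PullDvd
import Fermat.Agent.Lib.S33.F12.Sub
import Fermat.Prelude.Thm_ModularCurve_coeffMap_qExpand

set_option autoImplicit false
set_option linter.unusedSectionVars false
set_option linter.unusedVariables false
set_option linter.style.haveILetI false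
set_option synthInstance.maxHeartbeats 400000

namespace Fermat.Agent.MLT

open ModularCurve HahnSeries AlgebraicCurve Fermat.Agent.T1 Fermat.Agent.T2 Fermat.Agent.Alpha
  Fermat.Agent.Delta Fermat.Agent.T3 Fermat.Agent.TW Fermat.Agent.S33

local notation "Qb" => AlgebraicClosure ℚ
local notation "GQ" => (AlgebraicClosure ℚ ≃ₐ[ℚ] AlgebraicClosure ℚ)

noncomputable section

attribute [local instance] t2gp_fact
attribute [local instance] s33g_neZero

section Dictionary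

variable (𝔓 : FFPlace)

/-- `TkrRep` with equal non-zero reductions gives a Gauss unit with residue `1` -/
theorem mltph_one_of_rep {f : LaurentSeries Qb} {a b : LaurentSeries ↥𝔓.P}
    (hab : coeffMap (IsLocalRing.residue ↥𝔓.P) a = coeffMap (IsLocalRing.residue ↥𝔓.P) b)
    (hb : coeffMap (IsLocalRing.residue ↥𝔓.P) b ≠ 0) (hrep : TkrRep 𝔓.P f a b) :
    s33gOne 𝔓 f := by
  have hb' : tbRed (IsLocalRing.residue ↥𝔓.P) b ≠ 0 := hb
  have e : f * tbInc 𝔓.P b = tbInc 𝔓.P a := hrep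
  refine ⟨⟨a, b, hb', e⟩, ?_⟩
  rw [tbRhoFun_eq 𝔓.P (IsLocalRing.residue ↥𝔓.P) hb' e]
  show coeffMap (IsLocalRing.residue ↥𝔓.P) a / coeffMap (IsLocalRing.residue ↥𝔓.P) b = 1
  rw [hab, div_self hb]

/-- Gauss units with residue `1` are stable under `q ↦ q^n` -/
theorem mltph_one_qExpand {f : LaurentSeries Qb} (hf : s33gOne 𝔓 f) (n : ℕ) [NeZero n] :
    s33gOne 𝔓 (qExpand Qb n f) := by
  obtain ⟨⟨g, h, hh, e⟩, h1⟩ := hf
  rw [tbRhoFun_eq 𝔓.P (IsLocalRing.residue ↥𝔓.P) hh e] at h1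
  have hh' : tbRed (IsLocalRing.residue ↥𝔓.P) (qExpand ↥𝔓.P n h) ≠ 0 := by
    show coeffMap (IsLocalRing.residue ↥𝔓.P) (qExpand ↥𝔓.P n h) ≠ 0
    rw [coeffMap_qExpand]
    intro h0
    exact hh (qExpand_injective (R := IsLocalRing.ResidueField ↥𝔓.P) n
      (h0.trans (map_zero _).symm))
  have e' : qExpand Qb n f * tbInc 𝔓.P (qExpand ↥𝔓.P n h) = tbInc 𝔓.P (qExpand ↥𝔓.P n g) := by
    show qExpand Qb n f * coeffMap 𝔓.P.subtype (qExpand ↥𝔓.P n h)
      = coeffMap 𝔓.P.subtype (qExpand ↥𝔓.P n g)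
    rw [coeffMap_qExpand, coeffMap_qExpand, ← map_mul]
    congr 1
  refine ⟨⟨_, _, hh', e'⟩, ?_⟩
  rw [tbRhoFun_eq 𝔓.P (IsLocalRing.residue ↥𝔓.P) hh' e']
  show coeffMap (IsLocalRing.residue ↥𝔓.P) (qExpand ↥𝔓.P n g) /
    coeffMap (IsLocalRing.residue ↥𝔓.P) (qExpand ↥𝔓.P n h) = 1
  rw [coeffMap_qExpand, coeffMap_qExpand, ← map_div₀]
  have h1' : coeffMap (IsLocalRing.residue ↥𝔓.P) g / coeffMap (IsLocalRing.residue ↥𝔓.P) h = 1 := h1
  rw [h1', map_one]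

end Dictionary

section Pull

variable (𝔓 : FFPlace) {N : ℕ} [NeZero N] (N' : ℕ) [NeZero N'] (h : ¬ 𝔓.p ∣ N') (hNN' : N ∣ N')

/-- `N ∣ N' p` -/
theorem mltph_dvd_mul (hNN' : N ∣ N') : N ∣ N' * 𝔓.p := Dvd.dvd.mul_right hNN' _

/-- the inclusion of the level `N` into the level `N' p` factors through `α` -/
theorem mltph_incl_eq_alpha (y : ↥(modularFunctionFieldBar N)) :
    dlwIncl (mltph_dvd_mul 𝔓 N' hNN') y = heckeAlphaBar Qb N' 𝔓.p (dlwIncl hNN' y) := by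
  apply Subtype.ext
  rw [coe_dlwIncl, coe_heckeAlphaBar, coe_dlwIncl]

/-- **a function of the good level `N` in `ℚ̄^× (1 + 𝔪)` is, up to a constant, `≡ (1, 1)` at the level
`N' p`** -/
theorem mltph_cong_of_inf (Z : (↥(modularFunctionFieldBar N))ˣ) (hinf : T2fInf N 𝔓.P Z) :
    ∃ c : Qbˣ, tkrConst (N' * 𝔓.p) c * dlwInclU (mltph_dvd_mul 𝔓 N' hNN') Z ∈ s33gCong 𝔓 N' h := by
  obtain ⟨c, hc, a, b, hab, hb, hrep⟩ := hinf
  have hone : s33gOne 𝔓 (algebraMap Qb (LaurentSeries Qb) c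
      * ((Z : ↥(modularFunctionFieldBar N)) : LaurentSeries Qb)) := mltph_one_of_rep 𝔓 hab hb hrep
  refine ⟨Units.mk0 c hc, ?_⟩
  rw [mem_s33gCong]
  refine ⟨?_, ?_⟩
  · rw [Units.val_mul, MulMemClass.coe_mul, tkrConst_coe, coe_dlwInclU, Units.val_mk0]
    exact hone
  · rw [Units.val_mul, map_mul]
    have h1 : ((tkrConst (N' * 𝔓.p) (Units.mk0 c hc) : (↥(modularFunctionFieldBar (N' * 𝔓.p)))ˣ) :
        ↥(modularFunctionFieldBar (N' * 𝔓.p))) =
        algebraMap Qb ↥(modularFunctionFieldBar (N' * 𝔓.p)) c := rfl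
    have h2 : ((dlwInclU (mltph_dvd_mul 𝔓 N' hNN') Z : (↥(modularFunctionFieldBar (N' * 𝔓.p)))ˣ) :
        ↥(modularFunctionFieldBar (N' * 𝔓.p))) =
        heckeAlphaBar Qb N' 𝔓.p (dlwIncl hNN' (Z : ↥(modularFunctionFieldBar N))) := by
      rw [← mltph_incl_eq_alpha]
      rfl
    rw [h1, h2, AlgEquiv.commutes, t2w_alpha, MulMemClass.coe_mul, coe_heckeBetaBar, coe_dlwIncl]
    have h3 : ((algebraMap Qb ↥(modularFunctionFieldBar (N' * 𝔓.p)) c :
        ↥(modularFunctionFieldBar (N' * 𝔓.p))) : LaurentSeries Qb) =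
        qExpand Qb 𝔓.p (algebraMap Qb (LaurentSeries Qb) c) := by
      have : algebraMap Qb (LaurentSeries Qb) c = HahnSeries.C c := by
        rw [algebraMap_laurentSeries_eq_single]; rfl
      rw [this, qExpand_C]
      exact this
    rw [h3, ← map_mul]
    exact mltph_one_qExpand 𝔓 hone 𝔓.p

/-- constants are `m`-th powers -/
theorem mltph_const_mem_tWsub (K : ℕ) [NeZero K] {m : ℕ} (hm : m ≠ 0) (c : Qbˣ) :
    ∃ E : (↥(modularFunctionFieldBar K))ˣ, tkrConst K c = E ^ m := by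
  obtain ⟨e, he⟩ := IsAlgClosed.exists_pow_nat_eq (c : Qb) (Nat.pos_of_ne_zero hm)
  have he0 : e ≠ 0 := by
    rintro rfl
    rw [zero_pow hm] at he
    exact c.ne_zero he.symm
  refine ⟨tkrConst K (Units.mk0 e he0), ?_⟩
  rw [← map_pow]
  congr 1
  apply Units.ext
  rw [Units.val_pow_eq_pow_val, Units.val_mk0, he]

/-- the Kummer class of a constant multiple -/
theorem mltph_class_const_mul {K : ℕ} [NeZero K] {m : ℕ} (hm : m ≠ 0) (c : Qbˣ)
    (y : (↥(modularFunctionFieldBar K))ˣ)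
    (hy : ∀ v : Place Qb ↥(modularFunctionFieldBar K),
      (m : ℤ) ∣ v.ord (y : ↥(modularFunctionFieldBar K)))
    (hcy : ∀ v : Place Qb ↥(modularFunctionFieldBar K),
      (m : ℤ) ∣ v.ord ((tkrConst K c * y : (↥(modularFunctionFieldBar K))ˣ) :
        ↥(modularFunctionFieldBar K))) :
    alpfClass hm (tkrConst K c * y) hcy = alpfClass hm y hy := by
  obtain ⟨E, hE⟩ := mltph_const_mem_tWsub K hm c
  have hcW : ∀ v : Place Qb ↥(modularFunctionFieldBar K),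
      (m : ℤ) ∣ v.ord ((tkrConst K c : (↥(modularFunctionFieldBar K))ˣ) :
        ↥(modularFunctionFieldBar K)) := by
    rw [hE]
    exact tkr_pow_mem_tWsub K m _
  rw [alpfClass_mul hm _ _ hcW hy hcy]
  have h0 : alpfClass hm (tkrConst K c) hcW = 0 := by
    have h1 := alpfClass_pow (K := Qb) hm E (tkr_pow_mem_tWsub K m _)
    rw [← h1]
    exact dlw_class_congr hm hE _ _
  rw [h0, zero_add]

/-- the Kummer class only depends on the value of the exponent -/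
theorem mltph_class_cast {K : ℕ} [NeZero K] {m m' : ℕ} (hmm' : m = m') (hm : m ≠ 0) (hm' : m' ≠ 0)
    (y : (↥(modularFunctionFieldBar K))ˣ)
    (hy : ∀ v : Place Qb ↥(modularFunctionFieldBar K),
      (m : ℤ) ∣ v.ord (y : ↥(modularFunctionFieldBar K)))
    (hy' : ∀ v : Place Qb ↥(modularFunctionFieldBar K),
      (m' : ℤ) ∣ v.ord (y : ↥(modularFunctionFieldBar K))) :
    alpfClass hm y hy = alpfClass hm' y hy' := by
  subst hmm'
  rfl

/-- **the pull-back of a formal class of the good level lies in the formal part of the level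
`N' p`** -/
theorem mltph_pull_mem_C (Z : (↥(modularFunctionFieldBar N))ˣ)
    (hZ : ∀ v : Place Qb ↥(modularFunctionFieldBar N),
      ((𝔓.p : ℕ) : ℤ) ∣ v.ord (Z : ↥(modularFunctionFieldBar N)))
    (hinf : T2fInf N 𝔓.P Z) :
    dlwPullDvd (mltph_dvd_mul 𝔓 N' hNN') (alpfClass 𝔓.hp.ne_zero Z hZ) ∈ s33gC 𝔓 N' h := by
  obtain ⟨c, hc⟩ := mltph_cong_of_inf 𝔓 N' h hNN' Z hinf
  have hp0 := 𝔓.hp.ne_zero
  have hdvd := mltph_dvd_mul 𝔓 N' hNN'
  have hZ' := dlw_dvd_ord_incl hdvd Z hZ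
  have hp1 : 𝔓.p = 𝔓.p ^ 1 := (pow_one _).symm
  obtain ⟨E, hE⟩ := mltph_const_mem_tWsub (N' * 𝔓.p) hp0 c
  have hcW : tkrConst (N' * 𝔓.p) c ∈ tWsub Qb (N' * 𝔓.p) 𝔓.p := by
    rw [hE]
    exact tkr_pow_mem_tWsub _ _ _
  have hcZ : tkrConst (N' * 𝔓.p) c * dlwInclU hdvd Z ∈ tWsub Qb (N' * 𝔓.p) 𝔓.p :=
    (tWsub Qb (N' * 𝔓.p) 𝔓.p).mul_mem hcW hZ'
  have hcZ1 : ∀ v : Place Qb ↥(modularFunctionFieldBar (N' * 𝔓.p)),
      ((𝔓.p ^ 1 : ℕ) : ℤ) ∣ v.ord ((tkrConst (N' * 𝔓.p) c * dlwInclU hdvd Z :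
        (↥(modularFunctionFieldBar (N' * 𝔓.p)))ˣ) : ↥(modularFunctionFieldBar (N' * 𝔓.p))) := by
    intro v
    rw [pow_one]
    exact hcZ v
  refine ⟨1, _, hcZ1, hc, ?_⟩
  rw [dlwPullDvd_class hdvd hp0 Z hZ, ← mltph_class_const_mul hp0 c _ hZ' hcZ]
  exact mltph_class_cast hp1 hp0 _ _ _ _

end Pull

end

end Fermat.Agent.MLT
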