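/-
MLT / stream [P] = AtP, Hecke side (helper4), part 1: **level lowering at `p` for a general `W`
(DELTA-general), the global wiring**.

* `mltph_lower_core` : the core of S44 (`dlw_final_core`) without the hypothesis `2 ∣ M`: the rigid
  level is `4 M` (`e = 4` in END-B); the conclusion is an eigenform of level `M` congruent to `W` at
  all good primes `ℓ ∤ 2 M p`;
* `MltphCongAll W p` : the hypothesis "congruences outside a finite set of primes ⇒ congruences at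
  all good primes `ℓ ∤ M p`" (Chebotarev + Eichler–Shimura; stream [R]);
* `mltph_lower_of_peu` : **`W` (any model with `Δ ≠ 0`, `W[p]` irreducible, `p ≥ 5`) residually
  modular of level `M p`, `p ∤ M`, and `W[p]` peu ramifiée at `p` in the sense of `DlpPeu`
  ⇒ `W` residually modular of level `M`** (modulo `MltphCongAll` for the prime `2`).
-/
import Mathlib
import Fermat.Agent.Lib.Delta.Wire.Core3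

set_option autoImplicit false
set_option linter.unusedSectionVars false
set_option linter.unusedVariables false
set_option linter.style.haveILetI false
set_option synthInstance.maxHeartbeats 400000

open WeierstrassCurve WeierstrassCurve.Affine WeierstrassCurve.Affine.Point

namespace Fermat.Agent.MLT

open ModularCurve Fermat.Agent.T1 Fermat.Agent.T2 Fermat.Agent.TW
  Fermat.Agent.S33 Fermat.Agent.S05Lib AlgebraicCurve Fermat.Agent.Curve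
  Fermat.Agent.T3 Fermat.Agent.Alpha ModularFormClass CongruenceSubgroup Fermat.Agent.Delta
  Fermat.Agent.S58

local notation "Qb" => AlgebraicClosure ℚ
local notation "GQ" => (AlgebraicClosure ℚ ≃ₐ[ℚ] AlgebraicClosure ℚ)

noncomputable section

attribute [local instance] t2gp_fact
attribute [local instance] s33g_neZero
attribute [local instance] dlw_neZero_p

variable {𝔓 : FFPlace}

/-- **the core of level lowering at `p`, any `M`**: (CHAIN) and (W) at the rigid level `4 M` give an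
eigenform of level `M` congruent to `W` at the good primes `ℓ ∤ 2 M p` -/
theorem mltph_lower_core (hp5 : 5 ≤ 𝔓.p) (M : ℕ) [NeZero M]
    (W : WeierstrassCurve ℤ) {ζ : Qb} (hζ : IsPrimitiveRoot ζ 𝔓.p)
    (V : AddSubgroup (JZero (M * 𝔓.p))) (hcard : Nat.card V = 𝔓.p ^ 2)
    (htor : ∀ x ∈ V, 𝔓.p • x = 0) (hstab : ∀ σ : GQ, ∀ x ∈ V, σ • x ∈ V)
    (heig : ∀ (ℓ : ℕ) (hℓ : ℓ.Prime), ¬ ℓ ∣ M * 𝔓.p → W.IsGoodPrimeFor ℓ → ℓ ≠ 𝔓.p →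
      ∀ x ∈ V, heckeOperatorBar (M * 𝔓.p) ⟨ℓ, hℓ⟩ x = W.apOfModel ℓ • x)
    (hpeu : DlwPeu V 𝔓 𝔓.p ζ)
    (ℓ₀ : ℕ) (hℓ₀ : ℓ₀.Prime) (hℓ₀M : ¬ ℓ₀ ∣ M) (hℓ₀2 : ℓ₀ ≠ 2) (hℓ₀p : ℓ₀ ≠ 𝔓.p)
    (hgood₀ : W.IsGoodPrimeFor ℓ₀)
    (hne : ¬ (𝔓.p : ℤ) ∣ ((ℓ₀ : ℤ) + 1 - W.apOfModel ℓ₀))
    (hK : ¬ 𝔓.p ∣ M * 4)
    (f : (↥(modularFunctionFieldBar (M * 4 * 𝔓.p)))ˣ)
    (hfh : ∀ ℓ : ℕ, ℓ.Prime → ¬ ℓ ∣ M * 4 * 𝔓.p →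
      ∃ (c : Qbˣ) (u : (↥(modularFunctionFieldBar (M * 4 * 𝔓.p)))ˣ),
        tkrHecke (M * 4 * 𝔓.p) ℓ (f : ↥(modularFunctionFieldBar (M * 4 * 𝔓.p))) =
          algebraMap Qb _ (c : Qb) * ((f ^ (ℓ + 1) * u ^ 𝔓.p :
            (↥(modularFunctionFieldBar (M * 4 * 𝔓.p)))ˣ) :
              ↥(modularFunctionFieldBar (M * 4 * 𝔓.p))))
    (hchain : DlwChain 𝔓 (M * 4) hK f)
    (Wp : JZero (M * 4 * 𝔓.p) →+ JZero (M * 4 * 𝔓.p)) (hW : DlwWSide 𝔓 (M * 4) hK Wp) :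
    ∃ (g : CuspForm (Gamma0 M) 2) (𝔪 : Ideal (integralClosure ℤ ℂ)),
      g.IsNormalizedEigenform ∧ 𝔪.IsMaximal ∧ (𝔓.p : integralClosure ℤ ℂ) ∈ 𝔪 ∧
      ∀ ℓ : ℕ, ℓ.Prime → W.IsGoodPrimeFor ℓ → ¬ ℓ ∣ M → ℓ ≠ 2 → ℓ ≠ 𝔓.p →
        ∃ a : integralClosure ℤ ℂ, (a : ℂ) = qCoeff g ℓ ∧
          a - ((W.apOfModel ℓ : ℤ) : integralClosure ℤ ℂ) ∈ 𝔪 := by
  classical
  have hp0 : 𝔓.p ≠ 0 := 𝔓.hp.ne_zero
  -- Branch A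
  by_cases hA : ∀ x ∈ V, dlwPushA M 𝔓.p x = 0
  swap
  · push Not at hA
    obtain ⟨x₀, hx₀, hAx₀⟩ := hA
    obtain ⟨g, 𝔪, hg, h𝔪, hp𝔪, hcong⟩ :=
      dlw_branchA M W V htor hstab heig (dlwPushA M 𝔓.p) (dlwPushA_galois M 𝔓.p) x₀ hx₀ hAx₀
    exact ⟨g, 𝔪, hg, h𝔪, hp𝔪, fun ℓ hℓ hgood hℓM _ hℓp => hcong ℓ hℓ hgood hℓM hℓp⟩
  by_cases hB : ∀ x ∈ V, dlwPushB M 𝔓.p x = 0
  swap
  · push Not at hB
    obtain ⟨x₀, hx₀, hBx₀⟩ := hB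
    obtain ⟨g, 𝔪, hg, h𝔪, hp𝔪, hcong⟩ :=
      dlw_branchA M W V htor hstab heig (dlwPushB M 𝔓.p) (dlwPushB_galois M 𝔓.p) x₀ hx₀ hBx₀
    exact ⟨g, 𝔪, hg, h𝔪, hp𝔪, fun ℓ hℓ hgood hℓM _ hℓp => hcong ℓ hℓ hgood hℓM hℓp⟩
  -- Branch B
  obtain ⟨L₁, hat⟩ := dlwPeu_iff.mp hpeu
  have hMK : M ∣ M * 4 := Dvd.intro 4 rfl
  have hdvd : M * 𝔓.p ∣ M * 4 * 𝔓.p := Nat.mul_dvd_mul_right hMK 𝔓.p
  obtain ⟨Φ, hΦ⟩ : ∃ Φ : JZero (M * 𝔓.p) →+ JZero (M * 4 * 𝔓.p), Φ = dlwPullDvd hdvd := ⟨_, rfl⟩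
  have hΦσ : ∀ (σ : GQ) (x : JZero (M * 𝔓.p)), Φ (σ • x) = σ • Φ x := by
    intro σ x
    rw [hΦ]
    exact dlwPullDvd_galois hdvd σ x
  have hinj : ∀ x ∈ V, Φ x = 0 → x = 0 := fun x hx h0 =>
    dlwPullDvd_eq_zero hdvd hp0 x (htor x hx) (by rw [← hΦ]; exact h0)
  -- the plane at the rigid level
  have hat' := hat.map Φ hΦσ hinj
  have hcard' : Nat.card ↥(V.map Φ) = 𝔓.p ^ 2 := by rw [dlw_card_map Φ V hinj, hcard]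
  have htor' : ∀ y ∈ V.map Φ, 𝔓.p • y = 0 := by
    rintro _ ⟨x, hx, rfl⟩
    rw [← map_nsmul, htor x hx, _root_.map_zero]
  have hstab' : ∀ σ : GQ, ∀ y ∈ V.map Φ, σ • y ∈ V.map Φ := by
    rintro σ _ ⟨x, hx, rfl⟩
    exact ⟨σ • x, hstab σ x hx, hΦσ σ x⟩
  have hA' : ∀ y ∈ V.map Φ, dlwPushA (M * 4) 𝔓.p y = 0 := by
    rintro _ ⟨x, hx, rfl⟩
    rw [hΦ, dlwPushA_pull 𝔓.p hMK hK x, hA x hx, _root_.map_zero]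
  have hB' : ∀ y ∈ V.map Φ, dlwPushB (M * 4) 𝔓.p y = 0 := by
    rintro _ ⟨x, hx, rfl⟩
    rw [hΦ, dlwPushB_pull 𝔓.p hMK hK x, hB x hx, _root_.map_zero]
  obtain ⟨hC1, hE1⟩ := hchain ζ hζ (V.map Φ) (L₁.map Φ) hat' hcard' htor' hstab' hA' hB'
  -- the `w_p`-side
  have hat'' := hat'.map Wp hW.galois (fun x hx => hW.inj x (htor' x hx))
  have hcard'' : Nat.card ↥((V.map Φ).map Wp) = 𝔓.p ^ 2 := by
    rw [dlw_card_map Wp (V.map Φ) (fun x hx => hW.inj x (htor' x hx)), hcard']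
  have htor'' : ∀ y ∈ (V.map Φ).map Wp, 𝔓.p • y = 0 := by
    rintro _ ⟨x, hx, rfl⟩
    rw [← map_nsmul, htor' x hx, _root_.map_zero]
  have hstab'' : ∀ σ : GQ, ∀ y ∈ (V.map Φ).map Wp, σ • y ∈ (V.map Φ).map Wp := by
    rintro σ _ ⟨x, hx, rfl⟩
    exact ⟨σ • x, hstab' σ x hx, hW.galois σ x⟩
  have hA'' : ∀ y ∈ (V.map Φ).map Wp, dlwPushA (M * 4) 𝔓.p y = 0 := by
    rintro _ ⟨x, hx, rfl⟩
    rw [hW.pushA x (htor' x hx), hB' x hx]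
  have hB'' : ∀ y ∈ (V.map Φ).map Wp, dlwPushB (M * 4) 𝔓.p y = 0 := by
    rintro _ ⟨x, hx, rfl⟩
    rw [hW.pushB x (htor' x hx), hA' x hx]
  obtain ⟨-, hE2⟩ := hchain ζ hζ ((V.map Φ).map Wp) ((L₁.map Φ).map Wp) hat'' hcard'' htor''
    hstab'' hA'' hB''
  -- a point outside the line and its Kummer function
  obtain ⟨x, hxV, hxL⟩ := dlw_exists_not_mem 𝔓.hp V L₁ hcard hat.2.1
  obtain ⟨Y, hdiv, hYx⟩ := alpf_exists_class hp0 x (by rw [natCast_zsmul]; exact htor x hxV)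
  have hx'V : Φ x ∈ V.map Φ := ⟨x, hxV, rfl⟩
  have hx'L : Φ x ∉ L₁.map Φ := by
    rintro ⟨l, hl, hlx⟩
    have h0 : l - x = 0 :=
      hinj (l - x) (V.sub_mem (hat.1 hl) hxV) (by rw [map_sub, hlx, sub_self])
    rw [sub_eq_zero] at h0
    exact hxL (h0 ▸ hl)
  have hx''V : Wp (Φ x) ∈ (V.map Φ).map Wp := ⟨Φ x, hx'V, rfl⟩
  have hx''L : Wp (Φ x) ∉ (L₁.map Φ).map Wp := by
    rintro ⟨l, hl, hlx⟩
    have h0 : l - Φ x = 0 := hW.inj (l - Φ x)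
      (htor' _ ((V.map Φ).sub_mem (hat'.1 hl) hx'V)) (by rw [map_sub, hlx, sub_self])
    rw [sub_eq_zero] at h0
    exact hx'L (h0 ▸ hl)
  have hcls' : alpfClass hp0 (dlwInclU hdvd Y) (dlw_dvd_ord_incl hdvd Y hdiv) = Φ x := by
    rw [← hYx, hΦ]
    exact (dlwPullDvd_class hdvd hp0 Y hdiv).symm
  have hcls'' : alpfClass hp0 (dleWU (M * 4) 𝔓.p hK (dlwInclU hdvd Y))
      (dle_dvd_ord_w (M * 4) 𝔓.p hK (dlwInclU hdvd Y) (dlw_dvd_ord_incl hdvd Y hdiv)) =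
      Wp (Φ x) := by
    rw [← hcls']
    exact (hW.cls (dlwInclU hdvd Y) (dlw_dvd_ord_incl hdvd Y hdiv)).symm
  -- the set of primes
  obtain ⟨𝓛, h𝓛def⟩ : ∃ 𝓛 : Set ℕ,
      𝓛 = {ℓ | ℓ.Prime ∧ W.IsGoodPrimeFor ℓ ∧ ¬ ℓ ∣ M ∧ ℓ ≠ 2 ∧ ℓ ≠ 𝔓.p} := ⟨_, rfl⟩
  have hnd : ∀ ℓ : ℕ, ℓ.Prime → ¬ ℓ ∣ M → ℓ ≠ 2 → ℓ ≠ 𝔓.p → ¬ ℓ ∣ M * 4 * 𝔓.p := by
    intro ℓ hℓ hℓM hℓ2 hℓp h
    rcases hℓ.dvd_mul.mp h with h1 | h1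
    · rcases hℓ.dvd_mul.mp h1 with h2 | h2
      · exact hℓM h2
      · have h4 : ℓ ∣ 2 ^ 2 := by norm_num; exact h2
        exact hℓ2 ((Nat.prime_dvd_prime_iff_eq hℓ Nat.prime_two).mp (hℓ.dvd_of_dvd_pow h4))
    · exact hℓp ((Nat.prime_dvd_prime_iff_eq hℓ 𝔓.hp).mp h1)
  have h𝓛 : ∀ ℓ ∈ 𝓛, ℓ.Prime ∧ ¬ ℓ ∣ M * 4 * 𝔓.p := by
    intro ℓ hℓ
    rw [h𝓛def] at hℓ
    exact ⟨hℓ.1, hnd ℓ hℓ.1 hℓ.2.2.1 hℓ.2.2.2.1 hℓ.2.2.2.2⟩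
  have hℓ₀𝓛 : ℓ₀ ∈ 𝓛 := by
    rw [h𝓛def]
    exact ⟨hℓ₀, hgood₀, hℓ₀M, hℓ₀2, hℓ₀p⟩
  have hne' : ((W.apOfModel ℓ₀ : ℤ) : ZMod 𝔓.p) ≠ (ℓ₀ : ZMod 𝔓.p) + 1 := by
    intro h
    apply hne
    rw [← ZMod.intCast_zmod_eq_zero_iff_dvd]
    push_cast
    rw [h]
    ring
  have heigY : ∀ (ℓ : ℕ) (hℓ : ℓ.Prime), ℓ ∈ 𝓛 →
      heckeOperatorBar (M * 𝔓.p) ⟨ℓ, hℓ⟩ (alpfClass hp0 Y hdiv) =
        (W.apOfModel ℓ : ℤ) • alpfClass hp0 Y hdiv := by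
    intro ℓ hℓ hℓ𝓛
    rw [h𝓛def] at hℓ𝓛
    rw [hYx]
    refine heig ℓ hℓ ?_ hℓ𝓛.2.1 hℓ𝓛.2.2.2.2 x hxV
    intro h
    exact hnd ℓ hℓ hℓ𝓛.2.2.1 hℓ𝓛.2.2.2.1 hℓ𝓛.2.2.2.2 (h.trans hdvd)
  have h4 : 4 ∣ M * 4 := Dvd.intro_left M rfl
  obtain ⟨g, 𝔪, hg, h𝔪, hp𝔪, hcong⟩ := dle_endB hp5 M 4 (Or.inr (Or.inr rfl)) hK (Or.inl h4) f hfh 𝓛
    h𝓛 (fun ℓ => W.apOfModel ℓ) ℓ₀ hℓ₀𝓛 hne' Y hdiv heigY
    (by
      rw [hcls']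
      exact fun hmem => hx'L (hC1 _ hx'V hmem))
    (hE1 _ hx'V hx'L _ _ hcls')
    (hE2 _ hx''V hx''L _ _ hcls'')
  refine ⟨g, 𝔪, hg, h𝔪, hp𝔪, fun ℓ hℓ hgood hℓM hℓ2 hℓp => ?_⟩
  refine hcong ℓ ?_
  rw [h𝓛def]
  exact ⟨hℓ, hgood, hℓM, hℓ2, hℓp⟩

end

/-- **(CongAll) for `W` at `p`** (stream [R]: Chebotarev + Eichler–Shimura): an eigenform congruent
to `W` at the good primes outside a finite set is congruent to `W` at all good primes prime to the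
level and to `p` -/
def MltphCongAll (W : WeierstrassCurve ℤ) (p : ℕ) : Prop :=
  ∀ (M : ℕ) [NeZero M] (g : CuspForm (Gamma0 M) 2) (𝔪 : Ideal (integralClosure ℤ ℂ)),
    g.IsNormalizedEigenform → 𝔪.IsMaximal → (p : integralClosure ℤ ℂ) ∈ 𝔪 → ∀ T : Finset ℕ,
    (∀ ℓ : ℕ, ℓ.Prime → W.IsGoodPrimeFor ℓ → ¬ ℓ ∣ M → ℓ ≠ p → ℓ ∉ T →
      ∃ a : integralClosure ℤ ℂ, (a : ℂ) = qCoeff g ℓ ∧
        a - ((W.apOfModel ℓ : ℤ) : integralClosure ℤ ℂ) ∈ 𝔪) →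
    ∀ ℓ : ℕ, ℓ.Prime → W.IsGoodPrimeFor ℓ → ¬ ℓ ∣ M → ℓ ≠ p →
      ∃ a : integralClosure ℤ ℂ, (a : ℂ) = qCoeff g ℓ ∧
        a - ((W.apOfModel ℓ : ℤ) : integralClosure ℤ ℂ) ∈ 𝔪

noncomputable section

/-- `W.map ℤ → ℚ` is an elliptic curve when `Δ ≠ 0` -/
theorem mltph_isElliptic (W : WeierstrassCurve ℤ) (hΔ : W.Δ ≠ 0) : (s58E W).IsElliptic := by
  refine ⟨isUnit_iff_ne_zero.mpr ?_⟩
  rw [WeierstrassCurve.map_Δ, eq_intCast]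
  exact_mod_cast hΔ

/-- `W` is an integral model of its generic fibre -/
theorem mltph_isIntegralModelOf (W : WeierstrassCurve ℤ) : W.IsIntegralModelOf (s58E W) :=
  ⟨1, one_smul _ _⟩

/-- **level lowering at `p` from `DlpPeu`**: general `W`, `p ≥ 5`, any `M` prime to `p` -/
theorem mltph_lower_of_peu {p : ℕ} (hp : p.Prime) (hp5 : 5 ≤ p) (W : WeierstrassCurve ℤ)
    (hΔ : W.Δ ≠ 0) (hirr : W.ModRepIsIrreducible p) (M : ℕ) [NeZero M] (hpM : ¬ p ∣ M)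
    (hmod : W.IsResiduallyModularOfLevel p (M * p))
    (hpeu : ∀ (𝔓 : FFPlace) (ζ : Qb), 𝔓.p = p → IsPrimitiveRoot ζ p → DlpPeu (s58E W) 𝔓 p ζ)
    (hcongall : MltphCongAll W p) :
    W.IsResiduallyModularOfLevel p M := by
  haveI : Fact p.Prime := ⟨hp⟩
  have hp2 : p ≠ 2 := by omega
  have hp0 : p ≠ 0 := hp.ne_zero
  haveI : NeZero (M * p) := ⟨Nat.mul_ne_zero (NeZero.ne M) hp0⟩
  obtain ⟨f, 𝔪, hf, hmax, hpm, hcong⟩ := hmod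
  obtain ⟨x₀, hx₀, hx₀p, hx₀e⟩ :=
    dlw_exists_eigen (N := M * p) (p := p) (W := W) f 𝔪 hf hmax hpm hcong
  obtain ⟨V₀, ψ, hle, hstab, hψ⟩ := dlw_exists_iso (M * p) hp2 W hΔ hirr x₀ hx₀ ⟨hx₀p, hx₀e⟩
  obtain ⟨A, hA⟩ := Fermat.Agent.Lib.Helper6.exists_valuationSubring_liesOverPrime Qb hp
  haveI : NeZero ((p : ℕ) : Qb) := ⟨by exact_mod_cast hp0⟩
  obtain ⟨ζ, hζ⟩ := HasEnoughRootsOfUnity.exists_primitiveRoot Qb p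
  haveI := mltph_isElliptic W hΔ
  obtain ⟨ℓ₀, hℓ₀, hℓ₀T, hgood₀, hne⟩ := Fermat.Agent.LR.lre_exists_prime_not_eisenstein
    (s58E W) (mltph_isIntegralModelOf W) hp hp2 hirr (2 * (M * p)).primeFactors
  have h2Mp0 : 2 * (M * p) ≠ 0 := Nat.mul_ne_zero two_ne_zero (NeZero.ne _)
  have hℓ₀N : ¬ ℓ₀ ∣ 2 * (M * p) := fun h =>
    hℓ₀T (Nat.mem_primeFactors.mpr ⟨hℓ₀, h, h2Mp0⟩)
  have hℓ₀M : ¬ ℓ₀ ∣ M := fun h => hℓ₀N (h.trans ⟨2 * p, by ring⟩)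
  have hℓ₀p : ℓ₀ ≠ p := fun h => hℓ₀N (h ▸ ⟨2 * M, by ring⟩)
  have hℓ₀2 : ℓ₀ ≠ 2 := fun h => hℓ₀N (h ▸ Dvd.intro _ rfl)
  have hcardV : Nat.card ↥V₀ = p ^ 2 :=
    (Nat.card_congr ψ.toEquiv).symm.trans
      (Fermat.Agent.LR.lre_natCard_torsionBy (s58E W)
        (by rw [WeierstrassCurve.map_Δ, eq_intCast]; exact_mod_cast hΔ) hp.pos)
  have hK : ¬ p ∣ M * 4 := by
    intro h
    rcases (Nat.Prime.dvd_mul hp).mp h with h | h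
    · exact hpM h
    · have h4 : p ∣ 2 ^ 2 := by norm_num; exact h
      exact hp2 ((Nat.prime_dvd_prime_iff_eq hp Nat.prime_two).mp (hp.dvd_of_dvd_pow h4))
  have h4 : 4 ∣ M * 4 := Dvd.intro_left M rfl
  obtain ⟨fv, hfh, hchain⟩ := dlw_inputs ⟨A, p, hp, hA⟩ (M * 4) hK h4 hp5
  obtain ⟨g, 𝔪', hg, h𝔪', hp𝔪', hcong'⟩ :=
    mltph_lower_core (𝔓 := ⟨A, p, hp, hA⟩) hp5 M W hζ V₀ hcardV (fun x hx => (hle hx).1) hstab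
      (fun ℓ hℓ hℓN hgood hℓp x hx => (hle hx).2 ℓ hℓ hℓN hgood hℓp)
      (dlw_peu_of_iso V₀ ψ hψ (hpeu ⟨A, p, hp, hA⟩ ζ rfl hζ))
      ℓ₀ hℓ₀ hℓ₀M hℓ₀2 hℓ₀p hgood₀ hne hK fv hfh hchain _
      (dlw_wside ⟨A, p, hp, hA⟩ (M * 4) hK)
  refine ⟨g, 𝔪', hg, h𝔪', hp𝔪', ?_⟩
  refine hcongall M g 𝔪' hg h𝔪' hp𝔪' {2} ?_
  intro ℓ hℓ hgood hℓM hℓp hℓT
  exact hcong' ℓ hℓ hgood hℓM (fun h => hℓT (by rw [h]; exact Finset.mem_singleton_self 2)) hℓp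

end

end Fermat.Agent.MLT
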