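/-
MLT / stream [P] = AtP, Hecke side (helper4), part 4: **level lowering at `p ≥ 5` for a general `W`
from `DlpPeu`, unconditionally** (`mltph_lower_of_peu` + the lead's `mltr_congAll`,
`Lib/MLT/Res/CongAll.lean`, owner: lead).
-/
import Mathlib
import Fermat.Agent.Lib.MLT.AtP.H.LowerCore
import Fermat.Agent.Lib.MLT.Res.CongAll

set_option autoImplicit false

namespace Fermat.Agent.MLT

open Fermat.Agent.TW Fermat.Agent.Delta Fermat.Agent.S58

local notation "Qb" => AlgebraicClosure ℚ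

/-- **level lowering at `p ≥ 5`**: `W` (any integral model with `Δ ≠ 0`, `W[p]` irreducible)
residually modular of level `M p`, `p ∤ M`, and `W[p]` peu ramifiée at `p` (`DlpPeu` at every place
over `p`) ⇒ `W` residually modular of level `M` -/
theorem mltph_lower_five {p : ℕ} (hp : p.Prime) (hp5 : 5 ≤ p) (W : WeierstrassCurve ℤ)
    (hΔ : W.Δ ≠ 0) (hirr : W.ModRepIsIrreducible p) (M : ℕ) [NeZero M] (hpM : ¬ p ∣ M)
    (hmod : W.IsResiduallyModularOfLevel p (M * p))
    (hpeu : ∀ (𝔓 : FFPlace) (ζ : Qb), 𝔓.p = p → IsPrimitiveRoot ζ p → DlpPeu (s58E W) 𝔓 p ζ) :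
    W.IsResiduallyModularOfLevel p M :=
  mltph_lower_of_peu hp hp5 W hΔ hirr M hpM hmod hpeu (mltr_congAll W hΔ hp)

end Fermat.Agent.MLT
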