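/-
MLT / stream [P] = AtP, Hecke side (helper4), part 10: **level lowering at `p ≥ 5` for semistable
`W` with `W[p]` finite at `p`, outside the supersingular case**
(`mltph_lower_five` + helper5's `mltpg_peu_mult` / `mltpg_peu_good`, `Lib/MLT/AtPG/Peu*.lean`).

* `mltph_peu_of_ordAt` : `W` semistable, `p ∣ v_p(Δ)`, and (if `p ∤ Δ`) `MltpgOrdAt W 𝔓` at every place
  over `p`  ⇒  `DlpPeu (s58E W) 𝔓 p ζ` at every place over `p`;
* `mltph_lowerAtP_of_ordAt` : the conclusion of `MltpLowerAtPContract` for such `W`, `p ≥ 5`.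

The complementary case (`p ∤ Δ` and `W[p] ∖ 0` in the kernel of reduction at some place over `p`,
i.e. `W` supersingular at `p`) is `MltpLowerContract` = (PN).
-/
import Mathlib
import Fermat.Agent.Lib.MLT.AtP.H.Lower5
import Fermat.Agent.Lib.MLT.AtPG.PeuMult
import Fermat.Agent.Lib.MLT.AtPG.PeuGood

set_option autoImplicit false
set_option linter.style.haveILetI false

namespace Fermat.Agent.MLT

open Fermat.Agent.TW Fermat.Agent.Delta Fermat.Agent.S58 WeierstrassCurve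

local notation "Qb" => AlgebraicClosure ℚ

/-- `DlpPeu` at every place over `p` for a semistable `W` with `p ∣ v_p(Δ)`, outside the
supersingular case -/
theorem mltph_peu_of_ordAt {p : ℕ} (hp2 : p ≠ 2) (W : WeierstrassCurve ℤ)
    (hΔ : W.Δ ≠ 0) (hW : W.IsSemistableModel)
    (hfin : (p : ℤ) ∣ padicValRat p (W.map (Int.castRingHom ℚ)).Δ)
    (hord : ¬ (p : ℤ) ∣ W.Δ → ∀ 𝔓 : FFPlace, 𝔓.p = p → MltpgOrdAt W 𝔓)
    (𝔓 : FFPlace) (ζ : Qb) (h𝔓 : 𝔓.p = p) (hζ : IsPrimitiveRoot ζ p) :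
    DlpPeu (s58E W) 𝔓 p ζ := by
  subst h𝔓
  by_cases hpΔ : ((𝔓.p : ℕ) : ℤ) ∣ W.Δ
  · exact mltpg_peu_mult W hΔ 𝔓 hp2 hpΔ (hW 𝔓.p 𝔓.hp hpΔ) hfin hζ
  · exact mltpg_peu_good W hΔ 𝔓 hp2 hpΔ (hord hpΔ 𝔓 rfl) hζ

/-- **level lowering at `p ≥ 5`, `W` semistable with `W[p]` finite at `p`, not supersingular** -/
theorem mltph_lowerAtP_of_ordAt {p : ℕ} (hp : p.Prime) (hp5 : 5 ≤ p) (W : WeierstrassCurve ℤ)
    (hΔ : W.Δ ≠ 0) (hW : W.IsSemistableModel) (hirr : W.ModRepIsIrreducible p)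
    (hfin : (p : ℤ) ∣ padicValRat p (W.map (Int.castRingHom ℚ)).Δ)
    (hord : ¬ (p : ℤ) ∣ W.Δ → ∀ 𝔓 : FFPlace, 𝔓.p = p → MltpgOrdAt W 𝔓)
    (M : ℕ) (hM : 0 < M) (hpM : p ∣ M) (hp2M : ¬ p ^ 2 ∣ M)
    (hmod : W.IsResiduallyModularOfLevel p M) :
    W.IsResiduallyModularOfLevel p (M / p) := by
  obtain ⟨M', rfl⟩ := hpM
  have hp0 : 0 < p := hp.pos
  have hM'0 : M' ≠ 0 := by
    rintro rfl
    simp at hM
  haveI : NeZero M' := ⟨hM'0⟩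
  have hpM' : ¬ p ∣ M' := by
    rintro ⟨c, rfl⟩
    exact hp2M ⟨c, by ring⟩
  rw [Nat.mul_div_cancel_left _ hp0]
  rw [mul_comm] at hmod
  have hp2 : p ≠ 2 := by omega
  exact mltph_lower_five hp hp5 W hΔ hirr M' hpM' hmod
    (fun 𝔓 ζ h𝔓 hζ => mltph_peu_of_ordAt hp2 W hΔ hW hfin hord 𝔓 ζ h𝔓 hζ)

end Fermat.Agent.MLT
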