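/-
MLT / stream [P] = AtP, Hecke side (helper4), part 12: **`MltpLowerAtPContract` at `p ≥ 5` from
`MltpLowerContract`** (hence from Claim (T), `PN.lean`).

* `mltph_transitive_of_not_ordAt` : good reduction and `¬ MltpgOrdAt W 𝔓` (all of `W[p] ∖ 0` in the
  kernel of reduction) ⇒ the inertia group at `𝔓` is transitive on `W[p] ∖ 0` (helper5's (SL2));
* `mltph_not_resOrdinary_of_not_ordAt` : then `W[p]` is not ordinary at `p`;
* `mltph_lowerAtP_ge5` : the body of `MltpLowerAtPContract` for every prime `p ≥ 5`, from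
  `MltpLowerContract`.
-/
import Mathlib
import Fermat.Agent.Lib.MLT.AtP.H.LowerAtP5
import Fermat.Agent.Lib.MLT.AtPG.LocalAtP
import Fermat.Agent.Lib.MLT.Contracts.AtPH

set_option autoImplicit false
set_option linter.unusedSectionVars false
set_option linter.unusedVariables false
set_option linter.style.haveILetI false

namespace Fermat.Agent.MLT

open Fermat.Agent.TW Fermat.Agent.Delta Fermat.Agent.S58 WeierstrassCurve WeierstrassCurve.Affine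
  Fermat.Agent.S05Lib Fermat.Agent.S13Lib Fermat.Agent.LR

local notation "Qb" => AlgebraicClosure ℚ
local notation "GQ" => (AlgebraicClosure ℚ ≃ₐ[ℚ] AlgebraicClosure ℚ)

/-- good reduction, `W[p] ∖ 0` in the kernel of reduction ⇒ transitive inertia -/
theorem mltph_transitive_of_not_ordAt (W : WeierstrassCurve ℤ) (hΔ : W.Δ ≠ 0) (𝔓 : FFPlace)
    (hp2 : 𝔓.p ≠ 2) (hgood : ¬ (𝔓.p : ℤ) ∣ W.Δ) (hno : ¬ MltpgOrdAt W 𝔓)
    (x y : S58Tors W 𝔓.p) (hx : x ≠ 0) (hy : y ≠ 0) :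
    ∃ σ ∈ 𝔓.P.inertiaSubgroupIn ℚ, σ • x = y := by
  classical
  have hp := 𝔓.hp
  obtain ⟨e₁, e₂, e₃, hg⟩ := mltpg_exists_good W hΔ 𝔓 hp2 hgood
  obtain ⟨Vp, hVp⟩ := mltpg_exists_finset_tors W hΔ hp.pos e₁
  refine mltpg_transitive_of_ker W hΔ 𝔓 hp2 hg Vp hVp ?_ x y hx hy
  intro T hT
  rw [Finset.mem_erase] at hT
  obtain ⟨hT0, hTV⟩ := hT
  have hTtor : 𝔓.p • T = 0 := (hVp T).mp hTV
  -- the point of the original model
  set Q := (mltpgPhi W e₁).symm T with hQ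
  have hQT : mltpgPhi W e₁ Q = T := AddEquiv.apply_symm_apply _ _
  have hQtor : 𝔓.p • Q = 0 := by
    rw [hQ, ← map_nsmul, hTtor, map_zero]
  rcases hQc : Q with _ | ⟨x₀, y₀, h₀⟩
  · exfalso
    apply hT0
    rw [← hQT, hQc]
    exact map_zero _
  · obtain ⟨h', e'⟩ := mltpg_phi_some W e₁ h₀
    rw [← hQc, hQT] at e'
    rw [e']
    show 𝔓.v.Lt (x₀ - e₁) 0
    rcases 𝔓.v.lt_or_ge x₀ 0 with hlt | hge
    · exact hlt.sub_ge hg.ge₁
    · exfalso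
      exact hno ⟨x₀, y₀, h₀, by rw [← hQc]; exact hQtor, hge⟩

/-- good reduction, `W[p] ∖ 0` in the kernel of reduction at some place over `p` ⇒ `W[p]` is not
ordinary at `p` -/
theorem mltph_not_resOrdinary_of_not_ordAt (W : WeierstrassCurve ℤ) (hΔ : W.Δ ≠ 0) (𝔓 : FFPlace)
    (hp2 : 𝔓.p ≠ 2) (hgood : ¬ (𝔓.p : ℤ) ∣ W.Δ) (hno : ¬ MltpgOrdAt W 𝔓) :
    ¬ mltpResOrdinary W 𝔓.p := by
  intro hord
  obtain ⟨L, hLtop, hL⟩ := hord 𝔓.P 𝔓.hP
  have htr := mltph_transitive_of_not_ordAt W hΔ 𝔓 hp2 hgood hno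
  have hp := 𝔓.hp
  apply hLtop
  rw [eq_top_iff]
  intro Q _
  by_cases hQ0 : Q = 0
  · rw [hQ0]; exact L.zero_mem
  -- `-Q` is in the orbit of `Q`
  have hnQ0 : -Q ≠ 0 := neg_ne_zero.mpr hQ0
  obtain ⟨σ, hσ, hσQ⟩ := htr Q (-Q) hQ0 hnQ0
  have h1 : σ • Q - Q ∈ L := hL σ hσ Q
  rw [hσQ] at h1
  -- `-2 Q ∈ L`, `p Q = 0`, `p` odd
  have h2 : (2 : ℤ) • Q ∈ L := by
    have : (2 : ℤ) • Q = -(-Q - Q) := by rw [two_zsmul]; abel
    rw [this]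
    exact L.neg_mem h1
  have hpQ : (𝔓.p : ℤ) • Q = 0 := by
    apply Subtype.ext
    have := Q.2
    rw [Submodule.mem_torsionBy_iff] at this
    exact this
  have hcop : IsCoprime (2 : ℤ) (𝔓.p : ℤ) := by
    have hodd : Odd (𝔓.p : ℤ) := by exact_mod_cast hp.odd_of_ne_two hp2
    obtain ⟨m, hm⟩ := hodd
    exact ⟨-m, 1, by rw [hm]; ring⟩
  obtain ⟨a, b, hab⟩ := hcop
  have h3 : Q = a • ((2 : ℤ) • Q) := by
    calc Q = (1 : ℤ) • Q := (one_zsmul Q).symm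
      _ = (a * 2 + b * (𝔓.p : ℤ)) • Q := by rw [hab]
      _ = a • ((2 : ℤ) • Q) := by rw [add_zsmul, mul_zsmul, mul_zsmul, hpQ, zsmul_zero, add_zero]
  rw [h3]
  exact L.zsmul_mem h2 a

/-- **the body of `MltpLowerAtPContract` for a prime `p ≥ 5`**, from `MltpLowerContract` -/
theorem mltph_lowerAtP_ge5 (hPN : MltpLowerContract) {p : ℕ} (hp : p.Prime) (hp5 : 5 ≤ p)
    (W : WeierstrassCurve ℤ) (hΔ : W.Δ ≠ 0) (hW : W.IsSemistableModel)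
    (hirr : W.ModRepIsIrreducible p)
    (hfin : (p : ℤ) ∣ padicValRat p (W.map (Int.castRingHom ℚ)).Δ)
    (M : ℕ) (hM : 0 < M) (hpM : p ∣ M) (hp2M : ¬ p ^ 2 ∣ M)
    (hmod : W.IsResiduallyModularOfLevel p M) :
    W.IsResiduallyModularOfLevel p (M / p) := by
  have hp2 : p ≠ 2 := by omega
  by_cases hord : ¬ (p : ℤ) ∣ W.Δ → ∀ 𝔓 : FFPlace, 𝔓.p = p → MltpgOrdAt W 𝔓
  · exact mltph_lowerAtP_of_ordAt hp hp5 W hΔ hW hirr hfin hord M hM hpM hp2M hmod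
  · push Not at hord
    obtain ⟨hgood, 𝔓, h𝔓, hno⟩ := hord
    subst h𝔓
    exact hPN 𝔓.p hp hp2 W hΔ hW hirr
      (mltph_not_resOrdinary_of_not_ordAt W hΔ 𝔓 hp2 hgood hno) M hM hpM hp2M hmod

end Fermat.Agent.MLT
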