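/-
MLT / stream [P] = AtP, Hecke side (helper4), part 16: **level lowering at `p` for every odd `p`,
at the rigid levels** (`4 ∣ M`).

* `mltph_lower_core_e` : `mltph_lower_core` (LowerCore.lean) with `5 ≤ p` replaced by: the final
  level `M` is rigid (`4 ∣ M ∨ 9 ∣ M`), the auxiliary level is `M e` with `ψ(Me)/ψ(M)` prime to `p`;
* `MltphInputsThree` : the (CHAIN) input of DELTA at `p = 3` (vertical function + `DlwChain` at every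
  rigid level) — `DlwInputs` restricted to `𝔓.p = 3`;
* `mltph_lower_of_peu_rigid` : **`W` (any model with `Δ ≠ 0`, `W[p]` irreducible, `p` odd) residually
  modular of level `M p`, `4 ∣ M`, `p ∤ M`, `W[p]` peu ramifiée at `p` in the sense of `DlpPeu`
  ⇒ `W` residually modular of level `M`** (for `p = 3` modulo `MltphInputsThree`).
-/
import Mathlib
import Fermat.Agent.Lib.MLT.AtP.H.LowerCore
import Fermat.Agent.Lib.MLT.AtP.H.End3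

set_option autoImplicit false
set_option linter.unusedSectionVars false
set_option linter.unusedVariables false
set_option linter.style.haveILetI false
set_option synthInstance.maxHeartbeats 400000

open WeierstrassCurve WeierstrassCurve.Affine WeierstrassCurve.Affine.Point

namespace Fermat.Agent.MLT

open ModularCurve Fermat.Agent.T1 Fermat.Agent.T2 Fermat.Agent.TW
  Fermat.Agent.S33 Fermat.Agent.S05Lib AlgebraicCurve Fermat.Agent.Curve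
  Fermat.Agent.T3 Fermat.Agent.Alpha ModularFormClass CongruenceSubgroup Fermat.Agent.Delta
  Fermat.Agent.S58

local notation "Qb" => AlgebraicClosure ℚ
local notation "GQ" => (AlgebraicClosure ℚ ≃ₐ[ℚ] AlgebraicClosure ℚ)

noncomputable section

attribute [local instance] t2gp_fact
attribute [local instance] s33g_neZero
attribute [local instance] dlw_neZero_p

variable {𝔓 : FFPlace}

/-- **the core of level lowering at `p`, every odd `p`**: (CHAIN) and (W) at the rigid level `M e`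
give an eigenform of the rigid level `M` congruent to `W` at the good primes `ℓ ∤ e M p`, provided
the index `ψ(Me)/ψ(M)` is prime to `p` -/
theorem mltph_lower_core_e (M e : ℕ) [NeZero M] [NeZero e] (h49M : 4 ∣ M ∨ 9 ∣ M)
    (h4 : 4 ∣ M * e) (d : ℕ) (hd : dedekindPsi (M * e) = d * dedekindPsi M) (hpd : ¬ 𝔓.p ∣ d)
    (W : WeierstrassCurve ℤ) {ζ : Qb} (hζ : IsPrimitiveRoot ζ 𝔓.p)
    (V : AddSubgroup (JZero (M * 𝔓.p))) (hcard : Nat.card V = 𝔓.p ^ 2)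
    (htor : ∀ x ∈ V, 𝔓.p • x = 0) (hstab : ∀ σ : GQ, ∀ x ∈ V, σ • x ∈ V)
    (heig : ∀ (ℓ : ℕ) (hℓ : ℓ.Prime), ¬ ℓ ∣ M * 𝔓.p → W.IsGoodPrimeFor ℓ → ℓ ≠ 𝔓.p →
      ∀ x ∈ V, heckeOperatorBar (M * 𝔓.p) ⟨ℓ, hℓ⟩ x = W.apOfModel ℓ • x)
    (hpeu : DlwPeu V 𝔓 𝔓.p ζ)
    (ℓ₀ : ℕ) (hℓ₀ : ℓ₀.Prime) (hℓ₀M : ¬ ℓ₀ ∣ M) (hℓ₀e : ¬ ℓ₀ ∣ e) (hℓ₀p : ℓ₀ ≠ 𝔓.p)
    (hgood₀ : W.IsGoodPrimeFor ℓ₀)
    (hne : ¬ (𝔓.p : ℤ) ∣ ((ℓ₀ : ℤ) + 1 - W.apOfModel ℓ₀))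
    (hK : ¬ 𝔓.p ∣ M * e)
    (f : (↥(modularFunctionFieldBar (M * e * 𝔓.p)))ˣ)
    (hfh : ∀ ℓ : ℕ, ℓ.Prime → ¬ ℓ ∣ M * e * 𝔓.p →
      ∃ (c : Qbˣ) (u : (↥(modularFunctionFieldBar (M * e * 𝔓.p)))ˣ),
        tkrHecke (M * e * 𝔓.p) ℓ (f : ↥(modularFunctionFieldBar (M * e * 𝔓.p))) =
          algebraMap Qb _ (c : Qb) * ((f ^ (ℓ + 1) * u ^ 𝔓.p :
            (↥(modularFunctionFieldBar (M * e * 𝔓.p)))ˣ) :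
              ↥(modularFunctionFieldBar (M * e * 𝔓.p))))
    (hchain : DlwChain 𝔓 (M * e) hK f)
    (Wp : JZero (M * e * 𝔓.p) →+ JZero (M * e * 𝔓.p)) (hW : DlwWSide 𝔓 (M * e) hK Wp) :
    ∃ (g : CuspForm (Gamma0 M) 2) (𝔪 : Ideal (integralClosure ℤ ℂ)),
      g.IsNormalizedEigenform ∧ 𝔪.IsMaximal ∧ (𝔓.p : integralClosure ℤ ℂ) ∈ 𝔪 ∧
      ∀ ℓ : ℕ, ℓ.Prime → W.IsGoodPrimeFor ℓ → ¬ ℓ ∣ M → ¬ ℓ ∣ e → ℓ ≠ 𝔓.p →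
        ∃ a : integralClosure ℤ ℂ, (a : ℂ) = qCoeff g ℓ ∧
          a - ((W.apOfModel ℓ : ℤ) : integralClosure ℤ ℂ) ∈ 𝔪 := by
  classical
  have hp0 : 𝔓.p ≠ 0 := 𝔓.hp.ne_zero
  -- Branch A
  by_cases hA : ∀ x ∈ V, dlwPushA M 𝔓.p x = 0
  swap
  · push Not at hA
    obtain ⟨x₀, hx₀, hAx₀⟩ := hA
    obtain ⟨g, 𝔪, hg, h𝔪, hp𝔪, hcong⟩ :=
      dlw_branchA M W V htor hstab heig (dlwPushA M 𝔓.p) (dlwPushA_galois M 𝔓.p) x₀ hx₀ hAx₀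
    exact ⟨g, 𝔪, hg, h𝔪, hp𝔪, fun ℓ hℓ hgood hℓM _ hℓp => hcong ℓ hℓ hgood hℓM hℓp⟩
  by_cases hB : ∀ x ∈ V, dlwPushB M 𝔓.p x = 0
  swap
  · push Not at hB
    obtain ⟨x₀, hx₀, hBx₀⟩ := hB
    obtain ⟨g, 𝔪, hg, h𝔪, hp𝔪, hcong⟩ :=
      dlw_branchA M W V htor hstab heig (dlwPushB M 𝔓.p) (dlwPushB_galois M 𝔓.p) x₀ hx₀ hBx₀
    exact ⟨g, 𝔪, hg, h𝔪, hp𝔪, fun ℓ hℓ hgood hℓM _ hℓp => hcong ℓ hℓ hgood hℓM hℓp⟩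
  -- Branch B
  obtain ⟨L₁, hat⟩ := dlwPeu_iff.mp hpeu
  have hMK : M ∣ M * e := Dvd.intro e rfl
  have hdvd : M * 𝔓.p ∣ M * e * 𝔓.p := Nat.mul_dvd_mul_right hMK 𝔓.p
  obtain ⟨Φ, hΦ⟩ : ∃ Φ : JZero (M * 𝔓.p) →+ JZero (M * e * 𝔓.p), Φ = dlwPullDvd hdvd := ⟨_, rfl⟩
  have hΦσ : ∀ (σ : GQ) (x : JZero (M * 𝔓.p)), Φ (σ • x) = σ • Φ x := by
    intro σ x
    rw [hΦ]
    exact dlwPullDvd_galois hdvd σ x
  have hinj : ∀ x ∈ V, Φ x = 0 → x = 0 := fun x hx h0 =>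
    dlwPullDvd_eq_zero hdvd hp0 x (htor x hx) (by rw [← hΦ]; exact h0)
  -- the plane at the rigid level
  have hat' := hat.map Φ hΦσ hinj
  have hcard' : Nat.card ↥(V.map Φ) = 𝔓.p ^ 2 := by rw [dlw_card_map Φ V hinj, hcard]
  have htor' : ∀ y ∈ V.map Φ, 𝔓.p • y = 0 := by
    rintro _ ⟨x, hx, rfl⟩
    rw [← map_nsmul, htor x hx, _root_.map_zero]
  have hstab' : ∀ σ : GQ, ∀ y ∈ V.map Φ, σ • y ∈ V.map Φ := by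
    rintro σ _ ⟨x, hx, rfl⟩
    exact ⟨σ • x, hstab σ x hx, hΦσ σ x⟩
  have hA' : ∀ y ∈ V.map Φ, dlwPushA (M * e) 𝔓.p y = 0 := by
    rintro _ ⟨x, hx, rfl⟩
    rw [hΦ, dlwPushA_pull 𝔓.p hMK hK x, hA x hx, _root_.map_zero]
  have hB' : ∀ y ∈ V.map Φ, dlwPushB (M * e) 𝔓.p y = 0 := by
    rintro _ ⟨x, hx, rfl⟩
    rw [hΦ, dlwPushB_pull 𝔓.p hMK hK x, hB x hx, _root_.map_zero]
  obtain ⟨hC1, hE1⟩ := hchain ζ hζ (V.map Φ) (L₁.map Φ) hat' hcard' htor' hstab' hA' hB'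
  -- the `w_p`-side
  have hat'' := hat'.map Wp hW.galois (fun x hx => hW.inj x (htor' x hx))
  have hcard'' : Nat.card ↥((V.map Φ).map Wp) = 𝔓.p ^ 2 := by
    rw [dlw_card_map Wp (V.map Φ) (fun x hx => hW.inj x (htor' x hx)), hcard']
  have htor'' : ∀ y ∈ (V.map Φ).map Wp, 𝔓.p • y = 0 := by
    rintro _ ⟨x, hx, rfl⟩
    rw [← map_nsmul, htor' x hx, _root_.map_zero]
  have hstab'' : ∀ σ : GQ, ∀ y ∈ (V.map Φ).map Wp, σ • y ∈ (V.map Φ).map Wp := by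
    rintro σ _ ⟨x, hx, rfl⟩
    exact ⟨σ • x, hstab' σ x hx, hW.galois σ x⟩
  have hA'' : ∀ y ∈ (V.map Φ).map Wp, dlwPushA (M * e) 𝔓.p y = 0 := by
    rintro _ ⟨x, hx, rfl⟩
    rw [hW.pushA x (htor' x hx), hB' x hx]
  have hB'' : ∀ y ∈ (V.map Φ).map Wp, dlwPushB (M * e) 𝔓.p y = 0 := by
    rintro _ ⟨x, hx, rfl⟩
    rw [hW.pushB x (htor' x hx), hA' x hx]
  obtain ⟨-, hE2⟩ := hchain ζ hζ ((V.map Φ).map Wp) ((L₁.map Φ).map Wp) hat'' hcard'' htor''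
    hstab'' hA'' hB''
  -- a point outside the line and its Kummer function
  obtain ⟨x, hxV, hxL⟩ := dlw_exists_not_mem 𝔓.hp V L₁ hcard hat.2.1
  obtain ⟨Y, hdiv, hYx⟩ := alpf_exists_class hp0 x (by rw [natCast_zsmul]; exact htor x hxV)
  have hx'V : Φ x ∈ V.map Φ := ⟨x, hxV, rfl⟩
  have hx'L : Φ x ∉ L₁.map Φ := by
    rintro ⟨l, hl, hlx⟩
    have h0 : l - x = 0 :=
      hinj (l - x) (V.sub_mem (hat.1 hl) hxV) (by rw [map_sub, hlx, sub_self])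
    rw [sub_eq_zero] at h0
    exact hxL (h0 ▸ hl)
  have hx''V : Wp (Φ x) ∈ (V.map Φ).map Wp := ⟨Φ x, hx'V, rfl⟩
  have hx''L : Wp (Φ x) ∉ (L₁.map Φ).map Wp := by
    rintro ⟨l, hl, hlx⟩
    have h0 : l - Φ x = 0 := hW.inj (l - Φ x)
      (htor' _ ((V.map Φ).sub_mem (hat'.1 hl) hx'V)) (by rw [map_sub, hlx, sub_self])
    rw [sub_eq_zero] at h0
    exact hx'L (h0 ▸ hl)
  have hcls' : alpfClass hp0 (dlwInclU hdvd Y) (dlw_dvd_ord_incl hdvd Y hdiv) = Φ x := by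
    rw [← hYx, hΦ]
    exact (dlwPullDvd_class hdvd hp0 Y hdiv).symm
  have hcls'' : alpfClass hp0 (dleWU (M * e) 𝔓.p hK (dlwInclU hdvd Y))
      (dle_dvd_ord_w (M * e) 𝔓.p hK (dlwInclU hdvd Y) (dlw_dvd_ord_incl hdvd Y hdiv)) =
      Wp (Φ x) := by
    rw [← hcls']
    exact (hW.cls (dlwInclU hdvd Y) (dlw_dvd_ord_incl hdvd Y hdiv)).symm
  -- the set of primes
  obtain ⟨𝓛, h𝓛def⟩ : ∃ 𝓛 : Set ℕ,
      𝓛 = {ℓ | ℓ.Prime ∧ W.IsGoodPrimeFor ℓ ∧ ¬ ℓ ∣ M ∧ ¬ ℓ ∣ e ∧ ℓ ≠ 𝔓.p} := ⟨_, rfl⟩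
  have hnd : ∀ ℓ : ℕ, ℓ.Prime → ¬ ℓ ∣ M → ¬ ℓ ∣ e → ℓ ≠ 𝔓.p → ¬ ℓ ∣ M * e * 𝔓.p := by
    intro ℓ hℓ hℓM hℓe hℓp h
    rcases hℓ.dvd_mul.mp h with h1 | h1
    · rcases hℓ.dvd_mul.mp h1 with h2 | h2
      · exact hℓM h2
      · exact hℓe h2
    · exact hℓp ((Nat.prime_dvd_prime_iff_eq hℓ 𝔓.hp).mp h1)
  have h𝓛 : ∀ ℓ ∈ 𝓛, ℓ.Prime ∧ ¬ ℓ ∣ M * e * 𝔓.p := by
    intro ℓ hℓ
    rw [h𝓛def] at hℓ
    exact ⟨hℓ.1, hnd ℓ hℓ.1 hℓ.2.2.1 hℓ.2.2.2.1 hℓ.2.2.2.2⟩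
  have hℓ₀𝓛 : ℓ₀ ∈ 𝓛 := by
    rw [h𝓛def]
    exact ⟨hℓ₀, hgood₀, hℓ₀M, hℓ₀e, hℓ₀p⟩
  have hne' : ((W.apOfModel ℓ₀ : ℤ) : ZMod 𝔓.p) ≠ (ℓ₀ : ZMod 𝔓.p) + 1 := by
    intro h
    apply hne
    rw [← ZMod.intCast_zmod_eq_zero_iff_dvd]
    push_cast
    rw [h]
    ring
  have heigY : ∀ (ℓ : ℕ) (hℓ : ℓ.Prime), ℓ ∈ 𝓛 →
      heckeOperatorBar (M * 𝔓.p) ⟨ℓ, hℓ⟩ (alpfClass hp0 Y hdiv) =
        (W.apOfModel ℓ : ℤ) • alpfClass hp0 Y hdiv := by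
    intro ℓ hℓ hℓ𝓛
    rw [h𝓛def] at hℓ𝓛
    rw [hYx]
    refine heig ℓ hℓ ?_ hℓ𝓛.2.1 hℓ𝓛.2.2.2.2 x hxV
    intro h
    exact hnd ℓ hℓ hℓ𝓛.2.2.1 hℓ𝓛.2.2.2.1 hℓ𝓛.2.2.2.2 (h.trans hdvd)
  obtain ⟨g, 𝔪, hg, h𝔪, hp𝔪, hcong⟩ := mltph_endB M e h49M hK (Or.inl h4) d hd hpd f hfh 𝓛
    h𝓛 (fun ℓ => W.apOfModel ℓ) ℓ₀ hℓ₀𝓛 hne' Y hdiv heigY
    (by
      rw [hcls']
      exact fun hmem => hx'L (hC1 _ hx'V hmem))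
    (hE1 _ hx'V hx'L _ _ hcls')
    (hE2 _ hx''V hx''L _ _ hcls'')
  refine ⟨g, 𝔪, hg, h𝔪, hp𝔪, fun ℓ hℓ hgood hℓM hℓe hℓp => ?_⟩
  refine hcong ℓ ?_
  rw [h𝓛def]
  exact ⟨hℓ, hgood, hℓM, hℓe, hℓp⟩


/-- **the (CHAIN) input of DELTA at `p = 3`**: a vertical Hecke eigenfunction and `DlwChain` at every
rigid level (`DlwInputs` with `5 ≤ 𝔓.p` replaced by `𝔓.p = 3`) -/
def MltphInputsThree : Prop :=
  ∀ (𝔓 : FFPlace) (K : ℕ) [NeZero K] (hK : ¬ 𝔓.p ∣ K), 4 ∣ K → 𝔓.p = 3 →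
    ∃ f : (↥(modularFunctionFieldBar (K * 𝔓.p)))ˣ,
      (∀ ℓ : ℕ, ℓ.Prime → ¬ ℓ ∣ K * 𝔓.p →
        ∃ (c : Qbˣ) (u : (↥(modularFunctionFieldBar (K * 𝔓.p)))ˣ),
          tkrHecke (K * 𝔓.p) ℓ (f : ↥(modularFunctionFieldBar (K * 𝔓.p))) =
            algebraMap Qb _ (c : Qb) * ((f ^ (ℓ + 1) * u ^ 𝔓.p :
              (↥(modularFunctionFieldBar (K * 𝔓.p)))ˣ) :
                ↥(modularFunctionFieldBar (K * 𝔓.p)))) ∧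
      DlwChain 𝔓 K hK f

/-- the (CHAIN) input at every odd `p` -/
theorem mltph_inputs_odd (hin : MltphInputsThree) (𝔓 : FFPlace) (K : ℕ) [NeZero K]
    (hK : ¬ 𝔓.p ∣ K) (h4 : 4 ∣ K) (hp2 : 𝔓.p ≠ 2) :
    ∃ f : (↥(modularFunctionFieldBar (K * 𝔓.p)))ˣ,
      (∀ ℓ : ℕ, ℓ.Prime → ¬ ℓ ∣ K * 𝔓.p →
        ∃ (c : Qbˣ) (u : (↥(modularFunctionFieldBar (K * 𝔓.p)))ˣ),
          tkrHecke (K * 𝔓.p) ℓ (f : ↥(modularFunctionFieldBar (K * 𝔓.p))) =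
            algebraMap Qb _ (c : Qb) * ((f ^ (ℓ + 1) * u ^ 𝔓.p :
              (↥(modularFunctionFieldBar (K * 𝔓.p)))ˣ) :
                ↥(modularFunctionFieldBar (K * 𝔓.p)))) ∧
      DlwChain 𝔓 K hK f := by
  by_cases h3 : 𝔓.p = 3
  · exact hin 𝔓 K hK h4 h3
  · have hp5 : 5 ≤ 𝔓.p := by
      have h2 := 𝔓.hp.two_le
      by_contra hlt
      push Not at hlt
      have h4' : 𝔓.p = 4 := by omega
      have := 𝔓.hp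
      rw [h4'] at this
      exact absurd this (by decide)
    exact dlw_inputs 𝔓 K hK h4 hp5

/-- **level lowering at `p` from `DlpPeu`, every odd `p`, rigid levels**: general `W`, `4 ∣ M`,
`p ∤ M` -/
theorem mltph_lower_of_peu_rigid (hin : MltphInputsThree) {p : ℕ} (hp : p.Prime) (hp2 : p ≠ 2)
    (W : WeierstrassCurve ℤ)
    (hΔ : W.Δ ≠ 0) (hirr : W.ModRepIsIrreducible p) (M : ℕ) [NeZero M] (h4M : 4 ∣ M)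
    (hpM : ¬ p ∣ M)
    (hmod : W.IsResiduallyModularOfLevel p (M * p))
    (hpeu : ∀ (𝔓 : FFPlace) (ζ : Qb), 𝔓.p = p → IsPrimitiveRoot ζ p → DlpPeu (s58E W) 𝔓 p ζ) :
    W.IsResiduallyModularOfLevel p M := by
  haveI : Fact p.Prime := ⟨hp⟩
  have hp0 : p ≠ 0 := hp.ne_zero
  haveI : NeZero (M * p) := ⟨Nat.mul_ne_zero (NeZero.ne M) hp0⟩
  obtain ⟨f, 𝔪, hf, hmax, hpm, hcong⟩ := hmod
  obtain ⟨x₀, hx₀, hx₀p, hx₀e⟩ :=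
    dlw_exists_eigen (N := M * p) (p := p) (W := W) f 𝔪 hf hmax hpm hcong
  obtain ⟨V₀, ψ, hle, hstab, hψ⟩ := dlw_exists_iso (M * p) hp2 W hΔ hirr x₀ hx₀ ⟨hx₀p, hx₀e⟩
  obtain ⟨A, hA⟩ := Fermat.Agent.Lib.Helper6.exists_valuationSubring_liesOverPrime Qb hp
  haveI : NeZero ((p : ℕ) : Qb) := ⟨by exact_mod_cast hp0⟩
  obtain ⟨ζ, hζ⟩ := HasEnoughRootsOfUnity.exists_primitiveRoot Qb p
  haveI := mltph_isElliptic W hΔ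
  obtain ⟨ℓ₀, hℓ₀, hℓ₀T, hgood₀, hne⟩ := Fermat.Agent.LR.lre_exists_prime_not_eisenstein
    (s58E W) (mltph_isIntegralModelOf W) hp hp2 hirr (2 * (M * p)).primeFactors
  have h2Mp0 : 2 * (M * p) ≠ 0 := Nat.mul_ne_zero two_ne_zero (NeZero.ne _)
  have hℓ₀N : ¬ ℓ₀ ∣ 2 * (M * p) := fun h =>
    hℓ₀T (Nat.mem_primeFactors.mpr ⟨hℓ₀, h, h2Mp0⟩)
  have hℓ₀M : ¬ ℓ₀ ∣ M := fun h => hℓ₀N (h.trans ⟨2 * p, by ring⟩)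
  have hℓ₀p : ℓ₀ ≠ p := fun h => hℓ₀N (h ▸ ⟨2 * M, by ring⟩)
  have hℓ₀1 : ¬ ℓ₀ ∣ 1 := fun h => hℓ₀.one_lt.ne' (Nat.dvd_one.mp h)
  have hcardV : Nat.card ↥V₀ = p ^ 2 :=
    (Nat.card_congr ψ.toEquiv).symm.trans
      (Fermat.Agent.LR.lre_natCard_torsionBy (s58E W)
        (by rw [WeierstrassCurve.map_Δ, eq_intCast]; exact_mod_cast hΔ) hp.pos)
  have hK : ¬ p ∣ M * 1 := by rw [mul_one]; exact hpM
  have h4 : 4 ∣ M * 1 := by rw [mul_one]; exact h4M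
  obtain ⟨fv, hfh, hchain⟩ := mltph_inputs_odd hin ⟨A, p, hp, hA⟩ (M * 1) hK h4 hp2
  obtain ⟨g, 𝔪', hg, h𝔪', hp𝔪', hcong'⟩ :=
    mltph_lower_core_e (𝔓 := ⟨A, p, hp, hA⟩) M 1 (Or.inl h4M) h4 1
      (by rw [mul_one, one_mul]) (fun h => hp.one_lt.ne' (Nat.dvd_one.mp h)) W hζ V₀ hcardV
      (fun x hx => (hle hx).1) hstab
      (fun ℓ hℓ hℓN hgood hℓp x hx => (hle hx).2 ℓ hℓ hℓN hgood hℓp)
      (dlw_peu_of_iso V₀ ψ hψ (hpeu ⟨A, p, hp, hA⟩ ζ rfl hζ))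
      ℓ₀ hℓ₀ hℓ₀M hℓ₀1 hℓ₀p hgood₀ hne hK fv hfh hchain _
      (dlw_wside ⟨A, p, hp, hA⟩ (M * 1) hK)
  refine ⟨g, 𝔪', hg, h𝔪', hp𝔪', ?_⟩
  intro ℓ hℓ hgood hℓM hℓp
  exact hcong' ℓ hℓ hgood hℓM (fun h => hℓ.one_lt.ne' (Nat.dvd_one.mp h)) hℓp

end

end Fermat.Agent.MLT
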