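/-
MLT / stream [P] = AtP, Hecke side (helper4), part 17: **raising the level to a rigid level**
(`4 ∣ M'`) without changing the odd part of the level nor the odd Hecke eigenvalues.

* `S58Eigen.deplete` : for `r ∣ M` the sequence `a n - a_r a (n / r)` (the `r`-depletion) is again an
  eigen-sequence, of level `M r`;
* `mltph_deplete` : `g' = g - a_r V_r g ∈ S₂(Γ₀(M r))`;
* `mltph_raise_four` : an eigenform of level `M` gives an eigenform of level `M c`, `c ∈ {1, 2, 4}`,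
  `4 ∣ M c`, with the same coefficients at the odd `n`, and `8 ∤ M c` if `8 ∤ M`;
* `mltph_resMod_raise_four` : the same for `IsResiduallyModularOfLevel`.
-/
import Mathlib
import Fermat.Agent.Lib.S58.Stabilise
import Fermat.Prelude.Def_FLTPrelim_ModularRep

set_option autoImplicit false
set_option linter.unusedSectionVars false
set_option linter.unusedVariables false
set_option linter.style.haveILetI false

noncomputable section

namespace Fermat.Agent.S58

open CongruenceSubgroup ModularFormClass CuspForm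

/-- **depletion of an eigen-sequence at a prime of the level** -/
theorem S58Eigen.deplete {M : ℕ} {a : ℕ → ℂ} (h : S58Eigen M a) {r : ℕ} (hr : r.Prime)
    (hrM : r ∣ M) : S58Eigen (M * r) (s58Stab a r (a r)) := by
  have hr1 : ¬ r ∣ 1 := fun hd => hr.one_lt.ne' (Nat.dvd_one.mp hd)
  have hpow : ∀ {p : ℕ}, p.Prime → p ≠ r → ∀ j : ℕ, ¬ r ∣ p ^ j := by
    intro p hp hpr j hd
    exact hpr ((Nat.prime_dvd_prime_iff_eq hr hp).mp (hr.dvd_of_dvd_pow hd)).symm
  have hdivpow : ∀ j : ℕ, r ^ (j + 1) / r = r ^ j := by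
    intro j
    rw [pow_succ, Nat.mul_div_cancel _ hr.pos]
  have hstab_r : ∀ j : ℕ, s58Stab a r (a r) (r ^ (j + 1)) = a (r ^ (j + 1)) - a r * a (r ^ j) := by
    intro j
    rw [s58Stab_of_dvd a (a r) (dvd_pow_self r (Nat.succ_ne_zero j)), hdivpow]
  refine ⟨?_, ?_, ?_, ?_⟩
  · rw [s58Stab_of_not_dvd a (a r) hr1, h.one]
  · intro m n hmn
    by_cases hm : r ∣ m
    · have hn : ¬ r ∣ n := fun hn => hr.one_lt.ne' (Nat.eq_one_of_dvd_coprimes hmn hm hn)
      obtain ⟨m', rfl⟩ := hm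
      have hm'n : m'.Coprime n := Nat.Coprime.coprime_mul_left hmn
      have e1 : r * m' * n / r = m' * n := by
        rw [mul_assoc, Nat.mul_div_cancel_left _ hr.pos]
      rw [s58Stab_of_dvd a (a r) (Dvd.dvd.mul_right (dvd_mul_right r m') n),
        s58Stab_of_dvd a (a r) (dvd_mul_right r m'), s58Stab_of_not_dvd a (a r) hn,
        Nat.mul_div_cancel_left _ hr.pos, e1, h.mul _ _ hmn, h.mul _ _ hm'n]
      ring
    · by_cases hn : r ∣ n
      · obtain ⟨n', rfl⟩ := hn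
        have hmn' : m.Coprime n' := Nat.Coprime.coprime_mul_left_right hmn
        have e1 : m * (r * n') / r = m * n' := by
          rw [mul_left_comm, Nat.mul_div_cancel_left _ hr.pos]
        rw [s58Stab_of_not_dvd a (a r) hm, s58Stab_of_dvd a (a r) (dvd_mul_right r n'),
          Nat.mul_div_cancel_left _ hr.pos,
          s58Stab_of_dvd a (a r) (Dvd.dvd.mul_left (dvd_mul_right r n') m),
          h.mul _ _ hmn, e1, h.mul _ _ hmn']
        ring
      · have hmn' : ¬ r ∣ m * n := fun hd => (hr.dvd_mul.mp hd).elim hm hn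
        rw [s58Stab_of_not_dvd a (a r) hm, s58Stab_of_not_dvd a (a r) hn,
          s58Stab_of_not_dvd a (a r) hmn', h.mul _ _ hmn]
  · intro p j hp hpN
    have hpr : p ≠ r := fun e => hpN (e ▸ Dvd.intro_left M rfl)
    have hpM : ¬ p ∣ M := fun hd => hpN (Dvd.dvd.mul_right hd r)
    have h1 : ¬ r ∣ p := by simpa using hpow hp hpr 1
    rw [s58Stab_of_not_dvd a (a r) (hpow hp hpr _), s58Stab_of_not_dvd a (a r) (hpow hp hpr _),
      s58Stab_of_not_dvd a (a r) (hpow hp hpr _), s58Stab_of_not_dvd a (a r) h1,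
      h.good p j hp hpM]
  · intro p j hp hpN
    by_cases hpr : p = r
    · subst hpr
      have h1 : s58Stab a p (a p) p = 0 := by
        have := hstab_r 0
        simpa [h.one] using this
      rw [hstab_r (j + 1), h1, h.bad p j hp hrM]
      ring
    · have hpM : p ∣ M := (hp.dvd_mul.mp hpN).resolve_right
        (fun hd => hpr ((Nat.prime_dvd_prime_iff_eq hp hr).mp hd))
      have h1 : ¬ r ∣ p := by simpa using hpow hp hpr 1
      rw [s58Stab_of_not_dvd a (a r) (hpow hp hpr _), s58Stab_of_not_dvd a (a r) (hpow hp hpr _),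
        s58Stab_of_not_dvd a (a r) h1, h.bad p j hp hpM]

end Fermat.Agent.S58

namespace Fermat.Agent.MLT

open CongruenceSubgroup ModularFormClass CuspForm Fermat.Agent.S58 WeierstrassCurve

/-- **`r`-depletion** at a prime of the level: `g' = g - a_r V_r g` -/
theorem mltph_deplete {M r : ℕ} [NeZero M] (hr : r.Prime) (hrM : r ∣ M)
    {g : CuspForm (Gamma0 M) 2} (hg : g.IsNormalizedEigenform) :
    ∃ g' : CuspForm (Gamma0 (M * r)) 2, g'.IsNormalizedEigenform ∧
      ∀ n : ℕ, ¬ r ∣ n → qCoeff g' n = qCoeff g n := by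
  haveI : NeZero r := ⟨hr.ne_zero⟩
  have hcoeff : ∀ n : ℕ, qCoeff (⇑(s58vIncl 2 (Dvd.intro r rfl : M ∣ M * r) g -
      qCoeff g r • s58vV 2 M r g)) n = s58Stab (fun n => qCoeff g n) r (qCoeff g r) n := by
    intro n
    rw [s58_qCoeff_sub, s58_qCoeff_smul, qCoeff_s58vIncl, qCoeff_s58vV]
    rfl
  refine ⟨s58vIncl 2 (Dvd.intro r rfl : M ∣ M * r) g - qCoeff g r • s58vV 2 M r g, ?_, ?_⟩
  · rw [s58Eigen_iff]
    have := ((s58Eigen_iff g).mp hg).deplete hr hrM
    convert this using 2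
    exact hcoeff _
  · intro n hn
    rw [hcoeff, s58Stab_of_not_dvd _ _ hn]

/-- **raising the level to a rigid level**: an eigenform of level `M` gives an eigenform of level
`M c`, `c ∣ 4`, `4 ∣ M c`, with the same coefficients at the odd `n`; `8 ∤ M c` if `8 ∤ M` -/
theorem mltph_raise_four {M : ℕ} [NeZero M] {g : CuspForm (Gamma0 M) 2}
    (hg : g.IsNormalizedEigenform) :
    ∃ (c : ℕ) (g' : CuspForm (Gamma0 (M * c)) 2), c ∣ 4 ∧ 4 ∣ M * c ∧ (¬ 8 ∣ M → ¬ 8 ∣ M * c) ∧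
      g'.IsNormalizedEigenform ∧ ∀ n : ℕ, ¬ 2 ∣ n → qCoeff g' n = qCoeff g n := by
  by_cases h4 : 4 ∣ M
  · refine ⟨1, ?_⟩
    rw [mul_one]
    exact ⟨g, one_dvd 4, h4, id, hg, fun _ _ => rfl⟩
  by_cases h2 : 2 ∣ M
  · -- `2 ∥ M`: one depletion
    obtain ⟨g', hg', hc⟩ := mltph_deplete Nat.prime_two h2 hg
    refine ⟨2, g', by norm_num, ?_, fun _ h8 => h4 ?_, hg', hc⟩
    · obtain ⟨m, rfl⟩ := h2
      exact ⟨m, by ring⟩
    · obtain ⟨m, hm⟩ := h8
      exact ⟨m, by omega⟩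
  · -- `M` odd: one stabilisation, one depletion
    obtain ⟨g₁, hg₁, hc₁⟩ := s58v_stabilise Nat.prime_two h2 hg
    haveI : NeZero (M * 2) := ⟨Nat.mul_ne_zero (NeZero.ne M) two_ne_zero⟩
    obtain ⟨g₂, hg₂, hc₂⟩ := mltph_deplete Nat.prime_two (Dvd.intro_left M rfl : 2 ∣ M * 2) hg₁
    have e : M * 2 * 2 = M * 4 := by ring
    refine ⟨4, ?_⟩
    rw [← e]
    refine ⟨g₂, ?_, ⟨M, by ring⟩, fun _ h8 => h2 ?_, hg₂, fun n hn => ?_⟩
    · exact dvd_rfl
    · obtain ⟨m, hm⟩ := h8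
      exact ⟨m, by omega⟩
    · rw [hc₂ n hn, hc₁ n hn]

/-- **raising the level of a residually modular curve to a rigid level** -/
theorem mltph_resMod_raise_four (W : WeierstrassCurve ℤ) {p M : ℕ} (hM : 0 < M)
    (hmod : W.IsResiduallyModularOfLevel p M) :
    ∃ c : ℕ, c ∣ 4 ∧ 4 ∣ M * c ∧ (¬ 8 ∣ M → ¬ 8 ∣ M * c) ∧
      W.IsResiduallyModularOfLevel p (M * c) := by
  haveI : NeZero M := ⟨hM.ne'⟩
  obtain ⟨f, 𝔪, hf, hmax, hpm, hcong⟩ := hmod
  obtain ⟨c, g', hc4, h4, h8, hg', hcoef⟩ := mltph_raise_four hf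
  refine ⟨c, hc4, h4, h8, g', 𝔪, hg', hmax, hpm, ?_⟩
  intro ℓ hℓ hgood hℓM hℓp
  have hℓM' : ¬ ℓ ∣ M := fun h => hℓM (h.mul_right c)
  have hℓ2 : ¬ 2 ∣ ℓ := by
    intro h
    have h2 : ℓ = 2 := ((Nat.prime_dvd_prime_iff_eq Nat.prime_two hℓ).mp h).symm
    apply hℓM
    rw [h2]
    exact (Nat.Prime.dvd_of_dvd_pow Nat.prime_two (show 2 ∣ (M * c) ^ 1 by
      rw [pow_one]; exact (by norm_num : 2 ∣ 4).trans h4))
  rw [hcoef ℓ hℓ2]
  exact hcong ℓ hℓ hgood hℓM' hℓp

end Fermat.Agent.MLT
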