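/-
MLT / stream [P] = AtP, Hecke side (helper4), part 18: **level lowering at `p` for every odd `p`
(in particular `p = 3`), semistable `W` with `W[p]` finite at `p`** — at the rigid levels, and in
the weakened shape used by `Top/Main` for an arbitrary level.

* `mltph_lowerAtP_rigid` : the conclusion of `MltpLowerAtPContract` for every odd `p` at the levels
  `M` with `4 ∣ M`, from `MltpLowerContract` (= (PN), from Claim (T)) and `MltphInputsThree`
  (= (CHAIN) of DELTA at `p = 3`);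
* `MltpLowerAtPWeak` : the weakened shape: from a level `M` (`p ∥ M`, cube-free away from `p`) to SOME
  level `M₁` prime to `p`, cube-free away from `p`;
* `mltph_lowerAtP_weak` : `MltpLowerContract → MltphInputsThree → MltpLowerAtPWeak`
  (`M₁ = lcm(4, M) / p`: the level is first raised to a rigid level, `Raise4.lean`).
-/
import Mathlib
import Fermat.Agent.Lib.MLT.AtP.H.LowerCore3
import Fermat.Agent.Lib.MLT.AtP.H.LowerAtPGe5
import Fermat.Agent.Lib.MLT.AtP.H.Raise4

set_option autoImplicit false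
set_option linter.unusedSectionVars false
set_option linter.unusedVariables false
set_option linter.style.haveILetI false

namespace Fermat.Agent.MLT

open Fermat.Agent.TW Fermat.Agent.Delta Fermat.Agent.S58 WeierstrassCurve

local notation "Qb" => AlgebraicClosure ℚ

/-- **level lowering at an odd `p`, rigid levels**: `W` semistable, `W[p]` irreducible and finite at
`p`, residually modular of level `M`, `p ∥ M`, `4 ∣ M` ⇒ residually modular of level `M / p` -/
theorem mltph_lowerAtP_rigid (hPN : MltpLowerContract) (hin : MltphInputsThree) {p : ℕ}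
    (hp : p.Prime) (hp2 : p ≠ 2)
    (W : WeierstrassCurve ℤ) (hΔ : W.Δ ≠ 0) (hW : W.IsSemistableModel)
    (hirr : W.ModRepIsIrreducible p)
    (hfin : (p : ℤ) ∣ padicValRat p (W.map (Int.castRingHom ℚ)).Δ)
    (M : ℕ) (hM : 0 < M) (hpM : p ∣ M) (hp2M : ¬ p ^ 2 ∣ M) (h4 : 4 ∣ M)
    (hmod : W.IsResiduallyModularOfLevel p M) :
    W.IsResiduallyModularOfLevel p (M / p) := by
  by_cases hord : ¬ (p : ℤ) ∣ W.Δ → ∀ 𝔓 : FFPlace, 𝔓.p = p → MltpgOrdAt W 𝔓
  · obtain ⟨M', rfl⟩ := hpM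
    have hp0 : 0 < p := hp.pos
    have hM'0 : M' ≠ 0 := by
      rintro rfl
      simp at hM
    haveI : NeZero M' := ⟨hM'0⟩
    have hpM' : ¬ p ∣ M' := by
      rintro ⟨c, rfl⟩
      exact hp2M ⟨c, by ring⟩
    have h4M' : 4 ∣ M' := by
      have hcop : Nat.Coprime 4 p := by
        have h2 : Nat.Coprime 2 p := (Nat.coprime_primes Nat.prime_two hp).mpr (Ne.symm hp2)
        have : Nat.Coprime (2 ^ 2) p := Nat.Coprime.pow_left 2 h2
        simpa using this
      exact hcop.dvd_of_dvd_mul_left h4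
    rw [Nat.mul_div_cancel_left _ hp0]
    rw [mul_comm] at hmod
    exact mltph_lower_of_peu_rigid hin hp hp2 W hΔ hirr M' h4M' hpM' hmod
      (fun 𝔓 ζ h𝔓 hζ => mltph_peu_of_ordAt hp2 W hΔ hW hfin hord 𝔓 ζ h𝔓 hζ)
  · push Not at hord
    obtain ⟨hgood, 𝔓, h𝔓, hno⟩ := hord
    subst h𝔓
    exact hPN 𝔓.p hp hp2 W hΔ hW hirr
      (mltph_not_resOrdinary_of_not_ordAt W hΔ 𝔓 hp2 hgood hno) M hM hpM hp2M hmod

/-- **CONTRACT (AtP-0), weakened shape**: level lowering at `p` up to the `2`-part of the level: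
from a level `M`, `p ∥ M`, cube-free away from `p`, to SOME level `M₁` prime to `p` and cube-free
away from `p` (this is all `Top/Main` uses) -/
def MltpLowerAtPWeak : Prop :=
  ∀ (p : ℕ), p = 3 ∨ p = 5 → ∀ W : WeierstrassCurve ℤ, W.Δ ≠ 0 → W.IsSemistableModel →
    W.ModRepIsIrreducible p → (p : ℤ) ∣ padicValRat p (W.map (Int.castRingHom ℚ)).Δ →
    ∀ M : ℕ, 0 < M → p ∣ M → ¬ p ^ 2 ∣ M → (∀ q : ℕ, q.Prime → q ≠ p → ¬ q ^ 3 ∣ M) →
      W.IsResiduallyModularOfLevel p M →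
      ∃ M₁ : ℕ, 0 < M₁ ∧ ¬ p ∣ M₁ ∧ (∀ q : ℕ, q.Prime → q ≠ p → ¬ q ^ 3 ∣ M₁) ∧
        W.IsResiduallyModularOfLevel p M₁

/-- the weakened contract for every odd prime -/
theorem mltph_lowerAtP_weak_odd (hPN : MltpLowerContract) (hin : MltphInputsThree) {p : ℕ}
    (hp : p.Prime) (hp2 : p ≠ 2)
    (W : WeierstrassCurve ℤ) (hΔ : W.Δ ≠ 0) (hW : W.IsSemistableModel)
    (hirr : W.ModRepIsIrreducible p)
    (hfin : (p : ℤ) ∣ padicValRat p (W.map (Int.castRingHom ℚ)).Δ)
    (M : ℕ) (hM : 0 < M) (hpM : p ∣ M) (hp2M : ¬ p ^ 2 ∣ M)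
    (hcube : ∀ q : ℕ, q.Prime → q ≠ p → ¬ q ^ 3 ∣ M)
    (hmod : W.IsResiduallyModularOfLevel p M) :
    ∃ M₁ : ℕ, 0 < M₁ ∧ ¬ p ∣ M₁ ∧ (∀ q : ℕ, q.Prime → q ≠ p → ¬ q ^ 3 ∣ M₁) ∧
      W.IsResiduallyModularOfLevel p M₁ := by
  obtain ⟨c, hc4, h4, h8, hmod'⟩ := mltph_resMod_raise_four W hM hmod
  have hc0 : 0 < c := Nat.pos_of_dvd_of_pos hc4 (by norm_num)
  have hMc : 0 < M * c := Nat.mul_pos hM hc0
  have hcop4 : Nat.Coprime p 4 := by
    have h2 : Nat.Coprime p 2 := (Nat.coprime_primes hp Nat.prime_two).mpr hp2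
    have : Nat.Coprime p (2 ^ 2) := Nat.Coprime.pow_right 2 h2
    simpa using this
  have hcopc : Nat.Coprime p c := Nat.Coprime.coprime_dvd_right hc4 hcop4
  have hpMc : p ∣ M * c := hpM.mul_right c
  have hp2Mc : ¬ p ^ 2 ∣ M * c := by
    intro h
    exact hp2M ((Nat.Coprime.pow_left 2 hcopc).dvd_of_dvd_mul_right h)
  have hres := mltph_lowerAtP_rigid hPN hin hp hp2 W hΔ hW hirr hfin (M * c) hMc hpMc hp2Mc h4 hmod'
  have hdvd : M * c / p ∣ M * c := Nat.div_dvd_of_dvd hpMc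
  refine ⟨M * c / p, Nat.div_pos (Nat.le_of_dvd hMc hpMc) hp.pos, fun hpd => ?_, ?_, hres⟩
  · apply hp2Mc
    have h1 : p * p ∣ M * c / p * p := Nat.mul_dvd_mul hpd dvd_rfl
    rwa [Nat.div_mul_cancel hpMc, ← pow_two] at h1
  · intro q hq hqp h3
    have h3' : q ^ 3 ∣ M * c := h3.trans hdvd
    by_cases hq2 : q = 2
    · subst hq2
      have h8M : ¬ 8 ∣ M := by
        have := hcube 2 Nat.prime_two hqp
        norm_num at this
        exact this
      exact h8 h8M (by norm_num at h3'; exact h3')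
    · have hcopq : Nat.Coprime q 4 := by
        have h2 : Nat.Coprime q 2 := (Nat.coprime_primes hq Nat.prime_two).mpr hq2
        have : Nat.Coprime q (2 ^ 2) := Nat.Coprime.pow_right 2 h2
        simpa using this
      have hcopqc : Nat.Coprime q c := Nat.Coprime.coprime_dvd_right hc4 hcopq
      exact hcube q hq hqp ((Nat.Coprime.pow_left 3 hcopqc).dvd_of_dvd_mul_right h3')

/-- **`MltpLowerAtPWeak` from (PN) and the (CHAIN) input at `p = 3`** -/
theorem mltph_lowerAtP_weak (hPN : MltpLowerContract) (hin : MltphInputsThree) :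
    MltpLowerAtPWeak := by
  intro p hp35 W hΔ hW hirr hfin M hM hpM hp2M hcube hmod
  have hp : p.Prime := by rcases hp35 with rfl | rfl <;> norm_num
  have hp2 : p ≠ 2 := by rcases hp35 with rfl | rfl <;> norm_num
  exact mltph_lowerAtP_weak_odd hPN hin hp hp2 W hΔ hW hirr hfin M hM hpM hp2M hcube hmod

end Fermat.Agent.MLT
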