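/-
MLT / stream [P] = AtP, Hecke side (helper4), part 3: **unit-root `p`-stabilisation**.

`g` a normalised eigenform of level `M`, `p ∤ M`, `𝔪 ∋ p` a maximal ideal of `ℤ̄` with
`a_p(g) ∉ 𝔪`.  Then there is a normalised eigenform `g'` of level `M p` with `a_n(g') = a_n(g)`
for `p ∤ n` whose `p`-th coefficient (the unit root of `X² - a_p X + p`) is not in `𝔪`
(`mltph_stabilise_unit`).
-/
import Mathlib
import Fermat.Agent.Lib.S58.Stabilise

set_option autoImplicit false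
set_option linter.style.haveILetI false
set_option linter.unusedSectionVars false
set_option linter.unusedVariables false

namespace Fermat.Agent.MLT

open CongruenceSubgroup ModularFormClass CuspForm Fermat.Agent.S58

/-- a root of a monic quadratic polynomial with integral coefficients is integral -/
theorem mltph_isIntegral_root {a b β : ℂ} (ha : IsIntegral ℤ a) (hb : IsIntegral ℤ b)
    (hβ : β ^ 2 - a * β + b = 0) : IsIntegral ℤ β := by
  let R := integralClosure ℤ ℂ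
  have h1 : IsIntegral R β := by
    refine ⟨Polynomial.X ^ 2 - Polynomial.C (⟨a, ha⟩ : R) * Polynomial.X +
      Polynomial.C (⟨b, hb⟩ : R), ?_, ?_⟩
    · have hdeg : (Polynomial.C (⟨b, hb⟩ : R) - Polynomial.C (⟨a, ha⟩ : R) * Polynomial.X).degree
          < ((2 : ℕ) : WithBot ℕ) := by
        refine lt_of_le_of_lt (Polynomial.degree_sub_le _ _) ?_
        refine max_lt ?_ ?_
        · exact lt_of_le_of_lt Polynomial.degree_C_le (by decide)
        · refine lt_of_le_of_lt (Polynomial.degree_C_mul_X_le _) (by decide)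
      have e : Polynomial.X ^ 2 - Polynomial.C (⟨a, ha⟩ : R) * Polynomial.X +
          Polynomial.C (⟨b, hb⟩ : R) = Polynomial.X ^ 2 +
          (Polynomial.C (⟨b, hb⟩ : R) - Polynomial.C (⟨a, ha⟩ : R) * Polynomial.X) := by ring
      rw [e]
      exact Polynomial.monic_X_pow_add (n := 2) hdeg
    · simp only [Polynomial.eval₂_add, Polynomial.eval₂_sub, Polynomial.eval₂_mul,
        Polynomial.eval₂_pow, Polynomial.eval₂_X, Polynomial.eval₂_C]
      exact hβ
  exact isIntegral_trans (A := R) β h1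

/-- **unit-root `p`-stabilisation** -/
theorem mltph_stabilise_unit {M p : ℕ} [NeZero M] (hp : p.Prime) (hpM : ¬ p ∣ M)
    {g : CuspForm (Gamma0 M) 2} (hg : g.IsNormalizedEigenform)
    (𝔪 : Ideal (integralClosure ℤ ℂ)) (h𝔪 : 𝔪.IsMaximal) (hp𝔪 : (p : integralClosure ℤ ℂ) ∈ 𝔪)
    (a : integralClosure ℤ ℂ) (ha : (a : ℂ) = qCoeff g p) (ha𝔪 : a ∉ 𝔪) :
    ∃ g' : CuspForm (Gamma0 (M * p)) 2, g'.IsNormalizedEigenform ∧
      (∀ n : ℕ, ¬ p ∣ n → qCoeff g' n = qCoeff g n) ∧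
      ∃ u : integralClosure ℤ ℂ, (u : ℂ) = qCoeff g' p ∧ u ∉ 𝔪 := by
  haveI : NeZero p := ⟨hp.ne_zero⟩
  obtain ⟨β₀, hβ₀⟩ : ∃ β : ℂ, β ^ 2 - qCoeff g p * β + p = 0 := by
    obtain ⟨β, hβ⟩ := IsAlgClosed.exists_root
      (Polynomial.X ^ 2 - Polynomial.C (qCoeff g p) * Polynomial.X + Polynomial.C (p : ℂ))
      (by
        have h1 : (Polynomial.X ^ 2 - Polynomial.C (qCoeff g p) * Polynomial.X +
            Polynomial.C (p : ℂ)).degree = 2 := by
          compute_degree!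
        rw [h1]
        decide)
    refine ⟨β, ?_⟩
    simpa using hβ
  have hint : ∀ β : ℂ, β ^ 2 - qCoeff g p * β + p = 0 → IsIntegral ℤ β := by
    intro β hβ
    refine mltph_isIntegral_root (a := qCoeff g p) (b := (p : ℂ)) ?_ ?_ hβ
    · rw [← ha]; exact a.2
    · exact isIntegral_algebraMap (R := ℤ) (A := ℂ) (x := (p : ℤ)) |> fun h => by simpa using h
  -- the other root
  have hα₀ : (qCoeff g p - β₀) ^ 2 - qCoeff g p * (qCoeff g p - β₀) + p = 0 := by
    linear_combination hβ₀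
  set b₀ : integralClosure ℤ ℂ := ⟨β₀, hint β₀ hβ₀⟩ with hb₀
  set a₀ : integralClosure ℤ ℂ := ⟨qCoeff g p - β₀, hint _ hα₀⟩ with ha₀
  have hsum : a₀ + b₀ = a := by
    apply Subtype.ext
    show (qCoeff g p - β₀) + β₀ = (a : ℂ)
    rw [ha]; ring
  have hprod : a₀ * b₀ = (p : integralClosure ℤ ℂ) := by
    apply Subtype.ext
    show (qCoeff g p - β₀) * β₀ = ((p : integralClosure ℤ ℂ) : ℂ)
    rw [show ((p : integralClosure ℤ ℂ) : ℂ) = (p : ℂ) by simp]
    linear_combination -hβ₀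
  -- choose the root in `𝔪`
  obtain ⟨β, hβ, bβ, hbβ, hbβ𝔪⟩ : ∃ β : ℂ, β ^ 2 - qCoeff g p * β + p = 0 ∧
      ∃ b : integralClosure ℤ ℂ, (b : ℂ) = β ∧ b ∈ 𝔪 := by
    have hmem : a₀ * b₀ ∈ 𝔪 := hprod ▸ hp𝔪
    rcases h𝔪.isPrime.mem_or_mem hmem with h | h
    · exact ⟨qCoeff g p - β₀, hα₀, a₀, rfl, h⟩
    · exact ⟨β₀, hβ₀, b₀, rfl, h⟩
  have hcoeff : ∀ n : ℕ, qCoeff (⇑(s58vIncl 2 (Dvd.intro p rfl : M ∣ M * p) g -
      β • s58vV 2 M p g)) n = s58Stab (fun n => qCoeff g n) p β n := by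
    intro n
    rw [s58_qCoeff_sub, s58_qCoeff_smul, qCoeff_s58vIncl, qCoeff_s58vV]
    rfl
  refine ⟨s58vIncl 2 (Dvd.intro p rfl : M ∣ M * p) g - β • s58vV 2 M p g, ?_, ?_, ?_⟩
  · rw [s58Eigen_iff]
    have := ((s58Eigen_iff g).mp hg).stabilise hp hpM hβ
    convert this using 2
    exact hcoeff _
  · intro n hn
    rw [hcoeff, s58Stab_of_not_dvd _ β hn]
  · refine ⟨a - bβ, ?_, fun h => ha𝔪 ?_⟩
    · rw [hcoeff, s58Stab_of_dvd _ β (dvd_refl p), Nat.div_self hp.pos, hg.qCoeff_one, mul_one]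
      show (a : ℂ) - (bβ : ℂ) = _
      rw [ha, hbβ]
    · have := 𝔪.add_mem h hbβ𝔪
      rwa [sub_add_cancel] at this

end Fermat.Agent.MLT
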