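/-
MLT / stream [P] = AtP, Hecke side (helper4), part 8: **(F): `a_p(f) ∈ 𝔪` at a level prime to `p`
contradicts ordinarity of `W[p]`**, and the contract `MltpOrdContract`.

`f` an eigenform of level `N`, `p ∤ N` odd, congruent to `W` modulo `𝔪 ∋ p`, `W[p]` irreducible,
`a_p(f) ∈ 𝔪`.  Then (`mltph_not_ordinary`): `¬ mltpResOrdinary W p`.

Proof: a copy `V₀ ≅ W[p]` in the part of `J₀(N)[p]` killed by `T_p` (`EigenP`); the
Eichler–Shimura relation at `p` modulo formal classes (`ESp`) gives `σ² x ∈` (formal classes) for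
`x ∈ V₀`, `σ` a Frobenius element, hence `V₀` consists of formal classes; its pull-back to the
rigid level `4 N p` lies in the `p`-torsion of helper6's formal part `s33gC` (`FormalPull`), which has
a connected function model (`s33w_model_final`), hence no subquotient with trivial inertia action
(helper1's `s33c_ff_no_trivial_subquotient`); but an ordinary `W[p]` has such a quotient.

`mltph_ord_contract : MltpOrdContract` combines this with the old/new dichotomy (`ApSq`) and the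
unit-root stabilisation (`Stab`).
-/
import Mathlib
import Fermat.Agent.Lib.MLT.Contracts.AtPH
import Fermat.Agent.Lib.MLT.AtP.H.EigenP
import Fermat.Agent.Lib.MLT.AtP.H.FormalPull
import Fermat.Agent.Lib.MLT.AtP.H.ApSq
import Fermat.Agent.Lib.MLT.AtP.H.Stab
import Fermat.Agent.Lib.S33.Wire.Final
import Fermat.Agent.Lib.T1.S18.AllLevels
import Fermat.Agent.Lib.Helper6.FrobeniusExists

set_option autoImplicit false
set_option linter.unusedSectionVars false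
set_option linter.unusedVariables false
set_option linter.style.haveILetI false
set_option synthInstance.maxHeartbeats 400000

namespace Fermat.Agent.MLT

open ModularCurve AlgebraicCurve Fermat.Agent.T1 Fermat.Agent.T2 Fermat.Agent.Alpha
  Fermat.Agent.Delta Fermat.Agent.T3 Fermat.Agent.TW Fermat.Agent.S33 Fermat.Agent.S33W
  Fermat.Agent.S33C Fermat.Agent.S58 ModularFormClass CongruenceSubgroup

local notation "Qb" => AlgebraicClosure ℚ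
local notation "GQ" => (AlgebraicClosure ℚ ≃ₐ[ℚ] AlgebraicClosure ℚ)

noncomputable section

attribute [local instance] t2gp_fact
attribute [local instance] s33g_neZero

section F3

variable (𝔓 : FFPlace) (N' : ℕ) [NeZero N'] (h : ¬ 𝔓.p ∣ N')

/-- **(F3) at a rigid level, for subgroups of `J₀(N' p)`** -/
theorem mltph_F3 (h4 : 4 ∣ N') (hp2 : 2 < 𝔓.p) (A₀ B₀ : AddSubgroup (JZero (N' * 𝔓.p)))
    (hBC : ∀ x ∈ B₀, x ∈ s33gC 𝔓 N' h ∧ 𝔓.p • x = 0)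
    (hB : ∀ σ ∈ 𝔓.I, ∀ x ∈ B₀, σ • x ∈ B₀)
    (htriv : ∀ σ ∈ 𝔓.I, ∀ x ∈ B₀, σ • x - x ∈ A₀) : B₀ ≤ A₀ := by
  obtain ⟨M, hM⟩ := s33w_model_final 𝔓 N' h h4
  haveI := s33w_Cp_finite 𝔓 N' h
  have key := s33c_ff_no_trivial_subquotient M hp2
    (A₀.comap (s33wCp 𝔓 N' h).subtype) (B₀.comap (s33wCp 𝔓 N' h).subtype)
    (fun y _ => hM y)
    (fun σ hσ x hx => by
      rw [AddSubgroup.mem_comap] at hx ⊢
      show ((s33wActC 𝔓 N' h σ x : ↥(s33wCp 𝔓 N' h)) : JZero (N' * 𝔓.p)) ∈ B₀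
      rw [s33wActC_coe 𝔓 N' h hσ x]
      exact hB σ hσ _ hx)
    (fun σ hσ x hx => by
      rw [AddSubgroup.mem_comap] at hx ⊢
      show ((s33wActC 𝔓 N' h σ x - x : ↥(s33wCp 𝔓 N' h)) : JZero (N' * 𝔓.p)) ∈ A₀
      rw [AddSubgroup.coe_sub, s33wActC_coe 𝔓 N' h hσ x]
      exact htriv σ hσ _ hx)
  intro x hx
  have hxC : x ∈ s33wCp 𝔓 N' h := hBC x hx
  have h2 : (⟨x, hxC⟩ : ↥(s33wCp 𝔓 N' h)) ∈ B₀.comap (s33wCp 𝔓 N' h).subtype := hx
  exact key h2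

end F3

/-- **(F)**: an eigenform of level prime to `p` congruent to `W` with `a_p ∈ 𝔪` forces `W[p]` to be
non-ordinary at `p` -/
theorem mltph_not_ordinary {p : ℕ} (hp : p.Prime) (hp2 : p ≠ 2) (W : WeierstrassCurve ℤ)
    (hΔ : W.Δ ≠ 0) (hirr : W.ModRepIsIrreducible p) (N : ℕ) [NeZero N] (hpN : ¬ p ∣ N)
    (f : CuspForm (Gamma0 N) 2) (𝔪 : Ideal (integralClosure ℤ ℂ))
    (hf : f.IsNormalizedEigenform) (hmax : 𝔪.IsMaximal) (hpm : (p : integralClosure ℤ ℂ) ∈ 𝔪)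
    (hcong : ∀ ℓ : ℕ, ℓ.Prime → W.IsGoodPrimeFor ℓ → ¬ ℓ ∣ N → ℓ ≠ p →
      ∃ a : integralClosure ℤ ℂ, (a : ℂ) = qCoeff f ℓ ∧
        a - ((W.apOfModel ℓ : ℤ) : integralClosure ℤ ℂ) ∈ 𝔪)
    (a : integralClosure ℤ ℂ) (ha : (a : ℂ) = qCoeff f p) (ha𝔪 : a ∈ 𝔪) :
    ¬ mltpResOrdinary W p := by
  classical
  intro hord
  haveI : Fact p.Prime := ⟨hp⟩
  have hp0 : p ≠ 0 := hp.ne_zero
  obtain ⟨x₀, hx₀, hx₀p, hx₀e, hx₀T⟩ :=
    mltph_exists_eigen_p (N := N) (p := p) hpN (W := W) f 𝔪 hf hmax hpm hcong a ha ha𝔪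
  obtain ⟨V₀, ψ, hle, hstab, hψ⟩ :=
    mltph_exists_iso_p (N := N) (p := p) hpN hp2 W hΔ hirr x₀ hx₀ ⟨⟨hx₀p, hx₀e⟩, hx₀T⟩
  obtain ⟨A, hA⟩ := Fermat.Agent.Lib.Helper6.exists_valuationSubring_liesOverPrime Qb hp
  obtain ⟨σ, hσ⟩ := Fermat.Agent.Lib.Helper6.exists_isFrobeniusAt A hp hA
  set 𝔓 : FFPlace := ⟨A, p, hp, hA⟩ with h𝔓
  have hnorm : TkrNormal N A := tkr_normal_of_levelOK (𝔓 := 𝔓) (tbq_allLevelsOK 𝔓 N hpN)
  obtain ⟨L, hLtop, hL⟩ := hord A hA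
  -- the rigid level
  have h4 : 4 ∣ N * 4 := Dvd.intro_left N rfl
  have hNN' : N ∣ N * 4 := Dvd.intro 4 rfl
  have hK : ¬ 𝔓.p ∣ N * 4 := by
    intro hd
    rcases (Nat.Prime.dvd_mul hp).mp hd with hd | hd
    · exact hpN hd
    · have h4' : p ∣ 2 ^ 2 := by norm_num; exact hd
      exact hp2 ((Nat.prime_dvd_prime_iff_eq hp Nat.prime_two).mp (hp.dvd_of_dvd_pow h4'))
  have hp2' : 2 < 𝔓.p := lt_of_le_of_ne hp.two_le (Ne.symm hp2)
  have hdvd : N ∣ N * 4 * 𝔓.p := mltph_dvd_mul 𝔓 (N * 4) hNN'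
  obtain ⟨Φ, hΦ⟩ : ∃ Φ : JZero N →+ JZero (N * 4 * 𝔓.p), Φ = dlwPullDvd hdvd := ⟨_, rfl⟩
  have hΦσ : ∀ (τ : GQ) (x : JZero N), Φ (τ • x) = τ • Φ x := by
    intro τ x
    rw [hΦ]
    exact dlwPullDvd_galois hdvd τ x
  have htor : ∀ x ∈ V₀, p • x = 0 := fun x hx => (hle hx).1.1
  have hinj : ∀ x : JZero N, p • x = 0 → Φ x = 0 → x = 0 := fun x hx h0 =>
    dlwPullDvd_eq_zero hdvd hp0 x hx (by rw [← hΦ]; exact h0)
  -- `V₀` consists of formal classes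
  have hformal : ∀ x ∈ V₀, Φ x ∈ s33gC 𝔓 (N * 4) hK := by
    intro x hx
    set x' : JZero N := σ⁻¹ • σ⁻¹ • x with hx'
    have hx'V : x' ∈ V₀ := hstab _ _ (hstab _ _ hx)
    have hσx'V : σ • x' ∈ V₀ := hstab _ _ hx'V
    obtain ⟨Z, hZ, hinf, hcls⟩ := mltph_ES_class N hnorm hp hpN hA hσ hp0 x'
      (by rw [natCast_zsmul]; exact htor x' hx'V)
    have hT0 : heckeOperatorBar N ⟨p, hp⟩ (σ • x') = 0 := (hle hσx'V).2
    have hxx : σ • σ • x' = x := by rw [hx', smul_inv_smul, smul_inv_smul]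
    rw [hT0, htor x' hx'V, hxx, add_zero, sub_zero] at hcls
    have := mltph_pull_mem_C 𝔓 (N * 4) hK hNN' Z hZ hinf
    rw [← hΦ] at this
    have hcls' : alpfClass 𝔓.hp.ne_zero Z hZ = x := hcls
    rw [hcls'] at this
    exact this
  -- the two subgroups
  set ι : ↥(S58Tors W p) →+ JZero N := V₀.subtype.comp ψ.toAddMonoidHom with hι
  have hιV : ∀ Q, ι Q ∈ V₀ := fun Q => (ψ Q).2
  have hισ : ∀ (τ : GQ) (Q : S58Tors W p), ι (τ • Q) = τ • ι Q := fun τ Q => hψ τ Q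
  have hιinj : Function.Injective ι := by
    intro Q Q' hQ
    exact ψ.injective (Subtype.ext hQ)
  have hιsurj : ∀ x ∈ V₀, ∃ Q, ι Q = x := by
    intro x hx
    exact ⟨ψ.symm ⟨x, hx⟩, by rw [hι]; simp⟩
  have hle' := mltph_F3 𝔓 (N * 4) hK h4 hp2' ((L.map ι).map Φ) (V₀.map Φ)
    (by
      rintro _ ⟨x, hx, rfl⟩
      refine ⟨hformal x hx, ?_⟩
      rw [← map_nsmul]
      show Φ (p • x) = 0
      rw [htor x hx, map_zero])
    (by
      rintro τ hτ _ ⟨x, hx, rfl⟩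
      exact ⟨τ • x, hstab τ x hx, hΦσ τ x⟩)
    (by
      rintro τ hτ _ ⟨x, hx, rfl⟩
      obtain ⟨Q, rfl⟩ := hιsurj x hx
      refine ⟨ι (τ • Q - Q), ⟨τ • Q - Q, hL τ hτ Q, rfl⟩, ?_⟩
      rw [map_sub, hισ, map_sub, hΦσ])
  -- conclusion
  apply hLtop
  rw [eq_top_iff]
  intro Q _
  have h1 : Φ (ι Q) ∈ (L.map ι).map Φ := hle' ⟨ι Q, hιV Q, rfl⟩
  obtain ⟨y, ⟨l, hl, rfl⟩, hy⟩ := h1
  have h2 : ι l - ι Q = 0 := by
    refine hinj _ ?_ ?_
    · rw [nsmul_sub, htor _ (hιV l), htor _ (hιV Q), sub_zero]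
    · rw [map_sub, hy, sub_self]
  have h3 : l = Q := hιinj (sub_eq_zero.mp h2)
  exact h3 ▸ hl

end

end Fermat.Agent.MLT
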