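/-
MLT / stream [P] = AtP, Hecke side (helper4), part 9: **the contract `MltpOrdContract` (AtP-2) is a
theorem**: if `W[p]` is ordinary at `p` (`mltpResOrdinary`), irreducible, `p` odd, and `W` is
residually modular of level `M`, `p² ∤ M`, then `W` is residually modular of level `M` (if `p ∣ M`)
resp. `M p` (if `p ∤ M`) by an eigenform whose `p`-th coefficient is a unit at `𝔪`.

* `mltph_ord_of_prime_to` : the case `p ∤ M` ((F) = `mltph_not_ordinary` + unit-root stabilisation);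
* `mltph_ord_contract : MltpOrdContract` (old/new dichotomy at `p ∥ M`, `a_p² = 1` for `p`-new
  forms).  Semistability of `W` is not used.
-/
import Mathlib
import Fermat.Agent.Lib.MLT.AtP.H.NotOrd

set_option autoImplicit false
set_option linter.unusedSectionVars false
set_option linter.unusedVariables false
set_option linter.style.haveILetI false

namespace Fermat.Agent.MLT

open ModularFormClass CongruenceSubgroup CuspForm Fermat.Agent.T1

local notation "Qb" => AlgebraicClosure ℚ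

noncomputable section

/-- the `p`-th coefficient of an eigenform of level prime to `p`, as an algebraic integer -/
theorem mltph_exists_coeff_T {N : ℕ} [NeZero N] {f : CuspForm (Gamma0 N) 2}
    (hf : f.IsNormalizedEigenform) {p : ℕ} (hp : p.Prime) (hpN : ¬ p ∣ N) :
    ∃ a : integralClosure ℤ ℂ, (a : ℂ) = qCoeff f p :=
  ⟨terEigenChar hf ∅ (heckeAlgebra.T hp hpN (Set.notMem_empty p)), by
    rw [terEigenChar_coe, terEigenCharC_T]⟩

/-- the `p`-th coefficient of an eigenform of level divisible by `p`, as an algebraic integer -/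
theorem mltph_exists_coeff_U {N : ℕ} [NeZero N] {f : CuspForm (Gamma0 N) 2}
    (hf : f.IsNormalizedEigenform) {p : ℕ} (hp : p.Prime) (hpN : p ∣ N) :
    ∃ a : integralClosure ℤ ℂ, (a : ℂ) = qCoeff f p :=
  ⟨terEigenChar hf ∅ (heckeAlgebra.U hp hpN (Set.notMem_empty p)), by
    rw [terEigenChar_coe]
    exact (Fermat.Agent.LR.lrw_qCoeff_prime_eq_eigenvalue_U f hf.qCoeff_one hp hpN _
      (terEigenCharC_apply hf (∅ : Set ℕ) (heckeAlgebra.U hp hpN (Set.notMem_empty p)))).symm⟩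

/-- **the case `p ∤ M`** -/
theorem mltph_ord_of_prime_to {p : ℕ} (hp : p.Prime) (hp2 : p ≠ 2) (W : WeierstrassCurve ℤ)
    (hΔ : W.Δ ≠ 0) (hirr : W.ModRepIsIrreducible p) (hord : mltpResOrdinary W p)
    (M : ℕ) [NeZero M] (hpM : ¬ p ∣ M) (hmod : W.IsResiduallyModularOfLevel p M) :
    mltpIsOrdResiduallyModularOfLevel W p (M * p) := by
  obtain ⟨f, 𝔪, hf, hmax, hpm, hcong⟩ := hmod
  obtain ⟨a, ha⟩ := mltph_exists_coeff_T hf hp hpM
  by_cases ha𝔪 : a ∈ 𝔪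
  · exact absurd hord (mltph_not_ordinary hp hp2 W hΔ hirr M hpM f 𝔪 hf hmax hpm hcong a ha ha𝔪)
  · obtain ⟨g', hg', hcoeff, u, hu, hu𝔪⟩ := mltph_stabilise_unit hp hpM hf 𝔪 hmax hpm a ha ha𝔪
    refine ⟨g', 𝔪, hg', hmax, hpm, fun ℓ hℓ hgood hℓM hℓp => ?_, u, hu, hu𝔪⟩
    have hℓM' : ¬ ℓ ∣ M := fun h => hℓM (h.mul_right p)
    obtain ⟨b, hb, hb𝔪⟩ := hcong ℓ hℓ hgood hℓM' hℓp
    refine ⟨b, ?_, hb𝔪⟩
    rw [hb, hcoeff ℓ (fun h => hℓp ((Nat.prime_dvd_prime_iff_eq hp hℓ).mp h).symm)]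

/-- **CONTRACT (AtP-2) is a theorem** -/
theorem mltph_ord_contract : MltpOrdContract := by
  intro p hp hp2 W hΔ _ hirr hord M hM hp2M hmod
  by_cases hpM : p ∣ M
  · rw [if_pos hpM]
    obtain ⟨M₀, rfl⟩ : ∃ M₀, M = M₀ * p := ⟨M / p, (Nat.div_mul_cancel hpM).symm⟩
    have hM₀ : M₀ ≠ 0 := by
      rintro rfl
      rw [zero_mul] at hM
      exact lt_irrefl _ hM
    haveI : NeZero M₀ := ⟨hM₀⟩
    haveI : NeZero (M₀ * p) := ⟨hM.ne'⟩
    have hpM₀ : ¬ p ∣ M₀ := fun h => hp2M (by rw [sq]; exact Nat.mul_dvd_mul h dvd_rfl)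
    obtain ⟨f, 𝔪, hf, hmax, hpm, hcong⟩ := hmod
    rcases mltph_old_or_sq hf hp hpM hp2M with hold | hsq
    · -- `p`-old
      rw [Nat.mul_div_cancel M₀ hp.pos] at hold
      obtain ⟨g, hg, hgf⟩ := hold
      refine mltph_ord_of_prime_to hp hp2 W hΔ hirr hord M₀ hpM₀ ⟨g, 𝔪, hg, hmax, hpm, ?_⟩
      intro ℓ hℓ hgood hℓM₀ hℓp
      have hℓM : ¬ ℓ ∣ M₀ * p := fun h => by
        rcases hℓ.dvd_mul.mp h with h | h
        · exact hℓM₀ h
        · exact hℓp ((Nat.prime_dvd_prime_iff_eq hℓ hp).mp h)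
      obtain ⟨b, hb, hb𝔪⟩ := hcong ℓ hℓ hgood hℓM hℓp
      exact ⟨b, by rw [hb, hgf ℓ hℓ hℓM], hb𝔪⟩
    · -- `p`-new
      obtain ⟨u, hu⟩ := mltph_exists_coeff_U hf hp hpM
      refine ⟨f, 𝔪, hf, hmax, hpm, hcong, u, hu, fun hu𝔪 => ?_⟩
      have h1 : u ^ 2 = 1 := by
        apply Subtype.ext
        show (u : ℂ) ^ 2 = 1
        rw [hu]
        exact hsq
      have h2 : (1 : integralClosure ℤ ℂ) ∈ 𝔪 := h1 ▸ 𝔪.pow_mem_of_mem hu𝔪 2 (by norm_num)
      exact hmax.ne_top ((Ideal.eq_top_iff_one 𝔪).mpr h2)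
  · rw [if_neg hpM]
    haveI : NeZero M := ⟨hM.ne'⟩
    exact mltph_ord_of_prime_to hp hp2 W hΔ hirr hord M hpM hmod

end

end Fermat.Agent.MLT
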