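/-
MLT / stream [P] = AtP, Hecke side (helper4), part 11: **(PN): `MltpLowerContract` from the toric
claim (T)**.

* `MltpToricChi` : **Claim (T)** — on the toric part `C[p] ∩ ker α_* ∩ ker β_*` of `J₀(N' p)[p]`
  (`N'` rigid: `4 ∣ N'`, `p ∤ N'`) the inertia group at `𝔓` acts through the cyclotomic character;
* `mltph_pn` : (T) ⇒ for `W[p]` irreducible and NOT ordinary at `p` (in the sense of
  `mltpResOrdinary`), residual modularity of level `M p` (`p ∤ M`) gives residual modularity of level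
  `M`.  [Branches A/B: `α_* V ≠ 0` or `β_* V ≠ 0` ⇒ old.  Otherwise `V ⊂ C` by (F12) and
  non-ordinarity at a suitable place, so by (T) inertia acts on `W[p]` through `χ`-scalars, hence
  `det = χ²`; but `det = χ` and `χ ≠ 1` on inertia (`p` odd).]
* `mltph_lowerContract_of_toric : MltpToricChi → MltpLowerContract`.
-/
import Mathlib
import Fermat.Agent.Lib.MLT.AtP.H.LowerCore
import Fermat.Agent.Lib.MLT.Contracts.AtPH
import Fermat.Agent.Lib.MLT.Res.Frob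
import Fermat.Agent.Lib.Delta.End.NotFormal

set_option autoImplicit false
set_option linter.unusedSectionVars false
set_option linter.unusedVariables false
set_option linter.style.haveILetI false
set_option synthInstance.maxHeartbeats 400000

open WeierstrassCurve WeierstrassCurve.Affine WeierstrassCurve.Affine.Point

namespace Fermat.Agent.MLT

open ModularCurve Fermat.Agent.T1 Fermat.Agent.T2 Fermat.Agent.TW
  Fermat.Agent.S33 Fermat.Agent.S05Lib AlgebraicCurve Fermat.Agent.Curve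
  Fermat.Agent.T3 Fermat.Agent.Alpha ModularFormClass CongruenceSubgroup Fermat.Agent.Delta
  Fermat.Agent.S58

local notation "Qb" => AlgebraicClosure ℚ
local notation "GQ" => (AlgebraicClosure ℚ ≃ₐ[ℚ] AlgebraicClosure ℚ)

noncomputable section

attribute [local instance] t2gp_fact
attribute [local instance] s33g_neZero
attribute [local instance] dlw_neZero_p

/-- **Claim (T)**: the inertia group at `𝔓` acts through the cyclotomic character on the toric part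
`C[p] ∩ ker α_* ∩ ker β_*` of `J₀(N' p)[p]` at the rigid levels `4 ∣ N'` -/
def MltpToricChi : Prop :=
  ∀ (𝔓 : FFPlace) (N' : ℕ) [NeZero N'] (h : ¬ 𝔓.p ∣ N'), 4 ∣ N' → 2 < 𝔓.p →
    ∀ ζ : Qb, IsPrimitiveRoot ζ 𝔓.p →
      ∀ x : JZero (N' * 𝔓.p), x ∈ s33gC 𝔓 N' h → 𝔓.p • x = 0 →
        dlwPushA N' 𝔓.p x = 0 → dlwPushB N' 𝔓.p x = 0 →
          ∀ σ ∈ 𝔓.I, ∀ k : ℕ, σ ζ = ζ ^ k → σ • x = k • x

/-- **(PN)** from Claim (T) -/
theorem mltph_pn (hT : MltpToricChi) {p : ℕ} (hp : p.Prime) (hp2 : p ≠ 2)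
    (W : WeierstrassCurve ℤ) (hΔ : W.Δ ≠ 0) (hirr : W.ModRepIsIrreducible p)
    (hno : ¬ mltpResOrdinary W p) (M : ℕ) [NeZero M] (hpM : ¬ p ∣ M)
    (hmod : W.IsResiduallyModularOfLevel p (M * p)) :
    W.IsResiduallyModularOfLevel p M := by
  classical
  haveI : Fact p.Prime := ⟨hp⟩
  have hp0 : p ≠ 0 := hp.ne_zero
  haveI : NeZero (M * p) := ⟨Nat.mul_ne_zero (NeZero.ne M) hp0⟩
  obtain ⟨f, 𝔪, hf, hmax, hpm, hcong⟩ := hmod
  obtain ⟨x₀, hx₀, hx₀p, hx₀e⟩ :=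
    dlw_exists_eigen (N := M * p) (p := p) (W := W) f 𝔪 hf hmax hpm hcong
  obtain ⟨V₀, ψ, hle, hstab, hψ⟩ := dlw_exists_iso (M * p) hp2 W hΔ hirr x₀ hx₀ ⟨hx₀p, hx₀e⟩
  have htor : ∀ x ∈ V₀, p • x = 0 := fun x hx => (hle hx).1
  have heig : ∀ (ℓ : ℕ) (hℓ : ℓ.Prime), ¬ ℓ ∣ M * p → W.IsGoodPrimeFor ℓ → ℓ ≠ p →
      ∀ x ∈ V₀, heckeOperatorBar (M * p) ⟨ℓ, hℓ⟩ x = W.apOfModel ℓ • x :=
    fun ℓ hℓ hℓN hgood hℓp x hx => (hle hx).2 ℓ hℓ hℓN hgood hℓp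
  -- Branches A and B
  by_cases hA : ∀ x ∈ V₀, dlwPushA M p x = 0
  swap
  · push Not at hA
    obtain ⟨x₁, hx₁, hAx₁⟩ := hA
    exact dlw_branchA M W V₀ htor hstab heig (dlwPushA M p) (dlwPushA_galois M p) x₁ hx₁ hAx₁
  by_cases hB : ∀ x ∈ V₀, dlwPushB M p x = 0
  swap
  · push Not at hB
    obtain ⟨x₁, hx₁, hBx₁⟩ := hB
    exact dlw_branchA M W V₀ htor hstab heig (dlwPushB M p) (dlwPushB_galois M p) x₁ hx₁ hBx₁
  -- the toric branch: contradiction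
  exfalso
  apply hno
  intro P hP
  by_contra hcon
  push Not at hcon
  -- `hcon : ∀ L ≠ ⊤, ∃ σ ∈ I, ∃ x, σ • x - x ∉ L`
  set 𝔓 : FFPlace := ⟨P, p, hp, hP⟩ with h𝔓
  have hK : ¬ 𝔓.p ∣ M * 4 := by
    intro hd
    rcases (Nat.Prime.dvd_mul hp).mp hd with hd | hd
    · exact hpM hd
    · have h4' : p ∣ 2 ^ 2 := by norm_num; exact hd
      exact hp2 ((Nat.prime_dvd_prime_iff_eq hp Nat.prime_two).mp (hp.dvd_of_dvd_pow h4'))
  have hp2' : 2 < 𝔓.p := lt_of_le_of_ne hp.two_le (Ne.symm hp2)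
  have h4 : 4 ∣ M * 4 := Dvd.intro_left M rfl
  have hMK : M ∣ M * 4 := Dvd.intro 4 rfl
  have hdvd : M * 𝔓.p ∣ M * 4 * 𝔓.p := Nat.mul_dvd_mul_right hMK 𝔓.p
  obtain ⟨Φ, hΦ⟩ : ∃ Φ : JZero (M * 𝔓.p) →+ JZero (M * 4 * 𝔓.p), Φ = dlwPullDvd hdvd := ⟨_, rfl⟩
  have hΦσ : ∀ (σ : GQ) (x : JZero (M * 𝔓.p)), Φ (σ • x) = σ • Φ x := by
    intro σ x
    rw [hΦ]
    exact dlwPullDvd_galois hdvd σ x
  have hinj : ∀ x : JZero (M * 𝔓.p), 𝔓.p • x = 0 → Φ x = 0 → x = 0 := fun x hx h0 =>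
    dlwPullDvd_eq_zero hdvd hp0 x hx (by rw [← hΦ]; exact h0)
  -- the embedding of `W[p]`
  set ι : ↥(S58Tors W p) →+ JZero (M * p) := V₀.subtype.comp ψ.toAddMonoidHom with hι
  have hιV : ∀ Q, ι Q ∈ V₀ := fun Q => (ψ Q).2
  have hισ : ∀ (τ : GQ) (Q : S58Tors W p), ι (τ • Q) = τ • ι Q := fun τ Q => hψ τ Q
  have hιinj : Function.Injective ι := by
    intro Q Q' hQ
    exact ψ.injective (Subtype.ext hQ)
  -- all of `W[p]` is formal
  obtain ⟨L, hLdef⟩ : ∃ L : AddSubgroup (mltpTors W p),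
      L = (s33gC 𝔓 (M * 4) hK).comap (Φ.comp ι) := ⟨_, rfl⟩
  have hLtriv : ∀ σ ∈ P.inertiaSubgroupIn ℚ, ∀ Q : mltpTors W p, σ • Q - Q ∈ L := by
    intro σ hσ Q
    rw [hLdef, AddSubgroup.mem_comap]
    show Φ (ι (σ • Q - Q)) ∈ s33gC 𝔓 (M * 4) hK
    rw [map_sub, hισ, map_sub, hΦσ]
    refine s33g_F12 𝔓 (M * 4) hK σ hσ 1 _ ?_
    rw [pow_one, ← map_nsmul]
    show Φ (p • ι Q) = 0
    rw [htor _ (hιV Q), _root_.map_zero]
  have hLtop : L = ⊤ := by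
    by_contra hne
    obtain ⟨σ, hσ, Q, hQ⟩ := hcon L hne
    exact hQ (hLtriv σ hσ Q)
  have hformal : ∀ Q : S58Tors W p, Φ (ι Q) ∈ s33gC 𝔓 (M * 4) hK := by
    intro Q
    have : Q ∈ L := by rw [hLtop]; exact AddSubgroup.mem_top _
    rw [hLdef, AddSubgroup.mem_comap] at this
    exact this
  -- Claim (T): inertia acts through `χ`
  haveI : NeZero ((p : ℕ) : Qb) := ⟨by exact_mod_cast hp0⟩
  obtain ⟨ζ, hζ⟩ := HasEnoughRootsOfUnity.exists_primitiveRoot Qb p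
  have hchi : ∀ σ ∈ 𝔓.I, ∀ k : ℕ, σ ζ = ζ ^ k → ∀ Q : S58Tors W p, σ • Q = k • Q := by
    intro σ hσ k hk Q
    have h1 := hT 𝔓 (M * 4) hK h4 hp2' ζ hζ (Φ (ι Q)) (hformal Q)
      (by
        rw [← map_nsmul]
        show Φ (p • ι Q) = 0
        rw [htor _ (hιV Q), _root_.map_zero])
      (by rw [hΦ, dlwPushA_pull 𝔓.p hMK hK (ι Q), hA _ (hιV Q), _root_.map_zero])
      (by rw [hΦ, dlwPushB_pull 𝔓.p hMK hK (ι Q), hB _ (hιV Q), _root_.map_zero])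
      σ hσ k hk
    rw [← hΦσ, ← hισ, ← map_nsmul, ← map_nsmul] at h1
    have h2 : ι (σ • Q) - ι (k • Q) = 0 := by
      refine hinj _ ?_ ?_
      · rw [nsmul_sub, htor _ (hιV _), htor _ (hιV _), sub_zero]
      · rw [map_sub, h1, sub_self]
    exact hιinj (sub_eq_zero.mp h2)
  -- an element of inertia moving `ζ`
  obtain ⟨σ, hσ, hσζ⟩ := dlp_exists_inertia_moving_zeta 𝔓 hp2 hζ
  obtain ⟨k, hk, hkζ⟩ := hζ.eq_pow_of_pow_eq_one (ξ := σ ζ)
    (by rw [← map_pow, hζ.pow_eq_one, map_one])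
  have hscal := hchi σ hσ k hkζ.symm
  -- the determinant
  have hμ : ∀ μ : Qb, μ ^ p = 1 → σ μ = μ ^ k := by
    intro μ hμ
    obtain ⟨j, -, rfl⟩ := hζ.eq_pow_of_pow_eq_one hμ
    rw [map_pow, ← hkζ, ← pow_mul, ← pow_mul, mul_comm]
  have hdet := mltr_det_nat W p hΔ σ k hμ
  have hρ : (mltrE W p hΔ).ρ σ = ((k : ℕ) : ZMod p) • LinearMap.id := by
    apply LinearMap.ext
    intro Q
    rw [mltrE_ρ_apply, LinearMap.smul_apply, LinearMap.id_apply, Nat.cast_smul_eq_nsmul]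
    exact hscal Q
  rw [hρ, LinearMap.det_smul, LinearMap.det_id, mul_one, (mltrE W p hΔ).finrank_eq] at hdet
  -- `k² = k` in `𝔽_p`
  have hk2 : ((k : ℕ) : ZMod p) * (((k : ℕ) : ZMod p) - 1) = 0 := by
    rw [mul_sub, mul_one, ← pow_two, hdet, sub_self]
  rcases mul_eq_zero.mp hk2 with h0 | h1
  · -- `p ∣ k`: `σ ζ = 1`
    rw [ZMod.natCast_eq_zero_iff] at h0
    obtain ⟨c, rfl⟩ := h0
    rw [pow_mul, hζ.pow_eq_one, one_pow] at hkζ
    have : ζ = 1 := by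
      have h3 : σ ζ = σ 1 := by rw [map_one]; exact hkζ.symm
      exact σ.injective h3
    exact hζ.ne_one hp.one_lt this
  · -- `k ≡ 1`: `σ ζ = ζ`
    have h1' : ((k : ℕ) : ZMod p) = ((1 : ℕ) : ZMod p) := by
      rw [Nat.cast_one]; exact sub_eq_zero.mp h1
    rw [ZMod.natCast_eq_natCast_iff] at h1'
    have h3 : ζ ^ k = ζ := by
      by_contra hne
      have hk1 : k ≠ 1 := fun h => hne (by rw [h, pow_one])
      have h5 : k % p = 1 % p := h1'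
      rw [Nat.mod_eq_of_lt hk, Nat.mod_eq_of_lt hp.one_lt] at h5
      exact hk1 h5
    exact hσζ (hkζ.symm.trans h3)

/-- **`MltpLowerContract` from Claim (T)** -/
theorem mltph_lowerContract_of_toric (hT : MltpToricChi) : MltpLowerContract := by
  intro p hp hp2 W hΔ hW hirr hno M hM hpM hp2M hmod
  obtain ⟨M', rfl⟩ := hpM
  have hM'0 : M' ≠ 0 := by
    rintro rfl
    simp at hM
  haveI : NeZero M' := ⟨hM'0⟩
  have hpM' : ¬ p ∣ M' := by
    rintro ⟨c, rfl⟩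
    exact hp2M ⟨c, by ring⟩
  rw [Nat.mul_div_cancel_left _ hp.pos]
  rw [mul_comm] at hmod
  exact mltph_pn hT hp hp2 W hΔ hirr hno M' hpM' hmod

end

end Fermat.Agent.MLT
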