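/-
MLT / stream [P] = AtP, Hecke side (helper4), part 13: **Claim (T), the bridge from the Kummer
function to the chart coordinates**.

`ch : S33xChart d V` a one-cluster chart over a two-valuation base (`Lib/S33/Key/ChartN.lean`),
`v : V`, `φ` a function with divisor `p (D v - E0)` ("Kummer function of `v`"), `p` an odd prime.
If `φ = c (1 + λ ψ)` with `c ∈ A^×`, `ψ ∈ 𝒪`, and `ρ ∈ A` is such that `λ ∈ ρ^p 𝔪`, `p ∈ ρ^{p-1} 𝔪`
and all chart coordinates `m j i v - m j i 0` lie in `ρ A`, then they lie in `ρ 𝔪`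
(`mltph_bridge`).  The closed-fibre input is (KM-Frob):
`u^p ∈ resBall L(p B - p E0) → u ∈ resBall L(B - E0)`.

[For `s = w_j(v) = w_j(0) - ρ T`: `s^p = φ t` with `t ∈ L(pB - pE0)`, hence
`ρ^p (T^p + 𝔪 …) = w_j(0)^p - c t ∈ L(pB - pE0)`, so `(res T)^p ∈ resBall L(pB - pE0)`.]
-/
import Fermat.Agent.Lib.S33.Key.ChartN

set_option autoImplicit false
set_option linter.style.haveILetI false
set_option linter.unusedSectionVars false
set_option linter.unusedVariables false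

namespace Fermat.Agent.MLT

open AlgebraicCurve IntermediateField Fermat.Agent.Curve Fermat.Agent.CurveP
  Fermat.Agent.Curve.PlaceAux Fermat.Agent.T2 RRAux Fermat.Agent.Alpha Fermat.Agent.S33 Finset

variable {K F k Fb : Type*} [Field K] [Field F] [Algebra K F] [Field k] [CommRing Fb] [Algebra k Fb]

/-- `(x - y)^p = x^p - y^p + p y r` for an odd prime `p`, with `r` in any subring containing
`x`, `y` -/
theorem mltph_sub_pow {R : Type*} [CommRing R] {p : ℕ} (hp : p.Prime) (hp2 : p ≠ 2)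
    (S : Subring R) {x y : R} (hx : x ∈ S) (hy : y ∈ S) :
    ∃ r ∈ S, (x - y) ^ p = x ^ p - y ^ p + (p : R) * y * r := by
  have hodd : Odd p := hp.odd_of_ne_two hp2
  have h1 := add_pow_prime_eq hp x (-y)
  refine ⟨-(x * ∑ k ∈ Ioo 0 p, x ^ (k - 1) * (-y) ^ (p - k - 1) * ((p.choose k / p : ℕ) : R)),
    S.neg_mem (S.mul_mem hx (S.sum_mem fun k _ => S.mul_mem (S.mul_mem (S.pow_mem hx _)
      (S.pow_mem (S.neg_mem hy) _)) (natCast_mem S _))), ?_⟩
  rw [sub_eq_add_neg, h1, hodd.neg_pow]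
  ring

/-- powers of sections -/
theorem mltph_pow_mem_rr {D : Divisor K F} {f : F} (hf : f ∈ riemannRochSpace D) (n : ℕ) :
    f ^ n ∈ riemannRochSpace (n • D) := by
  induction n with
  | zero =>
    rw [pow_zero, zero_smul, mem_riemannRochSpace_iff]
    intro v
    right
    rw [Place.ord_one]
    simp
  | succ n ih =>
    rw [pow_succ, succ_nsmul]
    exact mul_mem_riemannRochSpace ih hf

variable [IsAlgClosed K]
variable {d : T2Base K F k Fb} {V : Type*} [AddCommGroup V] (ch : S33xChart d V)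
variable {x : F} (hx : IsFunctionFieldGen K F x)
  [Algebra.IsSeparable (IntermediateField.adjoin K {x}) F]

/-- **the bridge**: see the file header -/
theorem mltph_bridge {p : ℕ} (hp : p.Prime) (hp2 : p ≠ 2) (hD0 : ch.D 0 = ch.E0)
    (hFrob : ∀ u : Fb, u ^ p ∈ d.resBall (riemannRochSpace (p • ch.B - p • ch.E0)) →
      u ∈ d.resBall (riemannRochSpace (ch.B - ch.E0)))
    (v : V) {φ : F} (hφ0 : φ ≠ 0)
    (hφ : ∀ P : Place K F, P.ord φ = (p : ℤ) * (ch.D v P - ch.E0 P))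
    (hφi : φ⁻¹ ∈ d.Ov) (c : ↥d.A) {lam : K} {ψ : F} (hψ : ψ ∈ d.Ov)
    (hφeq : φ = ((c : ↥d.A) : K) • (1 + lam • ψ))
    {ρ : K} (hρ0 : ρ ≠ 0)
    (hlam : ∃ a : ↥d.A, a ∈ IsLocalRing.maximalIdeal ↥d.A ∧ lam = ρ ^ p * (a : K))
    (hpρ : ∃ a : ↥d.A, a ∈ IsLocalRing.maximalIdeal ↥d.A ∧ (p : K) = ρ ^ (p - 1) * (a : K))
    (hδ : ∀ j i, ∃ a : ↥d.A, ch.m hx j i v - ch.m hx j i 0 = ρ * (a : K)) :
    ∀ j i, ∃ a : ↥d.A, a ∈ IsLocalRing.maximalIdeal ↥d.A ∧
      ch.m hx j i v - ch.m hx j i 0 = ρ * (a : K) := by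
  classical
  intro j
  choose a ha using hδ j
  obtain ⟨a₁, ha₁m, ha₁⟩ := hlam
  obtain ⟨a₂, ha₂m, ha₂⟩ := hpρ
  -- the sections
  set s : F := ch.w hx v j with hs
  set s₀ : F := ch.w hx 0 j with hs₀
  have hsO : s ∈ d.Ov := ch.w_mem_Ov hx v j
  have hs₀O : s₀ ∈ d.Ov := ch.w_mem_Ov hx 0 j
  have hsW : s ∈ riemannRochSpace (ch.B - ch.D v) := ch.w_mem hx v j
  have hs₀W : s₀ ∈ riemannRochSpace (ch.B - ch.E0) := by
    have := ch.w_mem hx 0 j
    rw [S33xChart.W, hD0] at this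
    exact this
  obtain ⟨hTO, hTres⟩ := s33r_res_sum d ch.cF ch.cF_mem_Ov a
  set T : F := ∑ i, ((a i : ↥d.A) : K) • ch.cF i with hT
  have hsT : s = s₀ - ρ • T := by
    rw [hs, hs₀, S33xChart.w, S33xChart.w, hT, Finset.smul_sum]
    have : ∀ i, ch.m hx j i v • ch.cF i =
        ch.m hx j i 0 • ch.cF i + ρ • ((a i : ↥d.A) : K) • ch.cF i := by
      intro i
      rw [smul_smul, ← add_smul, ← ha i]
      congr 1
      ring
    rw [Finset.sum_congr rfl fun i _ => this i, Finset.sum_add_distrib]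
    abel
  -- `ρ ∈ A`? not needed: `ρ • T ∈ 𝒪` since `s, s₀ ∈ 𝒪`
  have hρT : ρ • T ∈ d.Ov := by
    have : ρ • T = s₀ - s := by rw [hsT]; abel
    rw [this]
    exact d.Ov.sub_mem hs₀O hsO
  obtain ⟨R, hR, hpow⟩ := mltph_sub_pow hp hp2 d.Ov hs₀O hρT
  -- the quotient `t = s^p / φ`
  set t : F := s ^ p * φ⁻¹ with ht
  have htO : t ∈ d.Ov := d.Ov.mul_mem (d.Ov.pow_mem hsO p) hφi
  have hst : s ^ p = φ * t := by
    rw [ht, mul_comm (s ^ p), ← mul_assoc, mul_inv_cancel₀ hφ0, one_mul]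
  have htW : t ∈ riemannRochSpace (p • ch.B - p • ch.E0) := by
    have h1 := mltph_pow_mem_rr hsW p
    rw [mem_riemannRochSpace_iff] at h1 ⊢
    intro P
    by_cases hs0 : s = 0
    · left
      rw [ht, hs0, zero_pow hp.ne_zero, zero_mul]
    · right
      have hsp0 : s ^ p ≠ 0 := pow_ne_zero _ hs0
      rcases h1 P with h | h
      · exact absurd h hsp0
      · rw [ht, P.ord_mul hsp0 (inv_ne_zero hφ0), P.ord_inv, hφ P]
        simp only [Finsupp.sub_apply, Finsupp.smul_apply, nsmul_eq_mul] at h ⊢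
        linarith
  have hs₀pW : s₀ ^ p ∈ riemannRochSpace (p • ch.B - p • ch.E0) := by
    have := mltph_pow_mem_rr hs₀W p
    rwa [smul_sub] at this
  -- the element `Y = s₀^p - c t`
  set Y : F := s₀ ^ p - ((c : ↥d.A) : K) • t with hY
  have hYW : Y ∈ riemannRochSpace (p • ch.B - p • ch.E0) :=
    Submodule.sub_mem _ hs₀pW (Submodule.smul_mem _ _ htW)
  -- `Y = ρ^p Y'`
  set Y' : F := T ^ p - ((a₂ : ↥d.A) : K) • (T * R) +
    ((c * a₁ : ↥d.A) : K) • (ψ * t) with hY'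
  have hYY' : Y = ρ ^ p • Y' := by
    have e1 : s ^ p = s₀ ^ p - (ρ • T) ^ p + (p : F) * (ρ • T) * R := by rw [hsT]; exact hpow
    have e2 : φ * t = ((c : ↥d.A) : K) • t + ((c : ↥d.A) : K) • lam • (ψ * t) := by
      rw [hφeq]
      simp only [Algebra.smul_def]
      ring
    have e3 : ((p : ℕ) : F) = algebraMap K F ((p : ℕ) : K) := (map_natCast _ p).symm
    have hpp : ρ ^ p = ρ ^ (p - 1) * ρ := by
      rw [← pow_succ, Nat.sub_add_cancel hp.one_le]
    rw [hY, hY']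
    have e4 : s₀ ^ p - ((c : ↥d.A) : K) • t =
        (ρ • T) ^ p - (p : F) * (ρ • T) * R + ((c : ↥d.A) : K) • lam • (ψ * t) := by
      have := hst
      rw [e1, e2] at this
      linear_combination this
    have e5 : ((c * a₁ : ↥d.A) : K) = (c : K) * (a₁ : K) := rfl
    have hpp' : algebraMap K F ρ ^ p = algebraMap K F ρ ^ (p - 1) * algebraMap K F ρ := by
      rw [← map_pow, ← map_pow, ← map_mul, ← hpp]
    rw [e4, e3, ha₂, ha₁, e5]
    simp only [Algebra.smul_def, map_mul, map_pow]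
    linear_combination (algebraMap K F (a₂ : K) * T * R) * hpp'
  have hY'O : Y' ∈ d.Ov :=
    d.Ov.add_mem (d.Ov.sub_mem (d.Ov.pow_mem hTO p) (d.smul_mem a₂ (d.Ov.mul_mem hTO hR)))
      (d.smul_mem (c * a₁) (d.Ov.mul_mem hψ htO))
  have hY'W : Y' ∈ riemannRochSpace (p • ch.B - p • ch.E0) := by
    have hρp : ρ ^ p ≠ 0 := pow_ne_zero _ hρ0
    have : Y' = (ρ ^ p)⁻¹ • Y := by
      rw [hYY', smul_smul, inv_mul_cancel₀ hρp, one_smul]
    rw [this]
    exact Submodule.smul_mem _ _ hYW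
  -- its reduction
  have hresY' : d.res ⟨Y', hY'O⟩ = d.res ⟨T, hTO⟩ ^ p := by
    have h1 : d.res ⟨Y', hY'O⟩ = d.res ⟨T ^ p, d.Ov.pow_mem hTO p⟩ -
        d.res ⟨((a₂ : ↥d.A) : K) • (T * R), d.smul_mem a₂ (d.Ov.mul_mem hTO hR)⟩ +
        d.res ⟨((c * a₁ : ↥d.A) : K) • (ψ * t), d.smul_mem (c * a₁) (d.Ov.mul_mem hψ htO)⟩ := by
      rw [← d.res_sub', ← d.res_add']
    rw [h1, d.res_smul a₂ (d.Ov.mul_mem hTO hR), d.res_smul (c * a₁) (d.Ov.mul_mem hψ htO),
      d.res_pow' hTO, (d.resA_eq_zero_iff a₂).mpr ha₂m,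
      (d.resA_eq_zero_iff (c * a₁)).mpr (Ideal.mul_mem_left _ _ ha₁m)]
    simp
  have hmem : d.res ⟨T, hTO⟩ ^ p ∈ d.resBall (riemannRochSpace (p • ch.B - p • ch.E0)) :=
    ⟨Y', ⟨hY'W, hY'O⟩, hresY'⟩
  have hWb := hFrob _ hmem
  -- independence of the `cB i`
  have hsum : ∑ i, d.resA (a i) • ch.cB i ∈ ch.Wb := by
    have : d.res ⟨T, hTO⟩ = ∑ i, d.resA (a i) • ch.cB i := by
      rw [hTres]
      exact Finset.sum_congr rfl fun i _ => by rw [ch.res_cF i]
    rw [← this]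
    exact hWb
  have hzero := ch.cB_indep _ hsum
  intro i
  refine ⟨a i, ?_, ha i⟩
  rw [← d.resA_eq_zero_iff]
  exact congrFun hzero i

end Fermat.Agent.MLT
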