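/-
MLT / stream [P] = AtP, Hecke side (helper4), part 16: **Claim (T), the normalised Kummer function
of a point of `C[p]`** in the one-cluster chart.

For `v ∈ C[p]` and an effective divisor `D v` with `[D v - E0] = v` there is a function `φ` with
divisor `p (D v - E0)` which is a Gauss unit with residue `1` at both Gauss valuations
(`mltph_exists_kummer`): `φ = t h^p` with `t ≡ (1, 1)` from the definition of the formal part
(`s33g_exists_kummer_p`) and `h` a generator of `L(X + E0)`, `X = div t / p`, whose reduction is a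
constant by the BRIDGE.
-/
import Mathlib
import Fermat.Agent.Lib.S33.Wire.Bridge

set_option autoImplicit false
set_option linter.unusedSectionVars false
set_option linter.unusedVariables false
set_option linter.style.haveILetI false
set_option synthInstance.maxHeartbeats 400000

namespace Fermat.Agent.MLT

open AlgebraicCurve ModularCurve Fermat.Agent.T3 Fermat.Agent.TW Fermat.Agent.S33
  Fermat.Agent.Alpha Fermat.Agent.T2 Fermat.Agent.Curve RRAux Fermat.Agent.S33W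

local notation "Qb" => AlgebraicClosure ℚ
local notation "GQ" => (AlgebraicClosure ℚ ≃ₐ[ℚ] AlgebraicClosure ℚ)

noncomputable section

attribute [local instance] s33g_neZero

variable (𝔓 : FFPlace) (N' : ℕ) [NeZero N'] (h : ¬ 𝔓.p ∣ N')
variable {k Fb : Type} [Field k] [CommRing Fb] [Algebra k Fb]

/-- **the normalised Kummer function** -/
theorem mltph_exists_kummer (d : T2Base Qb ↥(modularFunctionFieldBar (N' * 𝔓.p)) k Fb)
    (hcong : ∀ t : (↥(modularFunctionFieldBar (N' * 𝔓.p)))ˣ, t ∈ s33gCong 𝔓 N' h →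
      ∃ ht : (t : ↥(modularFunctionFieldBar (N' * 𝔓.p))) ∈ d.Ov,
        d.res ⟨(t : ↥(modularFunctionFieldBar (N' * 𝔓.p))), ht⟩ = 1)
    (E0 : Divisor Qb ↥(modularFunctionFieldBar (N' * 𝔓.p)))
    (hone : ∀ t ∈ d.resBall (riemannRochSpace E0), ∃ a : k, t = algebraMap k Fb a)
    (hbridge : ∀ (X : Divisor Qb ↥(modularFunctionFieldBar (N' * 𝔓.p)))
      (w : ↥(modularFunctionFieldBar (N' * 𝔓.p))), w ≠ 0 →
      (∀ P : Place Qb ↥(modularFunctionFieldBar (N' * 𝔓.p)), P.ord w = ((𝔓.p : ℤ) • X) P) →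
      Divisor.degree X = 0 → ∀ hwO : w ∈ d.Ov, w⁻¹ ∈ d.Ov → d.res ⟨w, hwO⟩ = 1 →
        d.resBall (riemannRochSpace (E0 - X)) ≤ d.resBall (riemannRochSpace E0))
    (v : ↥(s33wCp 𝔓 N' h)) (Dv : Divisor Qb ↥(modularFunctionFieldBar (N' * 𝔓.p)))
    (hDv : 0 ≤ Dv)
    (hcl : ∃ hdeg : Dv - E0 ∈
        Divisor.degZero (K := Qb) (F := ↥(modularFunctionFieldBar (N' * 𝔓.p))),
      Pic0.mk ⟨Dv - E0, hdeg⟩ = (v : JZero (N' * 𝔓.p))) :
    ∃ φ : ↥(modularFunctionFieldBar (N' * 𝔓.p)), φ ≠ 0 ∧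
      (∀ P : Place Qb ↥(modularFunctionFieldBar (N' * 𝔓.p)),
        P.ord φ = (𝔓.p : ℤ) * (Dv P - E0 P)) ∧
      ∃ hφO : φ ∈ d.Ov, d.res ⟨φ, hφO⟩ = 1 := by
  obtain ⟨t, ht, htc, hvt⟩ := s33g_exists_kummer_p 𝔓 N' h (v : JZero (N' * 𝔓.p)) v.2.1 v.2.2
  obtain ⟨hdeg, hcl⟩ := hcl
  have hp0 : 𝔓.p ≠ 0 := 𝔓.hp.ne_zero
  set X : Divisor Qb ↥(modularFunctionFieldBar (N' * 𝔓.p)) := alpfDivQuot (K := Qb) 𝔓.p t with hX
  have hXdeg : Divisor.degree X = 0 := alpfDivQuot_degree hp0 ht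
  have hXord : ∀ P : Place Qb ↥(modularFunctionFieldBar (N' * 𝔓.p)),
      P.ord (t : ↥(modularFunctionFieldBar (N' * 𝔓.p))) = ((𝔓.p : ℤ) • X) P := by
    intro P
    rw [hX, alpf_smul_divQuot ht, alpfDiv_apply]
  -- the dictionary for `t` and `t⁻¹`
  obtain ⟨htO, htres⟩ := hcong t htc
  obtain ⟨htO', htres'⟩ := hcong t⁻¹ ((s33gCong 𝔓 N' h).inv_mem htc)
  rw [Units.val_inv_eq_inv_val] at htO'
  have htinv : ((t⁻¹ : (↥(modularFunctionFieldBar (N' * 𝔓.p)))ˣ) :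
      ↥(modularFunctionFieldBar (N' * 𝔓.p))) = (t : ↥(modularFunctionFieldBar (N' * 𝔓.p)))⁻¹ :=
    Units.val_inv_eq_inv_val t
  have h2 := hbridge (-X) (t : ↥(modularFunctionFieldBar (N' * 𝔓.p)))⁻¹ (inv_ne_zero t.ne_zero)
    (fun P => by
      rw [Place.ord_inv, hXord P, smul_neg]
      rfl)
    (by rw [map_neg, hXdeg, neg_zero]) htO' (by rw [inv_inv]; exact htO)
    (by
      have h3 : (⟨(t : ↥(modularFunctionFieldBar (N' * 𝔓.p)))⁻¹, htO'⟩ : ↥d.Ov) =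
          ⟨((t⁻¹ : (↥(modularFunctionFieldBar (N' * 𝔓.p)))ˣ) :
            ↥(modularFunctionFieldBar (N' * 𝔓.p))), by rw [htinv]; exact htO'⟩ :=
        Subtype.ext htinv.symm
      rw [h3]
      exact htres')
  rw [sub_neg_eq_add] at h2
  -- `D v - E0 - X` is principal
  have hprin : ∃ g : ↥(modularFunctionFieldBar (N' * 𝔓.p)), g ≠ 0 ∧
      ∀ P : Place Qb ↥(modularFunctionFieldBar (N' * 𝔓.p)), P.ord g = Dv P - E0 P - X P := by
    have h3 : Pic0.mk (⟨Dv - E0, hdeg⟩ : Divisor.degZero (K := Qb)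
        (F := ↥(modularFunctionFieldBar (N' * 𝔓.p)))) =
        Pic0.mk ⟨X, hXdeg⟩ := by
      rw [hcl, hvt]
      rfl
    unfold Pic0.mk at h3
    rw [QuotientAddGroup.eq, AddSubgroup.mem_addSubgroupOf] at h3
    obtain ⟨g, hg0, hg⟩ := h3
    refine ⟨g⁻¹, inv_ne_zero hg0, fun P => ?_⟩
    rw [Place.ord_inv, ← hg P]
    simp only [AddSubgroup.coe_add, AddSubgroup.coe_neg, Finsupp.add_apply,
      Finsupp.neg_apply, Finsupp.sub_apply]
    ring
  obtain ⟨g, hg0, hg⟩ := hprin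
  -- normalisation of `g`
  obtain ⟨c₀, hc₀, hgO, hgres⟩ := d.normalize g hg0
  have hgW : c₀ • g ∈ riemannRochSpace (E0 + X) := by
    refine Submodule.smul_mem _ _ ?_
    rw [mem_riemannRochSpace_iff]
    intro P
    right
    rw [hg P, Finsupp.add_apply]
    have := hDv P
    simp only [Finsupp.zero_apply] at this
    linarith
  obtain ⟨a, ha⟩ := hone _ (h2 ⟨c₀ • g, ⟨hgW, hgO⟩, rfl⟩)
  have ha0 : a ≠ 0 := by
    rintro rfl
    rw [map_zero] at ha
    exact hgres ha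
  obtain ⟨a', ha'⟩ := d.resA_surj a⁻¹
  -- `h₁ = a' c₀ g` has residue `1`
  set h₁ : ↥(modularFunctionFieldBar (N' * 𝔓.p)) := ((a' : ↥d.A) : Qb) • (c₀ • g) with hh₁
  have hh₁O : h₁ ∈ d.Ov := d.smul_mem a' hgO
  have hh₁res : d.res ⟨h₁, hh₁O⟩ = 1 := by
    have h4 := d.res_smul a' hgO
    rw [ha, ha', ← map_mul, inv_mul_cancel₀ ha0, map_one] at h4
    exact h4
  have ha'0 : ((a' : ↥d.A) : Qb) ≠ 0 := by
    intro h0
    have : a' = 0 := Subtype.ext h0
    rw [this, map_zero] at ha'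
    exact inv_ne_zero ha0 ha'.symm
  have hh₁0 : h₁ ≠ 0 := smul_ne_zero ha'0 (smul_ne_zero hc₀ hg0)
  have hh₁ord : ∀ P : Place Qb ↥(modularFunctionFieldBar (N' * 𝔓.p)),
      P.ord h₁ = Dv P - E0 P - X P := by
    intro P
    rw [hh₁, smul_smul, Algebra.smul_def,
      P.ord_mul ((map_ne_zero _).mpr (mul_ne_zero ha'0 hc₀)) hg0, hg P,
      PlaceAux.ord_algebraMap P, zero_add]
  refine ⟨(t : ↥(modularFunctionFieldBar (N' * 𝔓.p))) * h₁ ^ 𝔓.p,
    mul_ne_zero t.ne_zero (pow_ne_zero _ hh₁0), fun P => ?_,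
    d.Ov.mul_mem htO (d.Ov.pow_mem hh₁O _), ?_⟩
  · rw [P.ord_mul t.ne_zero (pow_ne_zero _ hh₁0), hXord P, ← zpow_natCast, P.ord_zpow, hh₁ord P,
      Finsupp.smul_apply, smul_eq_mul]
    ring
  · rw [d.res_mul' htO (d.Ov.pow_mem hh₁O _), d.res_pow' hh₁O, htres, hh₁res, one_pow, one_mul]

end

end Fermat.Agent.MLT
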