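/-
MLT / stream [P] = AtP, Hecke side (helper4), part 12: **Claim (T), local layer**.

`g : DlPlace B F κ` a discrete Gauss place over a base `B` with uniformiser `ϖ`, `p = η ϖ^e`
(ARBITRARY absolute ramification index `e`), `k` algebraically closed of characteristic `p`.

* `mltph_one_add_pow`  : `(1 + ϖ^m s)^p = 1 + ϖ^{pm} s^p + ϖ^{e+m} q`;
* `mltph_ll`           : **the local lemma**: for `1 ≤ n`, `n (p - 1) < p e`: if
  `1 + ϖ^n b = γ r^p x` with `γ ∈ K^×`, `x ≡ 1 mod ϖ^{n+1}`, then `res b ∈ k + κ^p`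
  (generalises helper9's `dli_level_lt`, which is the case `e = p - 1`, `n < p`);
* `mltph_depth`        : **Step 1, abstract form**: two places `g₁`, `g₂` over the same base, `z` a
  `p`-th power up to constants modulo `Uⁿ` at both places for all `n`, `z = c (1 + ϖ ψ)` with `ψ`
  integral at both places, and the GLOBAL RULE (`res ψ ∈ (k + κ₁^p) × (k + κ₂^p)` ⇒ `res ψ` is a
  constant, the same at both places) ⇒ `z = c' (1 + ϖ^n ψ')`, `ψ'` integral at both places, for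
  every `n` with `(n - 1)(p - 1) < p e`.
-/
import Fermat.Agent.Lib.Delta.Toric.Const

set_option autoImplicit false
set_option linter.unusedSectionVars false
set_option linter.unusedVariables false
set_option linter.style.haveILetI false

namespace Fermat.Agent.MLT

open Finset Fermat.Agent.Delta

variable {K k : Type*} [Field K] [Field k] {B : DlBase K k} {F κ : Type*} [Field F]
  [Algebra K F] [Field κ] [Algebra k κ] (g : DlPlace B F κ)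

/-- **`(1 + ϖ^m s)^p = 1 + ϖ^{pm} s^p + ϖ^{e+m} q`** -/
theorem mltph_one_add_pow {p : ℕ} (hp : p.Prime) (η : ↥B.A) (e : ℕ)
    (hη : (p : K) = (η : K) * B.ϖ ^ e) (m : ℕ) {s : F} (hs : s ∈ g.O) :
    ∃ q ∈ g.O, (1 + g.pi ^ m * s) ^ p =
      1 + g.pi ^ (p * m) * s ^ p + g.pi ^ (e + m) * q := by
  have h1 := add_pow_prime_eq hp (g.pi ^ m * s) (1 : F)
  have hpF : (p : F) = algebraMap K F (η : K) * g.pi ^ e := by
    have := congrArg (algebraMap K F) hη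
    rw [map_natCast, map_mul, map_pow] at this
    exact this
  have hmem : g.pi ^ m * s ∈ g.O := g.O.mul_mem (g.pi_pow_mem m) hs
  set Sg : F := ∑ k ∈ Ioo 0 p, (g.pi ^ m * s) ^ (k - 1) * (1 : F) ^ (p - k - 1) *
    ((p.choose k / p : ℕ) : F) with hSg
  have hSgmem : Sg ∈ g.O :=
    g.O.sum_mem fun k _ => g.O.mul_mem (g.O.mul_mem (g.O.pow_mem hmem _)
      (g.O.pow_mem g.O.one_mem _)) (natCast_mem g.O _)
  refine ⟨algebraMap K F (η : K) * s * Sg,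
    g.O.mul_mem (g.O.mul_mem (g.algebraMap_mem η) hs) hSgmem, ?_⟩
  rw [add_comm 1 (g.pi ^ m * s), h1, hpF, mul_pow, ← pow_mul, mul_comm m p, pow_add]
  ring

/-- if `1 + ϖⁿ b = γ y` with `y ≡ 1 mod ϖ^{n+1}` then the reduction of `b` is a constant -/
theorem mltph_ll_const {n : ℕ} (hn : 1 ≤ n) {b : F} (hb : b ∈ g.O) {γ : K} {y : F}
    (hy : g.OneMod (n + 1) y) (h : 1 + g.pi ^ n * b = algebraMap K F γ * y) :
    ∃ t : ↥B.A, g.res ⟨b, hb⟩ = algebraMap k κ (B.resA t) := by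
  have ha : g.OneMod n (1 + g.pi ^ n * b) := ⟨b, hb, rfl⟩
  have hy0 : y ≠ 0 := hy.ne_zero g (by omega)
  have hγ' : g.OneMod n (algebraMap K F γ) := by
    have h2 : algebraMap K F γ = (1 + g.pi ^ n * b) / y := by
      rw [h, mul_div_assoc, div_self hy0, mul_one]
    rw [h2]
    exact ha.div g hn (hy.mono g (by omega))
  obtain ⟨t, ht⟩ := dli_const_oneMod g hγ'
  obtain ⟨c, hc, hyc⟩ := hy
  refine ⟨t, ?_⟩
  have hpn : g.pi ^ n ≠ 0 := pow_ne_zero _ g.pi_ne_zero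
  have hkey : b = algebraMap K F (t : K) +
      g.pi * (c * (1 + g.pi ^ n * algebraMap K F (t : K))) := by
    have h3 : 1 + g.pi ^ n * b = (1 + g.pi ^ n * algebraMap K F (t : K)) *
        (1 + g.pi ^ (n + 1) * c) := by
      rw [h, hyc, ht]
    have h4 : g.pi ^ n * b = g.pi ^ n * (algebraMap K F (t : K) +
        g.pi * (c * (1 + g.pi ^ n * algebraMap K F (t : K)))) := by
      have := h3
      rw [pow_succ] at this
      linear_combination this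
    exact mul_left_cancel₀ hpn h4
  rw [g.res_eq_of_sub hb (g.algebraMap_mem t) (g.O.mul_mem hc (g.O.add_mem g.O.one_mem
    (g.O.mul_mem (g.pi_pow_mem n) (g.algebraMap_mem t)))) hkey, g.res_algebraMap]

/-- `n (p - 1) < p e` and `n < p m` give `n < e + m` -/
theorem mltph_ll_arith1 {p e n m : ℕ} (hp : 2 ≤ p) (hne : n * (p - 1) < p * e) (hpm : n < p * m) :
    n < e + m := by
  obtain ⟨p', rfl⟩ : ∃ p', p = p' + 1 := ⟨p - 1, by omega⟩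
  simp only [Nat.add_sub_cancel] at hne
  have h1 : (p' + 1) * n < (p' + 1) * (e + m) := by nlinarith
  exact Nat.lt_of_mul_lt_mul_left h1

/-- `n (p - 1) < p e` and `p m ≤ n` give `p m + 1 ≤ e + m` -/
theorem mltph_ll_arith2 {p e n m : ℕ} (hp : 2 ≤ p) (hne : n * (p - 1) < p * e) (hpm : p * m ≤ n) :
    p * m + 1 ≤ e + m := by
  obtain ⟨p', rfl⟩ : ∃ p', p = p' + 1 := ⟨p - 1, by omega⟩
  simp only [Nat.add_sub_cancel] at hne
  have h1 : (p' + 1) * (m * p') < (p' + 1) * e := by nlinarith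
  have h2 : m * p' < e := Nat.lt_of_mul_lt_mul_left h1
  nlinarith

/-- **case A** (`n < p m`): `r^p ≡ 1 mod ϖ^{n+1}`, the leading coefficient is a constant -/
theorem mltph_ll_caseA {p : ℕ} (hp : p.Prime) (η : ↥B.A) (e : ℕ)
    (hη : (p : K) = (η : K) * B.ϖ ^ e) {n m : ℕ} (hn : 1 ≤ n) (hne : n * (p - 1) < p * e)
    (hpm : n < p * m) {b : F} (hb : b ∈ g.O) {γ : K} {r : F} (hr : g.OneMod m r) {x : F}
    (hx : g.OneMod (n + 1) x) (h : 1 + g.pi ^ n * b = algebraMap K F γ * r ^ p * x) :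
    ∃ t : ↥B.A, g.res ⟨b, hb⟩ = algebraMap k κ (B.resA t) := by
  obtain ⟨s, hs, rfl⟩ := hr
  obtain ⟨q, hq, hpow⟩ := mltph_one_add_pow g hp η e hη m hs
  have h1 : n < e + m := mltph_ll_arith1 hp.two_le hne hpm
  have hrp : g.OneMod (n + 1) ((1 + g.pi ^ m * s) ^ p) := by
    refine ⟨g.pi ^ (p * m - (n + 1)) * s ^ p + g.pi ^ (e + m - (n + 1)) * q,
      g.O.add_mem (g.O.mul_mem (g.pi_pow_mem _) (g.O.pow_mem hs p))
        (g.O.mul_mem (g.pi_pow_mem _) hq), ?_⟩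
    rw [hpow, mul_add, ← mul_assoc, ← mul_assoc, ← pow_add, ← pow_add,
      Nat.add_sub_cancel' (by omega : n + 1 ≤ p * m),
      Nat.add_sub_cancel' (by omega : n + 1 ≤ e + m)]
    ring
  exact mltph_ll_const g hn hb (hrp.mul g hx) (by rw [h]; ring)

/-- the `p`-th power of `r ≡ 1 mod ϖ^m` in the range `p m + 1 ≤ e + m` -/
theorem mltph_pow_form {p : ℕ} (hp : p.Prime) (η : ↥B.A) (e : ℕ)
    (hη : (p : K) = (η : K) * B.ϖ ^ e) {m : ℕ} (hme : p * m + 1 ≤ e + m) {s : F} (hs : s ∈ g.O) :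
    ∃ q ∈ g.O, (1 + g.pi ^ m * s) ^ p = 1 + g.pi ^ (p * m) * (s ^ p + g.pi * q) := by
  obtain ⟨q, hq, hpow⟩ := mltph_one_add_pow g hp η e hη m hs
  refine ⟨g.pi ^ (e + m - (p * m + 1)) * q, g.O.mul_mem (g.pi_pow_mem _) hq, ?_⟩
  rw [hpow]
  have h1 : g.pi ^ (e + m) = g.pi ^ (p * m) * (g.pi * g.pi ^ (e + m - (p * m + 1))) := by
    rw [← pow_succ', ← pow_add]
    congr 1
    omega
  rw [h1]
  ring

/-- the constant `γ` in `a = γ y`, `a ≡ y ≡ 1 mod ϖ^M` (`M ≥ 1`), is `1 + ϖ^M t`, `t ∈ A` -/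
theorem mltph_const_form {M : ℕ} (hM : 1 ≤ M) {a y : F} (ha : g.OneMod M a) (hy : g.OneMod M y)
    {γ : K} (h : a = algebraMap K F γ * y) :
    ∃ t : ↥B.A, algebraMap K F γ = 1 + g.pi ^ M * algebraMap K F (t : K) := by
  have hy0 : y ≠ 0 := hy.ne_zero g hM
  have hγ' : g.OneMod M (algebraMap K F γ) := by
    have h2 : algebraMap K F γ = a / y := by
      rw [h, mul_div_assoc, div_self hy0, mul_one]
    rw [h2]
    exact ha.div g hM hy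
  exact dli_const_oneMod g hγ'

/-- **case B1** (`p m = n`): the leading coefficient is a constant plus a `p`-th power -/
theorem mltph_ll_caseB1 {p : ℕ} (hp : p.Prime) (η : ↥B.A) (e : ℕ)
    (hη : (p : K) = (η : K) * B.ϖ ^ e) {n m : ℕ} (hn : 1 ≤ n) (hne : n * (p - 1) < p * e)
    (hpm : p * m = n) {b : F} (hb : b ∈ g.O) {γ : K} {r : F} (hr : g.OneMod m r) {x : F}
    (hx : g.OneMod (n + 1) x) (h : 1 + g.pi ^ n * b = algebraMap K F γ * r ^ p * x) :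
    ∃ (t : ↥B.A) (τ : κ), g.res ⟨b, hb⟩ = algebraMap k κ (B.resA t) + τ ^ p := by
  obtain ⟨s, hs, rfl⟩ := hr
  have hme := mltph_ll_arith2 hp.two_le hne hpm.le
  obtain ⟨q, hq, hpow⟩ := mltph_pow_form g hp η e hη hme hs
  rw [hpm] at hpow
  set σ : F := s ^ p + g.pi * q with hσdef
  have hσ : σ ∈ g.O := g.O.add_mem (g.O.pow_mem hs p) (g.O.mul_mem g.pi_mem hq)
  have hrp : g.OneMod n ((1 + g.pi ^ m * s) ^ p) := ⟨σ, hσ, hpow⟩
  have ha : g.OneMod n (1 + g.pi ^ n * b) := ⟨b, hb, rfl⟩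
  obtain ⟨t, ht⟩ := mltph_const_form g hn ha (hrp.mul g (hx.mono g (by omega)))
    (by rw [h]; ring)
  obtain ⟨c, hc, hxc⟩ := hx
  refine ⟨t, g.res ⟨s, hs⟩, ?_⟩
  set T : F := algebraMap K F (t : K) with hT
  have hT' : T ∈ g.O := g.algebraMap_mem t
  have hpn : g.pi ^ n ≠ 0 := pow_ne_zero _ g.pi_ne_zero
  have hnn : g.pi ^ n = g.pi * g.pi ^ (n - 1) := by
    rw [← pow_succ', Nat.sub_add_cancel hn]
  have hkey : b = (T + s ^ p) + g.pi * (q + g.pi ^ (n - 1) * T * σ +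
      c * (1 + g.pi ^ n * T) * (1 + g.pi ^ n * σ)) := by
    have h3 : 1 + g.pi ^ n * b = (1 + g.pi ^ n * T) * (1 + g.pi ^ n * σ) *
        (1 + g.pi ^ (n + 1) * c) := by
      rw [h, ht, hpow, hxc]
    have h4 : g.pi ^ n * b = g.pi ^ n * ((T + s ^ p) + g.pi * (q + g.pi ^ (n - 1) * T * σ +
        c * (1 + g.pi ^ n * T) * (1 + g.pi ^ n * σ))) := by
      have := h3
      rw [pow_succ] at this
      have hnn' := hnn
      have hσ' := hσdef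
      linear_combination this + (T * σ * g.pi ^ n) * hnn' + (g.pi ^ n) * hσ'
    exact mul_left_cancel₀ hpn h4
  have hmem1 : T + s ^ p ∈ g.O := g.O.add_mem hT' (g.O.pow_mem hs p)
  have hmem2 : q + g.pi ^ (n - 1) * T * σ + c * (1 + g.pi ^ n * T) * (1 + g.pi ^ n * σ) ∈ g.O :=
    g.O.add_mem (g.O.add_mem hq (g.O.mul_mem (g.O.mul_mem (g.pi_pow_mem _) hT') hσ))
      (g.O.mul_mem (g.O.mul_mem hc (g.O.add_mem g.O.one_mem (g.O.mul_mem (g.pi_pow_mem _) hT')))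
        (g.O.add_mem g.O.one_mem (g.O.mul_mem (g.pi_pow_mem _) hσ)))
  rw [g.res_eq_of_sub hb hmem1 hmem2 hkey, g.res_add' hT' (g.O.pow_mem hs p), g.res_pow' hs,
    g.res_algebraMap]

/-- **case B2** (`p m < n`): the leading coefficient of `r` is a constant; `r` can be replaced by
`r' ≡ 1 mod ϖ^{m+1}` -/
theorem mltph_ll_reduce {p : ℕ} (hp : p.Prime) [CharP k p] [IsAlgClosed k] (η : ↥B.A) (e : ℕ)
    (hη : (p : K) = (η : K) * B.ϖ ^ e) {n m : ℕ} (hm : 1 ≤ m) (hne : n * (p - 1) < p * e)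
    (hpm : p * m < n) {b : F} (hb : b ∈ g.O) {γ : K} (hγ : γ ≠ 0) {r : F} (hr : g.OneMod m r)
    {x : F} (hx : g.OneMod (n + 1) x) (h : 1 + g.pi ^ n * b = algebraMap K F γ * r ^ p * x) :
    ∃ γ' : K, γ' ≠ 0 ∧ ∃ r' : F, g.OneMod (m + 1) r' ∧
      1 + g.pi ^ n * b = algebraMap K F γ' * r' ^ p * x := by
  haveI : CharP κ p := charP_of_injective_algebraMap (algebraMap k κ).injective p
  haveI : Fact p.Prime := ⟨hp⟩
  have hr0 : r ≠ 0 := hr.ne_zero g hm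
  obtain ⟨s, hs, hrs⟩ := hr
  have hme := mltph_ll_arith2 hp.two_le hne hpm.le
  obtain ⟨q, hq, hpow⟩ := mltph_pow_form g hp η e hη hme hs
  obtain ⟨M, hMdef⟩ : ∃ M : ℕ, M = p * m := ⟨_, rfl⟩
  rw [← hMdef] at hpm hme hpow
  have hM : 1 ≤ M := by
    rw [hMdef]
    exact Nat.one_le_iff_ne_zero.mpr (Nat.mul_ne_zero hp.ne_zero (by omega))
  set σ : F := s ^ p + g.pi * q with hσdef
  have hσ : σ ∈ g.O := g.O.add_mem (g.O.pow_mem hs p) (g.O.mul_mem g.pi_mem hq)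
  have hrp : g.OneMod M (r ^ p) := ⟨σ, hσ, by rw [hrs, hpow]⟩
  have ha : g.OneMod n (1 + g.pi ^ n * b) := ⟨b, hb, rfl⟩
  obtain ⟨t, ht⟩ := mltph_const_form g hM (ha.mono g hpm.le)
    (hrp.mul g (hx.mono g (by omega))) (by rw [h]; ring)
  obtain ⟨c, hc, hxc⟩ := hx
  set T : F := algebraMap K F (t : K) with hT
  have hT' : T ∈ g.O := g.algebraMap_mem t
  have hpM : g.pi ^ M ≠ 0 := pow_ne_zero _ g.pi_ne_zero
  -- `T + σ ≡ 0 mod ϖ`
  obtain ⟨d, hd⟩ : ∃ d, n = M + 1 + d := ⟨n - (M + 1), by omega⟩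
  have hMM : g.pi ^ M = g.pi * g.pi ^ (M - 1) := by
    rw [← pow_succ', Nat.sub_add_cancel hM]
  have hkey : T + s ^ p = 0 + g.pi * (g.pi ^ d * b - q - g.pi ^ (M - 1) * T * σ -
      g.pi ^ (d + 1) * c * (1 + g.pi ^ M * T) * (1 + g.pi ^ M * σ)) := by
    have h3 : 1 + g.pi ^ n * b = (1 + g.pi ^ M * T) * (1 + g.pi ^ M * σ) *
        (1 + g.pi ^ (n + 1) * c) := by
      rw [h, ht, hrs, hpow, hxc]
    have h4 : g.pi ^ M * (T + s ^ p) = g.pi ^ M * (0 + g.pi * (g.pi ^ d * b - q -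
        g.pi ^ (M - 1) * T * σ -
        g.pi ^ (d + 1) * c * (1 + g.pi ^ M * T) * (1 + g.pi ^ M * σ))) := by
      have := h3
      rw [hd] at this
      have e1 : g.pi ^ (M + 1 + d) = g.pi ^ M * (g.pi * g.pi ^ d) := by ring
      have e2 : g.pi ^ (M + 1 + d + 1) = g.pi ^ M * (g.pi * g.pi ^ (d + 1)) := by ring
      rw [e1, e2] at this
      have hMM' := hMM
      have hσ' := hσdef
      linear_combination (-1 : F) * this + (-(T * σ * g.pi ^ M)) * hMM' + (-g.pi ^ M) * hσ'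
    exact mul_left_cancel₀ hpM h4
  have hmem1 : T + s ^ p ∈ g.O := g.O.add_mem hT' (g.O.pow_mem hs p)
  have hmem2 : g.pi ^ d * b - q - g.pi ^ (M - 1) * T * σ -
      g.pi ^ (d + 1) * c * (1 + g.pi ^ M * T) * (1 + g.pi ^ M * σ) ∈ g.O :=
    g.O.sub_mem (g.O.sub_mem (g.O.sub_mem (g.O.mul_mem (g.pi_pow_mem _) hb) hq)
      (g.O.mul_mem (g.O.mul_mem (g.pi_pow_mem _) hT') hσ))
      (g.O.mul_mem (g.O.mul_mem (g.O.mul_mem (g.pi_pow_mem _) hc)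
        (g.O.add_mem g.O.one_mem (g.O.mul_mem (g.pi_pow_mem _) hT')))
        (g.O.add_mem g.O.one_mem (g.O.mul_mem (g.pi_pow_mem _) hσ)))
  have hres : algebraMap k κ (B.resA t) + g.res ⟨s, hs⟩ ^ p = 0 := by
    have := g.res_eq_of_sub hmem1 g.O.zero_mem hmem2 hkey
    rw [g.res_add' hT' (g.O.pow_mem hs p), g.res_pow' hs, g.res_algebraMap, g.res_zero'] at this
    exact this
  -- the leading coefficient of `r` is a constant
  obtain ⟨a₀, ha₀⟩ := IsAlgClosed.exists_pow_nat_eq (-(B.resA t)) hp.pos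
  have hsa : g.res ⟨s, hs⟩ = algebraMap k κ a₀ := by
    have h5 : g.res ⟨s, hs⟩ ^ p = algebraMap k κ a₀ ^ p := by
      rw [← map_pow (algebraMap k κ), ha₀, map_neg]
      exact eq_neg_of_add_eq_zero_right hres
    exact frobenius_inj κ p (by simpa [frobenius_def] using h5)
  obtain ⟨a, haa⟩ := B.resA_surj a₀
  set A' : F := algebraMap K F (a : K) with hA'
  have hA'mem : A' ∈ g.O := g.algebraMap_mem a
  have h0 : g.res ⟨s - A', g.O.sub_mem hs hA'mem⟩ = 0 := by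
    rw [g.res_sub' hs hA'mem, hsa, g.res_algebraMap, haa, sub_self]
  obtain ⟨s₁, hs₁, hss₁⟩ := g.exists_eq_pi_mul _ h0
  -- the constant `1 + ϖ^m a`
  set g₀ : K := 1 + B.ϖ ^ m * (a : K) with hg₀
  set ρ₀ : F := algebraMap K F g₀ with hρ₀
  have hρ₀' : ρ₀ = 1 + g.pi ^ m * A' := by
    rw [hρ₀, hg₀, map_add, map_one, map_mul, map_pow]; rfl
  have hρ₀one : g.OneMod m ρ₀ := ⟨A', hA'mem, hρ₀'⟩
  have hρ₀0 : ρ₀ ≠ 0 := hρ₀one.ne_zero g hm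
  have hρ₀i : ρ₀⁻¹ ∈ g.O := hρ₀one.inv_mem g hm
  have hg₀0 : g₀ ≠ 0 := by
    intro h0'
    apply hρ₀0
    rw [hρ₀, h0', map_zero]
  refine ⟨γ * g₀ ^ p, mul_ne_zero hγ (pow_ne_zero _ hg₀0), r / ρ₀,
    ⟨s₁ * ρ₀⁻¹, g.O.mul_mem hs₁ hρ₀i, ?_⟩, ?_⟩
  · have h6 : r = ρ₀ + g.pi ^ (m + 1) * s₁ := by
      have : s = A' + g.pi * s₁ := by rw [← hss₁]; ring
      rw [hrs, hρ₀', this, pow_succ]
      ring
    rw [h6, add_div, div_self hρ₀0, div_eq_mul_inv]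
    ring
  · rw [h, map_mul, map_pow, ← hρ₀, div_pow]
    field_simp

/-- the local lemma for `r ≡ 1 mod ϖ^m`, by induction on `n + 1 - m` -/
theorem mltph_ll_aux {p : ℕ} (hp : p.Prime) [CharP k p] [IsAlgClosed k] (η : ↥B.A) (e : ℕ)
    (hη : (p : K) = (η : K) * B.ϖ ^ e) {n : ℕ} (hn : 1 ≤ n) (hne : n * (p - 1) < p * e)
    {b : F} (hb : b ∈ g.O) {x : F} (hx : g.OneMod (n + 1) x) :
    ∀ (j m : ℕ), 1 ≤ m → n + 1 ≤ m + j → ∀ {γ : K}, γ ≠ 0 → ∀ {r : F}, g.OneMod m r →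
      1 + g.pi ^ n * b = algebraMap K F γ * r ^ p * x →
      ∃ (c : k) (τ : κ), g.res ⟨b, hb⟩ = algebraMap k κ c + τ ^ p := by
  intro j
  induction j with
  | zero =>
    intro m hm hmj γ hγ r hr h
    have hpm : n < p * m := by
      have := hp.two_le
      nlinarith
    obtain ⟨t, ht⟩ := mltph_ll_caseA g hp η e hη hn hne hpm hb hr hx h
    exact ⟨B.resA t, 0, by rw [ht, zero_pow hp.ne_zero, add_zero]⟩
  | succ j ih =>
    intro m hm hmj γ hγ r hr h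
    rcases lt_trichotomy n (p * m) with hpm | hpm | hpm
    · obtain ⟨t, ht⟩ := mltph_ll_caseA g hp η e hη hn hne hpm hb hr hx h
      exact ⟨B.resA t, 0, by rw [ht, zero_pow hp.ne_zero, add_zero]⟩
    · obtain ⟨t, τ, ht⟩ := mltph_ll_caseB1 g hp η e hη hn hne hpm.symm hb hr hx h
      exact ⟨B.resA t, τ, ht⟩
    · obtain ⟨γ', hγ', r', hr', h'⟩ := mltph_ll_reduce g hp η e hη hm hne hpm hb hγ hr hx h
      exact ih (m + 1) (by omega) (by omega) hγ' hr' h'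

/-- **the local lemma**: for `1 ≤ n`, `n (p - 1) < p e`: if `1 + ϖⁿ b = γ r^p x` with
`x ≡ 1 mod ϖ^{n+1}` then the reduction of `b` lies in `k + κ^p` -/
theorem mltph_ll {p : ℕ} (hp : p.Prime) [CharP k p] [IsAlgClosed k] (η : ↥B.A) (e : ℕ)
    (hη : (p : K) = (η : K) * B.ϖ ^ e) {n : ℕ} (hn : 1 ≤ n) (hne : n * (p - 1) < p * e)
    {b : F} (hb : b ∈ g.O) {γ : K} (hγ : γ ≠ 0) {r : F} (hr : r ≠ 0) {x : F}
    (hx : g.OneMod (n + 1) x) (h : 1 + g.pi ^ n * b = algebraMap K F γ * r ^ p * x) :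
    ∃ (c : k) (τ : κ), g.res ⟨b, hb⟩ = algebraMap k κ c + τ ^ p := by
  have ha : g.OneMod n (1 + g.pi ^ n * b) := ⟨b, hb, rfl⟩
  obtain ⟨γ', r', hγ'1, hr', h'⟩ := dli_normalize g hp (ha.mono g hn) hγ hr
    (hx.mono g (by omega)) h
  have hγ'0 : ((γ' : ↥B.A) : K) ≠ 0 := by
    intro h0
    have : γ' = 0 := Subtype.ext h0
    rw [this, map_zero] at hγ'1
    exact zero_ne_one hγ'1
  exact mltph_ll_aux g hp η e hη hn hne hb hx n 1 le_rfl (by omega) hγ'0 hr' h'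

section Depth

variable {κ₁ κ₂ : Type*} [Field κ₁] [Algebra k κ₁] [Field κ₂] [Algebra k κ₂]
  (g₁ : DlPlace B F κ₁) (g₂ : DlPlace B F κ₂)

/-- one step of `mltph_depth` -/
theorem mltph_depth_step {p : ℕ} (hp : p.Prime) [CharP k p] [IsAlgClosed k] (η : ↥B.A) (e : ℕ)
    (hη : (p : K) = (η : K) * B.ϖ ^ e) {z : F}
    (hGL : ∀ (ψ : F) (h₁ : ψ ∈ g₁.O) (h₂ : ψ ∈ g₂.O),
      (∃ c : K, c ≠ 0 ∧ ∃ n : ℕ, 1 ≤ n ∧ z = algebraMap K F c * (1 + g₁.pi ^ n * ψ)) →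
      (∃ (c : k) (τ : κ₁), g₁.res ⟨ψ, h₁⟩ = algebraMap k κ₁ c + τ ^ p) →
      (∃ (c : k) (τ : κ₂), g₂.res ⟨ψ, h₂⟩ = algebraMap k κ₂ c + τ ^ p) →
      ∃ a : ↥B.A, g₁.res ⟨ψ, h₁⟩ = algebraMap k κ₁ (B.resA a) ∧
        g₂.res ⟨ψ, h₂⟩ = algebraMap k κ₂ (B.resA a))
    {n : ℕ} (hn : 1 ≤ n) (hne : n * (p - 1) < p * e)
    (hP₁ : DlPthMod g₁ p (n + 1) z) (hP₂ : DlPthMod g₂ p (n + 1) z)
    (hz : ∃ c : K, c ≠ 0 ∧ ∃ ψ ∈ g₁.O, ψ ∈ g₂.O ∧ z = algebraMap K F c * (1 + g₁.pi ^ n * ψ)) :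
    ∃ c : K, c ≠ 0 ∧ ∃ ψ ∈ g₁.O, ψ ∈ g₂.O ∧
      z = algebraMap K F c * (1 + g₁.pi ^ (n + 1) * ψ) := by
  obtain ⟨c, hc, ψ, hψ₁, hψ₂, hzc⟩ := hz
  have hzc' : z = algebraMap K F c * (1 : F) ^ p * (1 + g₁.pi ^ n * ψ) := by
    rw [one_pow, mul_one]; exact hzc
  -- the local lemma at both places
  have hL₁ : ∃ (c₁ : k) (τ : κ₁), g₁.res ⟨ψ, hψ₁⟩ = algebraMap k κ₁ c₁ + τ ^ p := by
    obtain ⟨c', hc', w', hw', x, hx, hz'⟩ := DlPthMod.exists_eq (g := g₁) (by omega) hP₁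
    exact mltph_ll g₁ hp η e hη hn hne hψ₁ (div_ne_zero hc' hc) (div_ne_zero hw' one_ne_zero) hx
      (dli_two_presentations g₁ hc one_ne_zero hzc' hz')
  have hL₂ : ∃ (c₂ : k) (τ : κ₂), g₂.res ⟨ψ, hψ₂⟩ = algebraMap k κ₂ c₂ + τ ^ p := by
    obtain ⟨c', hc', w', hw', x, hx, hz'⟩ := DlPthMod.exists_eq (g := g₂) (by omega) hP₂
    exact mltph_ll g₂ hp η e hη hn hne hψ₂ (div_ne_zero hc' hc) (div_ne_zero hw' one_ne_zero) hx
      (dli_two_presentations g₂ hc one_ne_zero hzc' hz')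
  obtain ⟨a, ha₁, ha₂⟩ := hGL ψ hψ₁ hψ₂ ⟨c, hc, n, hn, hzc⟩ hL₁ hL₂
  set A' : F := algebraMap K F (a : K) with hA'
  have hA'₁ : A' ∈ g₁.O := g₁.algebraMap_mem a
  have hA'₂ : A' ∈ g₂.O := g₂.algebraMap_mem a
  have h0₁ : g₁.res ⟨ψ - A', g₁.O.sub_mem hψ₁ hA'₁⟩ = 0 := by
    rw [g₁.res_sub' hψ₁ hA'₁, ha₁, g₁.res_algebraMap, sub_self]
  have h0₂ : g₂.res ⟨ψ - A', g₂.O.sub_mem hψ₂ hA'₂⟩ = 0 := by
    rw [g₂.res_sub' hψ₂ hA'₂, ha₂, g₂.res_algebraMap, sub_self]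
  obtain ⟨f, hf₁, hff⟩ := g₁.exists_eq_pi_mul _ h0₁
  obtain ⟨f', hf₂', hff'⟩ := g₂.exists_eq_pi_mul _ h0₂
  have hpi : g₁.pi = g₂.pi := rfl
  have hf₂ : f ∈ g₂.O := by
    have : f = f' := by
      have h3 : g₁.pi * f = g₁.pi * f' := by rw [← hff, hff', hpi]
      exact mul_left_cancel₀ g₁.pi_ne_zero h3
    rw [this]; exact hf₂'
  -- the constant `1 + ϖⁿ a`
  set u : K := 1 + B.ϖ ^ n * (a : K) with hu
  set U : F := algebraMap K F u with hU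
  have hU' : U = 1 + g₁.pi ^ n * A' := by
    rw [hU, hu, map_add, map_one, map_mul, map_pow]; rfl
  have hU₁ : g₁.OneMod n U := ⟨A', hA'₁, hU'⟩
  have hU₂ : g₂.OneMod n U := ⟨A', hA'₂, hU'⟩
  have hU0 : U ≠ 0 := hU₁.ne_zero g₁ hn
  have hu0 : u ≠ 0 := by
    intro h0
    apply hU0
    rw [hU, h0, map_zero]
  refine ⟨c * u, mul_ne_zero hc hu0, f * U⁻¹, g₁.O.mul_mem hf₁ (hU₁.inv_mem g₁ hn),
    g₂.O.mul_mem hf₂ (hU₂.inv_mem g₂ hn), ?_⟩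
  have h4 : ψ = A' + g₁.pi * f := by rw [← hff]; ring
  rw [hzc, map_mul, ← hU]
  have h5 : U * (1 + g₁.pi ^ (n + 1) * (f * U⁻¹)) = U + g₁.pi ^ (n + 1) * f * (U * U⁻¹) := by ring
  rw [mul_assoc, h5, mul_inv_cancel₀ hU0, mul_one, hU', h4, pow_succ]
  ring

/-- **Step 1, abstract form**: see the file header -/
theorem mltph_depth {p : ℕ} (hp : p.Prime) [CharP k p] [IsAlgClosed k] (η : ↥B.A) (e : ℕ)
    (hη : (p : K) = (η : K) * B.ϖ ^ e) {z : F}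
    (hP : ∀ n : ℕ, 1 ≤ n → DlPthMod g₁ p n z ∧ DlPthMod g₂ p n z)
    (hGL : ∀ (ψ : F) (h₁ : ψ ∈ g₁.O) (h₂ : ψ ∈ g₂.O),
      (∃ c : K, c ≠ 0 ∧ ∃ n : ℕ, 1 ≤ n ∧ z = algebraMap K F c * (1 + g₁.pi ^ n * ψ)) →
      (∃ (c : k) (τ : κ₁), g₁.res ⟨ψ, h₁⟩ = algebraMap k κ₁ c + τ ^ p) →
      (∃ (c : k) (τ : κ₂), g₂.res ⟨ψ, h₂⟩ = algebraMap k κ₂ c + τ ^ p) →
      ∃ a : ↥B.A, g₁.res ⟨ψ, h₁⟩ = algebraMap k κ₁ (B.resA a) ∧
        g₂.res ⟨ψ, h₂⟩ = algebraMap k κ₂ (B.resA a))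
    (h1 : ∃ c : K, c ≠ 0 ∧ ∃ ψ ∈ g₁.O, ψ ∈ g₂.O ∧ z = algebraMap K F c * (1 + g₁.pi ^ 1 * ψ))
    (n : ℕ) (hn : 1 ≤ n) (hne : (n - 1) * (p - 1) < p * e) :
    ∃ c : K, c ≠ 0 ∧ ∃ ψ ∈ g₁.O, ψ ∈ g₂.O ∧ z = algebraMap K F c * (1 + g₁.pi ^ n * ψ) := by
  induction n, hn using Nat.le_induction with
  | base => exact h1
  | succ n hn ih =>
    have hne' : n * (p - 1) < p * e := by simpa using hne
    have hlt : (n - 1) * (p - 1) < p * e :=
      lt_of_le_of_lt (Nat.mul_le_mul_right _ (Nat.sub_le n 1)) hne'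
    exact mltph_depth_step g₁ g₂ hp η e hη hGL hn hne' (hP (n + 1) (by omega)).1
      (hP (n + 1) (by omega)).2 (ih hlt)

end Depth

end Fermat.Agent.MLT
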