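/-
MLT / stream [P] = AtP, Hecke side (helper4), part 17: **Claim (T), the depth of the Kummer function
at a finite level**.

`φ` a function on `X₀(N' p)` over `ℚ̄` which is a Gauss unit with residue `(1, 1)` at the two Gauss
valuations, whose divisor is divisible by `p`, whose class is killed by `α_*` and `β_*`, and which
lies in a subspace `L ∋ 1` satisfying the closed-fibre rule (GL) (`T ^ p ∈ res L ⇒ T` constant).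
Then `φ = c (1 + λ ψ)` with `c ∈ A`, `ψ` Gauss, `v(λ) ≥ p / (p - 1)` (`mltph_level_depth`):
descend to a finite level `H` (a discrete valuation ring, ramification `e`), run the norm
contraction (`dli_contraction`) and the local lemma (`mltph_depth`) there.
-/
import Mathlib
import Fermat.Agent.Lib.MLT.AtP.H.TorLL
import Fermat.Agent.Lib.Delta.Toric.NormAlpha
import Fermat.Agent.Lib.Delta.Toric.Contract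
import Fermat.Agent.Lib.S33.Qb.Base

set_option autoImplicit false
set_option linter.unusedSectionVars false
set_option linter.unusedVariables false
set_option linter.style.haveILetI false
set_option synthInstance.maxHeartbeats 400000

open HahnSeries ModularCurve AlgebraicCurve Fermat.Agent.T1 Fermat.Agent.T2 Fermat.Agent.TW
  Fermat.Agent.S05Lib Fermat.Agent.Delta Fermat.Agent.S33Q Fermat.Agent.Alpha Module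

noncomputable section

namespace Fermat.Agent.MLT

local notation "Qb" => AlgebraicClosure ℚ

variable (𝔓 : FFPlace)

attribute [local instance] t2i_dvr t2i_isAlgClosed t2i_charP t2i_fact

attribute [local instance 10000] dliAlgF dliAlgE

section Lev

variable (H : Subgroup 𝔓.I) [H.FiniteIndex] {ϖ : ↥(tbFixO 𝔓 H)} (hϖ : Irreducible ϖ)
  (N' : ℕ) [NeZero N'] (h : ¬ 𝔓.p ∣ N')

/-- **the closed-fibre rule at a level**: (GL) over `ℚ̄` gives the hypothesis `hGL` of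
`mltph_depth` at the level `H` -/
theorem mltph_level_hGL (L : Submodule Qb ↥(modularFunctionFieldBar (N' * 𝔓.p)))
    (h1L : (1 : ↥(modularFunctionFieldBar (N' * 𝔓.p))) ∈ L)
    (hGL : ∀ T : ↥(tbBarF 𝔓 N') × ↥(tbBarF 𝔓 N'),
      T ^ 𝔓.p ∈ (s33qBase 𝔓 N' h).resBall L →
      ∃ a : IsLocalRing.ResidueField ↥𝔓.P,
        T = algebraMap (IsLocalRing.ResidueField ↥𝔓.P) (↥(tbBarF 𝔓 N') × ↥(tbBarF 𝔓 N')) a)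
    (Z : ↥(tbLevF 𝔓 (N' * 𝔓.p) H)) (hZL : tbPhiF 𝔓 (N' * 𝔓.p) H Z ∈ L)
    (ψ : ↥(tbLevF 𝔓 (N' * 𝔓.p) H)) (h₁ : ψ ∈ (dliInfH 𝔓 H hϖ N' h).O)
    (h₂ : ψ ∈ (dliZeroH 𝔓 H hϖ N' h).O)
    (hZ : ∃ c : ↥(tbFix 𝔓 H), c ≠ 0 ∧ ∃ n : ℕ, 1 ≤ n ∧
      Z = algebraMap ↥(tbFix 𝔓 H) ↥(tbLevF 𝔓 (N' * 𝔓.p) H) c *
        (1 + (dliInfH 𝔓 H hϖ N' h).pi ^ n * ψ))
    (hr₁ : ∃ (c : IsLocalRing.ResidueField ↥𝔓.P) (τ : ↥(tbBarF 𝔓 N')),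
      (dliInfH 𝔓 H hϖ N' h).res ⟨ψ, h₁⟩ =
        algebraMap (IsLocalRing.ResidueField ↥𝔓.P) ↥(tbBarF 𝔓 N') c + τ ^ 𝔓.p)
    (hr₂ : ∃ (c : IsLocalRing.ResidueField ↥𝔓.P) (τ : ↥(tbBarF 𝔓 N')),
      (dliZeroH 𝔓 H hϖ N' h).res ⟨ψ, h₂⟩ =
        algebraMap (IsLocalRing.ResidueField ↥𝔓.P) ↥(tbBarF 𝔓 N') c + τ ^ 𝔓.p) :
    ∃ a : ↥(dliBaseH 𝔓 H hϖ).A,
      (dliInfH 𝔓 H hϖ N' h).res ⟨ψ, h₁⟩ =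
        algebraMap (IsLocalRing.ResidueField ↥𝔓.P) ↥(tbBarF 𝔓 N') ((dliBaseH 𝔓 H hϖ).resA a) ∧
      (dliZeroH 𝔓 H hϖ N' h).res ⟨ψ, h₂⟩ =
        algebraMap (IsLocalRing.ResidueField ↥𝔓.P) ↥(tbBarF 𝔓 N') ((dliBaseH 𝔓 H hϖ).resA a) := by
  obtain ⟨c, hc0, n, hn, hZeq⟩ := hZ
  obtain ⟨c₁, τ₁, hτ₁⟩ := hr₁
  obtain ⟨c₂, τ₂, hτ₂⟩ := hr₂
  have hψO : ψ ∈ (t2iBase2Fix 𝔓 H N' h).Ov := (dliH_mem_Ov_iff 𝔓 H hϖ N' h ψ).mpr ⟨h₁, h₂⟩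
  have hϖ0 : ((ϖ : ↥(tbFixO 𝔓 H)) : ↥(tbFix 𝔓 H)) ≠ 0 := fun h0 =>
    hϖ.ne_zero (Subtype.ext h0)
  -- `Ψ = Φ ψ ∈ L`
  have hψeq : ψ = (c * ((ϖ : ↥(tbFixO 𝔓 H)) : ↥(tbFix 𝔓 H)) ^ n)⁻¹ • Z -
      ((((ϖ : ↥(tbFixO 𝔓 H)) : ↥(tbFix 𝔓 H)) ^ n)⁻¹) • (1 : ↥(tbLevF 𝔓 (N' * 𝔓.p) H)) := by
    have hpi : (dliInfH 𝔓 H hϖ N' h).pi =
        algebraMap ↥(tbFix 𝔓 H) ↥(tbLevF 𝔓 (N' * 𝔓.p) H)
          ((ϖ : ↥(tbFixO 𝔓 H)) : ↥(tbFix 𝔓 H)) := rfl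
    have hcF : algebraMap ↥(tbFix 𝔓 H) ↥(tbLevF 𝔓 (N' * 𝔓.p) H) c ≠ 0 :=
      (map_ne_zero _).mpr hc0
    have hϖF : algebraMap ↥(tbFix 𝔓 H) ↥(tbLevF 𝔓 (N' * 𝔓.p) H)
        ((ϖ : ↥(tbFixO 𝔓 H)) : ↥(tbFix 𝔓 H)) ≠ 0 := (map_ne_zero _).mpr hϖ0
    rw [hZeq, hpi, Algebra.smul_def, Algebra.smul_def, mul_one, map_inv₀, map_inv₀, map_mul,
      map_pow]
    field_simp
    ring
  have hΨL : tbPhiF 𝔓 (N' * 𝔓.p) H ψ ∈ L := by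
    rw [hψeq, map_sub, tbPhiF_smul, tbPhiF_smul, map_one]
    exact L.sub_mem (L.smul_mem _ hZL) (L.smul_mem _ h1L)
  have hΨO : tbPhiF 𝔓 (N' * 𝔓.p) H ψ ∈ s33qOv 𝔓 N' h := s33q_phi_mem 𝔓 N' h H hψO
  have hres : s33qRes 𝔓 N' h ⟨tbPhiF 𝔓 (N' * 𝔓.p) H ψ, hΨO⟩ =
      ((dliInfH 𝔓 H hϖ N' h).res ⟨ψ, h₁⟩, (dliZeroH 𝔓 H hϖ N' h).res ⟨ψ, h₂⟩) := by
    rw [s33qRes_phi 𝔓 N' h H hψO]
    exact dliH_res_eq 𝔓 H hϖ N' h hψO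
  -- `p`-th roots of the constants
  obtain ⟨δ₁, hδ₁⟩ := IsAlgClosed.exists_pow_nat_eq c₁ 𝔓.hp.pos
  obtain ⟨δ₂, hδ₂⟩ := IsAlgClosed.exists_pow_nat_eq c₂ 𝔓.hp.pos
  haveI : CharP ↥(tbBarF 𝔓 N') 𝔓.p :=
    charP_of_injective_algebraMap
      (algebraMap (IsLocalRing.ResidueField ↥𝔓.P) ↥(tbBarF 𝔓 N')).injective 𝔓.p
  have hT : ((algebraMap (IsLocalRing.ResidueField ↥𝔓.P) ↥(tbBarF 𝔓 N') δ₁ + τ₁,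
      algebraMap (IsLocalRing.ResidueField ↥𝔓.P) ↥(tbBarF 𝔓 N') δ₂ + τ₂) :
        ↥(tbBarF 𝔓 N') × ↥(tbBarF 𝔓 N')) ^ 𝔓.p =
      s33qRes 𝔓 N' h ⟨tbPhiF 𝔓 (N' * 𝔓.p) H ψ, hΨO⟩ := by
    rw [hres, hτ₁, hτ₂, ← hδ₁, ← hδ₂]
    apply Prod.ext
    · show (algebraMap (IsLocalRing.ResidueField ↥𝔓.P) ↥(tbBarF 𝔓 N') δ₁ + τ₁) ^ 𝔓.p = _
      rw [add_pow_char]
      simp only [map_pow]
    · show (algebraMap (IsLocalRing.ResidueField ↥𝔓.P) ↥(tbBarF 𝔓 N') δ₂ + τ₂) ^ 𝔓.p = _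
      rw [add_pow_char]
      simp only [map_pow]
  obtain ⟨a, ha⟩ := hGL _ (by
    rw [hT]
    exact ⟨tbPhiF 𝔓 (N' * 𝔓.p) H ψ, ⟨hΨL, hΨO⟩, rfl⟩)
  obtain ⟨a', ha'⟩ := tbFixRes_surjective 𝔓 H (a ^ 𝔓.p)
  have h3 := hT
  rw [ha, hres] at h3
  have h4 : (dliBaseH 𝔓 H hϖ).resA a' = a ^ 𝔓.p := ha'
  refine ⟨a', ?_, ?_⟩
  · rw [h4, map_pow]
    exact (congrArg Prod.fst h3).symm
  · rw [h4, map_pow]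
    exact (congrArg Prod.snd h3).symm

end Lev

section Main

variable (N' : ℕ) [NeZero N'] (h : ¬ 𝔓.p ∣ N')

/-- the valuation of a unit of `O_H` -/
theorem mltph_ord_unit (H : Subgroup 𝔓.I) (u : (↥(tbFixO 𝔓 H))ˣ) :
    𝔓.v.ord (((u : ↥(tbFixO 𝔓 H)) : ↥(tbFix 𝔓 H)) : Qb) = 0 := by
  have h1 : ((((u : ↥(tbFixO 𝔓 H)) : ↥(tbFix 𝔓 H)) : Qb)) *
      ((((u⁻¹ : (↥(tbFixO 𝔓 H))ˣ) : ↥(tbFixO 𝔓 H)) : ↥(tbFix 𝔓 H)) : Qb) = 1 := by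
    have h2 : ((u : ↥(tbFixO 𝔓 H)) * ((u⁻¹ : (↥(tbFixO 𝔓 H))ˣ) : ↥(tbFixO 𝔓 H))) = 1 :=
      u.mul_inv
    exact congrArg (fun t : ↥(tbFixO 𝔓 H) => ((t : ↥(tbFix 𝔓 H)) : Qb)) h2
  have hu0 : ((((u : ↥(tbFixO 𝔓 H)) : ↥(tbFix 𝔓 H)) : Qb)) ≠ 0 := left_ne_zero_of_mul_eq_one h1
  have hu0' : ((((u⁻¹ : (↥(tbFixO 𝔓 H))ˣ) : ↥(tbFixO 𝔓 H)) : ↥(tbFix 𝔓 H)) : Qb) ≠ 0 :=
    right_ne_zero_of_mul_eq_one h1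
  have h3 := 𝔓.v.ord_mul' hu0 hu0'
  rw [h1, 𝔓.v.ord_one] at h3
  have h4 : 𝔓.v.Ge ((((u : ↥(tbFixO 𝔓 H)) : ↥(tbFix 𝔓 H)) : Qb)) 0 :=
    (mem_tbFixO 𝔓 H _).mp (u : ↥(tbFixO 𝔓 H)).2
  have h5 : 𝔓.v.Ge ((((u⁻¹ : (↥(tbFixO 𝔓 H))ˣ) : ↥(tbFixO 𝔓 H)) : ↥(tbFix 𝔓 H)) : Qb) 0 :=
    (mem_tbFixO 𝔓 H _).mp (u⁻¹ : (↥(tbFixO 𝔓 H))ˣ).1.2
  rcases h4 with h4 | h4
  · exact absurd h4 hu0
  rcases h5 with h5 | h5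
  · exact absurd h5 hu0'
  linarith

/-- arithmetic: the least `n` with `p e ≤ n (p - 1)` -/
theorem mltph_exists_depth (p e : ℕ) (hp : 2 ≤ p) (he : 1 ≤ e) :
    ∃ n : ℕ, 1 ≤ n ∧ (n - 1) * (p - 1) < p * e ∧ p * e ≤ n * (p - 1) := by
  have hex : ∃ n : ℕ, p * e ≤ n * (p - 1) :=
    ⟨p * e, Nat.le_mul_of_pos_right _ (by omega)⟩
  classical
  refine ⟨Nat.find hex, ?_, ?_, Nat.find_spec hex⟩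
  · by_contra h0
    have h1 : Nat.find hex = 0 := by omega
    have h2 := Nat.find_spec hex
    rw [h1, zero_mul] at h2
    have : 0 < p * e := Nat.mul_pos (by omega) (by omega)
    omega
  · by_contra h0
    have h1 : Nat.find hex - 1 < Nat.find hex := by
      have : Nat.find hex ≠ 0 := by
        intro h1
        have h2 := Nat.find_spec hex
        rw [h1, zero_mul] at h2
        have : 0 < p * e := Nat.mul_pos (by omega) (by omega)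
        omega
      omega
    exact Nat.find_min hex h1 (not_lt.mp h0)

/-- **the depth of the Kummer function** -/
theorem mltph_level_depth (φ : ↥(modularFunctionFieldBar (N' * 𝔓.p))) (hφ0 : φ ≠ 0)
    (hφO : φ ∈ s33qOv 𝔓 N' h) (hres : s33qRes 𝔓 N' h ⟨φ, hφO⟩ = 1)
    (hord : ∀ v : Place Qb ↥(modularFunctionFieldBar (N' * 𝔓.p)), (𝔓.p : ℤ) ∣ v.ord φ)
    (hA : dlwPushA N' 𝔓.p (alpfClass 𝔓.hp.ne_zero (Units.mk0 φ hφ0) hord) = 0)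
    (hB : dlwPushB N' 𝔓.p (alpfClass 𝔓.hp.ne_zero (Units.mk0 φ hφ0) hord) = 0)
    (L : Submodule Qb ↥(modularFunctionFieldBar (N' * 𝔓.p)))
    (h1L : (1 : ↥(modularFunctionFieldBar (N' * 𝔓.p))) ∈ L) (hφL : φ ∈ L)
    (hGL : ∀ T : ↥(tbBarF 𝔓 N') × ↥(tbBarF 𝔓 N'),
      T ^ 𝔓.p ∈ (s33qBase 𝔓 N' h).resBall L →
      ∃ a : IsLocalRing.ResidueField ↥𝔓.P,
        T = algebraMap (IsLocalRing.ResidueField ↥𝔓.P) (↥(tbBarF 𝔓 N') × ↥(tbBarF 𝔓 N')) a) :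
    ∃ (c : ↥𝔓.P) (lam : Qb) (ψ : ↥(modularFunctionFieldBar (N' * 𝔓.p))),
      ψ ∈ s33qOv 𝔓 N' h ∧ φ = (c : Qb) • (1 + lam • ψ) ∧
      𝔓.v.Ge lam ((𝔓.p : ℚ) / ((𝔓.p : ℚ) - 1)) := by
  obtain ⟨H, hH, -, -, hT⟩ := s33q_exists_level 𝔓 N' ⊤ {φ}
  obtain ⟨Z, rfl⟩ := hT φ (Finset.mem_singleton_self φ)
  haveI := hH
  obtain ⟨ϖ, hϖ⟩ := IsDiscreteValuationRing.exists_irreducible ↥(tbFixO 𝔓 H)
  have hp2 : 2 ≤ 𝔓.p := 𝔓.hp.two_le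
  -- `p = η ϖ ^ e`
  have hpO : ((𝔓.p : ℕ) : ↥(tbFixO 𝔓 H)) ≠ 0 := by
    intro h0
    have h1 := congrArg (fun t : ↥(tbFixO 𝔓 H) => ((t : ↥(tbFix 𝔓 H)) : Qb)) h0
    simp only [SubringClass.coe_natCast, ZeroMemClass.coe_zero] at h1
    exact 𝔓.p_ne_zero h1
  obtain ⟨e, η, hη⟩ := IsDiscreteValuationRing.eq_unit_mul_pow_irreducible hpO hϖ
  have hηK : ((𝔓.p : ℕ) : ↥(tbFix 𝔓 H)) =
      (((η : ↥(tbFixO 𝔓 H)) : ↥(tbFix 𝔓 H))) * ((ϖ : ↥(tbFixO 𝔓 H)) : ↥(tbFix 𝔓 H)) ^ e := by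
    have h1 := congrArg (fun t : ↥(tbFixO 𝔓 H) => (t : ↥(tbFix 𝔓 H))) hη
    simpa using h1
  have hηQ : ((𝔓.p : ℕ) : Qb) =
      ((((η : ↥(tbFixO 𝔓 H)) : ↥(tbFix 𝔓 H))) : Qb) *
        (((ϖ : ↥(tbFixO 𝔓 H)) : ↥(tbFix 𝔓 H)) : Qb) ^ e := by
    have h1 := congrArg (fun t : ↥(tbFix 𝔓 H) => (t : Qb)) hηK
    simpa using h1
  have hϖQ0 : (((ϖ : ↥(tbFixO 𝔓 H)) : ↥(tbFix 𝔓 H)) : Qb) ≠ 0 := by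
    intro h0
    exact hϖ.ne_zero (Subtype.ext (Subtype.ext h0))
  have hηQ0 : ((((η : ↥(tbFixO 𝔓 H)) : ↥(tbFix 𝔓 H))) : Qb) ≠ 0 := by
    intro h0
    rw [h0, zero_mul] at hηQ
    exact 𝔓.p_ne_zero hηQ
  -- the valuation of `ϖ`
  have hval : (e : ℚ) * 𝔓.v.ord (((ϖ : ↥(tbFixO 𝔓 H)) : ↥(tbFix 𝔓 H)) : Qb) = 1 := by
    have h1 := 𝔓.is_p.2
    rw [hηQ, 𝔓.v.ord_mul' hηQ0 (pow_ne_zero _ hϖQ0), mltph_ord_unit 𝔓 H η, zero_add,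
      𝔓.v.ord_pow hϖQ0] at h1
    exact h1
  have he : 1 ≤ e := by
    rcases Nat.eq_zero_or_pos e with h0 | h0
    · rw [h0] at hval
      norm_num at hval
    · exact h0
  obtain ⟨n, hn1, hne, hnp⟩ := mltph_exists_depth 𝔓.p e hp2 he
  -- the level data
  have hZO : Z ∈ (t2iBase2Fix 𝔓 H N' h).Ov := s33q_gauss_descend 𝔓 N' h H hφO
  have hresH : (t2iBase2Fix 𝔓 H N' h).res ⟨Z, hZO⟩ = 1 := by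
    rw [← s33qRes_phi 𝔓 N' h H hZO]
    exact hres
  have hZ12 := (dliH_mem_Ov_iff 𝔓 H hϖ N' h Z).mp hZO
  have hres12 := dliH_res_eq 𝔓 H hϖ N' h hZO
  rw [hresH] at hres12
  have hres1 : (dliInfH 𝔓 H hϖ N' h).res ⟨Z, hZ12.1⟩ = 1 := (congrArg Prod.fst hres12).symm
  have hres2 : (dliZeroH 𝔓 H hϖ N' h).res ⟨Z, hZ12.2⟩ = 1 := (congrArg Prod.snd hres12).symm
  have hom1 := (dliInfH 𝔓 H hϖ N' h).oneMod_of_res_eq_one hZ12.1 hres1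
  have hom2 := (dliZeroH 𝔓 H hϖ N' h).oneMod_of_res_eq_one hZ12.2 hres2
  have hZne : Z ≠ 0 := fun h0 => hφ0 (by rw [h0, map_zero])
  have hdiv : Z / (algebraMap ↥(tbFix 𝔓 H) ↥(tbLevF 𝔓 (N' * 𝔓.p) H) 1 * 1 ^ 𝔓.p) = Z := by
    rw [map_one, one_pow, mul_one, div_one]
  have hz₁ : DlPthMod (dliInfH 𝔓 H hϖ N' h) 𝔓.p 1 Z :=
    ⟨1, one_ne_zero, 1, one_ne_zero, by rw [hdiv]; exact hom1⟩
  have hz₂ : DlPthMod (dliZeroH 𝔓 H hϖ N' h) 𝔓.p 1 Z :=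
    ⟨1, one_ne_zero, 1, one_ne_zero, by rw [hdiv]; exact hom2⟩
  have hN₁ := dli_norm_cond_of_pushA 𝔓 H N' h 𝔓.hp.ne_zero Z hφ0 hord hA
  have hN₂ := dli_norm_cond_of_pushB 𝔓 H N' h 𝔓.hp.ne_zero Z hφ0 hord hB
  haveI := dliH_finite_E1 𝔓 H N' h
  haveI := dliH_finite_E2 𝔓 H N' h
  have hP := dli_contraction 𝔓.p 𝔓.hp.ne_zero (dliInfH 𝔓 H hϖ N' h) (dliZeroH 𝔓 H hϖ N' h)
    (dliE1H 𝔓 H N') (dliE2H 𝔓 H N' h) (dliH_finrank_E1 𝔓 H N' h) (dliH_finrank_E2 𝔓 H N' h)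
    (dliH_norm_raises_inf 𝔓 H hϖ N' h) (dliH_norm_raises_zero 𝔓 H hϖ N' h) Z hZne hN₁
    (dliH_norm_cond_E2 𝔓 H N' h hN₂) hz₁ hz₂
  -- the start of the induction
  have h1 : ∃ c : ↥(tbFix 𝔓 H), c ≠ 0 ∧ ∃ ψ ∈ (dliInfH 𝔓 H hϖ N' h).O,
      ψ ∈ (dliZeroH 𝔓 H hϖ N' h).O ∧
      Z = algebraMap ↥(tbFix 𝔓 H) ↥(tbLevF 𝔓 (N' * 𝔓.p) H) c *
        (1 + (dliInfH 𝔓 H hϖ N' h).pi ^ 1 * ψ) := by
    obtain ⟨ψ₁, hψ₁, hZ₁⟩ := hom1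
    obtain ⟨ψ₂, hψ₂, hZ₂⟩ := hom2
    have hpi : (dliZeroH 𝔓 H hϖ N' h).pi = (dliInfH 𝔓 H hϖ N' h).pi := rfl
    have h12 : ψ₁ = ψ₂ := by
      have h3 : (dliInfH 𝔓 H hϖ N' h).pi ^ 1 * ψ₁ = (dliInfH 𝔓 H hϖ N' h).pi ^ 1 * ψ₂ := by
        have h4 := hZ₁.symm.trans hZ₂
        rw [hpi] at h4
        exact add_left_cancel h4
      exact mul_left_cancel₀ (pow_ne_zero _ (dliInfH 𝔓 H hϖ N' h).pi_ne_zero) h3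
    refine ⟨1, one_ne_zero, ψ₁, hψ₁, h12 ▸ hψ₂, ?_⟩
    rw [map_one, one_mul]
    exact hZ₁
  obtain ⟨c, hc0, ψ, hψ1, hψ2, hZeq⟩ :=
    mltph_depth (g₁ := dliInfH 𝔓 H hϖ N' h) (g₂ := dliZeroH 𝔓 H hϖ N' h) 𝔓.hp
      (η : ↥(tbFixO 𝔓 H)) e hηK hP
      (fun ψ h₁ h₂ hZ hr₁ hr₂ =>
        mltph_level_hGL 𝔓 H hϖ N' h L h1L hGL Z hφL ψ h₁ h₂ hZ hr₁ hr₂) h1 n hn1 hne
  -- `c` is integral
  have hom : (dliInfH 𝔓 H hϖ N' h).OneMod n (1 + (dliInfH 𝔓 H hϖ N' h).pi ^ n * ψ) :=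
    ⟨ψ, hψ1, rfl⟩
  have hcO : algebraMap ↥(tbFix 𝔓 H) ↥(tbLevF 𝔓 (N' * 𝔓.p) H) c ∈
      (dliInfH 𝔓 H hϖ N' h).O := by
    have h2 : algebraMap ↥(tbFix 𝔓 H) ↥(tbLevF 𝔓 (N' * 𝔓.p) H) c =
        Z * (1 + (dliInfH 𝔓 H hϖ N' h).pi ^ n * ψ)⁻¹ := by
      rw [hZeq, mul_assoc, mul_inv_cancel₀ (hom.ne_zero _ hn1), mul_one]
    rw [h2]
    exact (dliInfH 𝔓 H hϖ N' h).O.mul_mem hZ12.1 (hom.inv_mem _ hn1)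
  have hcA : c ∈ tbFixO 𝔓 H := (dliInfH 𝔓 H hϖ N' h).mem_A_of_mem hcO
  -- transfer to `ℚ̄`
  have hψO : ψ ∈ (t2iBase2Fix 𝔓 H N' h).Ov := (dliH_mem_Ov_iff 𝔓 H hϖ N' h ψ).mpr ⟨hψ1, hψ2⟩
  refine ⟨tbFixIncl 𝔓 H ⟨c, hcA⟩, (((ϖ : ↥(tbFixO 𝔓 H)) : ↥(tbFix 𝔓 H)) : Qb) ^ n,
    tbPhiF 𝔓 (N' * 𝔓.p) H ψ, s33q_phi_mem 𝔓 N' h H hψO, ?_, ?_⟩
  · have hpi : (dliInfH 𝔓 H hϖ N' h).pi =
        algebraMap ↥(tbFix 𝔓 H) ↥(tbLevF 𝔓 (N' * 𝔓.p) H)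
          ((ϖ : ↥(tbFixO 𝔓 H)) : ↥(tbFix 𝔓 H)) := rfl
    have h3 : Z = c • (1 + (((ϖ : ↥(tbFixO 𝔓 H)) : ↥(tbFix 𝔓 H)) ^ n) • ψ) := by
      rw [Algebra.smul_def, Algebra.smul_def, map_pow, ← hpi]
      exact hZeq
    conv_lhs => rw [h3]
    rw [tbPhiF_smul, map_add, map_one, tbPhiF_smul]
    rfl
  · right
    rw [𝔓.v.ord_pow hϖQ0]
    have hp1 : (0 : ℚ) < (𝔓.p : ℚ) - 1 := by
      have : (2 : ℚ) ≤ (𝔓.p : ℚ) := by exact_mod_cast hp2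
      linarith
    have he0 : (0 : ℚ) < (e : ℚ) := by exact_mod_cast he
    rw [div_le_iff₀ hp1]
    have h4 : ((𝔓.p * e : ℕ) : ℚ) ≤ ((n * (𝔓.p - 1) : ℕ) : ℚ) := by exact_mod_cast hnp
    rw [Nat.cast_mul, Nat.cast_mul, Nat.cast_sub (by omega), Nat.cast_one] at h4
    have h5 : 𝔓.v.ord (((ϖ : ↥(tbFixO 𝔓 H)) : ↥(tbFix 𝔓 H)) : Qb) = 1 / (e : ℚ) := by
      rw [eq_div_iff he0.ne']
      linarith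
    rw [h5]
    rw [show (n : ℚ) * (1 / (e : ℚ)) * ((𝔓.p : ℚ) - 1) = ((n : ℚ) * ((𝔓.p : ℚ) - 1)) / e by ring,
      le_div_iff₀ he0]
    linarith

end Main

end Fermat.Agent.MLT
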