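/-
MLT / stream [P] = AtP, Hecke side (helper4), part 14: **Claim (T), the connected model of `C[p]`
together with its chart** (a fork of the S33 wiring chain `s33w_model_final … s33x_exists_model`
which remembers the one-cluster chart, the description of the model by the chart functions and
the closed-fibre facts needed for the toric claim).

* `mltph_model_of_data` : fork of `s33w_model_of_data` / `s33x_model_of_data`;
* `MltphRich`           : the rich statement;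
* `mltph_rich_of_red`   : fork of `s33w_model_of_red`;
* `mltph_rich_of_setup`, `mltph_rich_of_setup'`, `mltph_rich_final` : forks of
  `s33w_model_of_setup`, `s33w_model_of_setup'`, `s33w_model_final`.
-/
import Mathlib
import Fermat.Agent.Lib.S33.Wire.Final

set_option autoImplicit false
set_option linter.unusedSectionVars false
set_option linter.unusedVariables false
set_option linter.style.haveILetI false
set_option synthInstance.maxHeartbeats 400000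

namespace Fermat.Agent.MLT

open AlgebraicCurve ModularCurve Fermat.Agent.T1 Fermat.Agent.T3 Fermat.Agent.TW Fermat.Agent.S33
  Fermat.Agent.S33C Fermat.Agent.Alpha Fermat.Agent.T2 Fermat.Agent.CurveP Fermat.Agent.Curve
  Fermat.Agent.S33N Fermat.Agent.S33Q Fermat.Agent.S33W Fermat.Agent.S24Lib RRAux

local notation "Qb" => AlgebraicClosure ℚ
local notation "GQ" => (AlgebraicClosure ℚ ≃ₐ[ℚ] AlgebraicClosure ℚ)

noncomputable section

attribute [local instance] s33g_neZero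

variable (𝔓 : FFPlace) (N' : ℕ) [NeZero N'] (h : ¬ 𝔓.p ∣ N')

section Data

variable {k Fb : Type} [Field k] [CommRing Fb] [Nontrivial Fb] [Algebra k Fb]

/-- fork of `s33w_model_of_data`: the connected model of `C[p]` together with its chart -/
theorem mltph_model_of_data {d : T2Base Qb ↥(modularFunctionFieldBar (N' * 𝔓.p)) k Fb}
    (hdA : d.A = 𝔓.P) {x : ↥(modularFunctionFieldBar (N' * 𝔓.p))}
    (hx : IsFunctionFieldGen Qb ↥(modularFunctionFieldBar (N' * 𝔓.p)) x)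
    [Algebra.IsSeparable (IntermediateField.adjoin Qb {x}) ↥(modularFunctionFieldBar (N' * 𝔓.p))]
    (hunit : ∀ f (hf : f ∈ d.Ov), IsUnit (d.res ⟨f, hf⟩) → f⁻¹ ∈ d.Ov)
    (B : Divisor Qb ↥(modularFunctionFieldBar (N' * 𝔓.p))) (n : ℕ)
    (hBdeg : Divisor.degree B = (n : ℤ))
    (hn : 6 * CurveP.genusR Qb ↥(modularFunctionFieldBar (N' * 𝔓.p)) + 2 ≤ n)
    (hBG : ∀ σ ∈ 𝔓.I, arithmeticGalois (modularFunctionFieldFull (N' * 𝔓.p)) σ • B = B)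
    (E0 : Divisor Qb ↥(modularFunctionFieldBar (N' * 𝔓.p))) (hE0 : 0 ≤ E0)
    (hE0deg : Divisor.degree E0 = CurveP.genusR Qb ↥(modularFunctionFieldBar (N' * 𝔓.p)))
    (hE0G : ∀ σ ∈ 𝔓.I, arithmeticGalois (modularFunctionFieldFull (N' * 𝔓.p)) σ • E0 = E0)
    (hone : ∀ t ∈ d.resBall (riemannRochSpace E0), ∃ a : k, t = algebraMap k Fb a)
    (hbr : ∀ v : ↥(s33wCp 𝔓 N' h),
      ∃ X : Divisor.degZero (K := Qb) (F := ↥(modularFunctionFieldBar (N' * 𝔓.p))),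
        Pic0.mk X = (v : JZero (N' * 𝔓.p)) ∧
        d.resBall (riemannRochSpace
          ((X : Divisor Qb ↥(modularFunctionFieldBar (N' * 𝔓.p))) + E0)) ≤
          d.resBall (riemannRochSpace E0) ∧
        d.resBall (riemannRochSpace
          (B - E0 - (X : Divisor Qb ↥(modularFunctionFieldBar (N' * 𝔓.p))))) =
          d.resBall (riemannRochSpace (B - E0)))
    {N : ℕ} (Fr : S33xFrame d N) (hFr : Fr.spanK = riemannRochSpace B)
    (heG : ∀ σ ∈ 𝔓.I, ∀ j,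
      arithmeticGalois (modularFunctionFieldFull (N' * 𝔓.p)) σ • Fr.e j = Fr.e j)
    (c : Fin (CurveP.genusR Qb ↥(modularFunctionFieldBar (N' * 𝔓.p))) → Fin N → ↥d.A)
    (hcG : ∀ σ ∈ 𝔓.I, ∀ i s, σ ((c i s : ↥d.A) : Qb) = ((c i s : ↥d.A) : Qb))
    (hG2a : ∀ γ : Fin (CurveP.genusR Qb ↥(modularFunctionFieldBar (N' * 𝔓.p))) → k,
      (∑ i, γ i • Fr.combB (fun s => d.resA (c i s))) ∈ d.resBall (riemannRochSpace (B - E0)) →
        γ = 0)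
    (hG2b : Fr.spanB ≤ d.resBall (riemannRochSpace (B - E0)) ⊔
      Submodule.span k (Set.range fun i => Fr.combB (fun s => d.resA (c i s))))
    (hKprod : d.resBall (riemannRochSpace (B + B - E0 - E0)) ≤
      d.resBall (riemannRochSpace (B - E0)) * d.resBall (riemannRochSpace (B - E0)))
    (hKhom : ∀ t : Fb, (∀ u ∈ d.resBall (riemannRochSpace (B + B - E0 - E0)),
      t * u ∈ d.resBall (riemannRochSpace (B + B - E0))) → ∃ a : k, t = algebraMap k Fb a)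
    (hKcol : ∀ u ∈ d.resBall (riemannRochSpace B),
      (∀ b ∈ d.resBall (riemannRochSpace (B - E0)),
        u * b ∈ d.resBall (riemannRochSpace (B + B - E0 - E0))) →
        u ∈ d.resBall (riemannRochSpace (B - E0)))
    (hKunit : ∀ {ι' : Type} (f : ι' → Fb),
      Submodule.span k (Set.range f) = d.resBall (riemannRochSpace (B - E0)) →
        ∃ j, IsUnit (f j)) :
    haveI := s33w_Cp_finite 𝔓 N' h
    ∃ (ch : S33xChart d ↥(s33wCp 𝔓 N' h))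
      (M : FFModel 𝔓 ↥(s33wCp 𝔓 N' h) (s33wActC 𝔓 N' h)),
      ch.B = B ∧ ch.E0 = E0 ∧
      M.carrier = Algebra.adjoin 𝔓.W (Set.range (s33xFam hx ch)) ∧
      (∀ ji v, s33xFam hx ch ji v ∈ 𝔓.P) ∧ (∀ y, M.OrdGT y 0) ∧
      ∀ v : ↥(s33wCp 𝔓 N' h),
        ∃ hdeg : ch.D v - E0 ∈
            Divisor.degZero (K := Qb) (F := ↥(modularFunctionFieldBar (N' * 𝔓.p))),
          Pic0.mk ⟨ch.D v - E0, hdeg⟩ = (v : JZero (N' * 𝔓.p)) := by
  haveI := s33w_Cp_finite 𝔓 N' h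
  set Gof : GQ → SemilinearAut Qb ↥(modularFunctionFieldBar (N' * 𝔓.p)) :=
    fun σ => arithmeticGalois (modularFunctionFieldFull (N' * 𝔓.p)) σ with hGof
  have hιact : ∀ σ ∈ 𝔓.I, ∀ v : ↥(s33wCp 𝔓 N' h),
      (s33wCp 𝔓 N' h).subtype (s33wActC 𝔓 N' h σ v) = Gof σ • (s33wCp 𝔓 N' h).subtype v := by
    intro σ hσ v
    exact s33wActC_coe 𝔓 N' h hσ v
  obtain ⟨D, hD, hDdeg, hDinj, hadd, hell, hcl, hDcl, hDG⟩ :=
    s33x_exists_points hx d hunit {g | ∃ σ ∈ 𝔓.I, g = Gof σ} B E0 hE0deg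
      (by rintro g ⟨σ, hσ, rfl⟩; exact hE0G σ hσ) hone (s33wCp 𝔓 N' h).subtype
      (AddSubgroup.subtype_injective _) hbr
  let ch : S33xChart d ↥(s33wCp 𝔓 N' h) :=
    { B := B
      n := n
      hBdeg := hBdeg
      hn := hn
      E0 := E0
      hE0 := hE0
      hE0deg := hE0deg
      D := D
      hD := hD
      hDdeg := hDdeg
      hDinj := hDinj
      hadd := hadd
      hell := hell
      N := N
      Fr := Fr
      hFr := hFr
      c := c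
      hcl := hcl
      hG2a := hG2a
      hG2b := hG2b
      hKprod := hKprod
      hKhom := hKhom
      hKcol := hKcol
      hKunit := hKunit }
  have hfam := s33x_fam hx 𝔓 hdA (s33wActC 𝔓 N' h) ch (fun σ hσ i s => hcG σ hσ i s)
    fun σ hσ => ⟨Gof σ, fun a => rfl, hBG σ hσ, heG σ hσ,
      fun v => hDG (Gof σ) ⟨σ, hσ, rfl⟩ v (s33wActC 𝔓 N' h σ v) (hιact σ hσ v)⟩
  obtain ⟨M, hM⟩ := s33c_exists_model hfam
  refine ⟨ch, M, rfl, rfl, hM, hfam.int, fun y => s33c_ordGT M hM hfam.int fun ji => ?_, hDcl⟩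
  obtain ⟨j, i⟩ := ji
  have h1 := ch.m_conn hx y 0 j i
  rw [← sub_eq_zero, ← map_sub, d.resA_eq_zero_iff, IsLocalRing.mem_maximalIdeal,
    mem_nonunits_iff] at h1
  rw [← 𝔓.tk_valuation_lt_one_iff]
  have h2 : ¬ IsUnit (ch.mA hx j i y - ch.mA hx j i 0) := h1
  have h3 : d.A.valuation (((ch.mA hx j i y - ch.mA hx j i 0 : ↥d.A)) : Qb) < 1 := by
    rw [← not_le]
    intro hle
    apply h2
    have h4 : d.A.valuation (((ch.mA hx j i y - ch.mA hx j i 0 : ↥d.A)) : Qb) = 1 :=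
      le_antisymm ((d.A.valuation_le_one_iff _).mpr (Subtype.property _)) hle
    exact (d.A.valuation_eq_one_iff _).mpr h4
  have h5 : (((ch.mA hx j i y - ch.mA hx j i 0 : ↥d.A)) : Qb) =
      s33xFam hx ch (j, i) y - s33xFam hx ch (j, i) 0 := rfl
  rw [h5, hdA] at h3
  exact h3

end Data

section Rich

variable {k Fb : Type} [Field k] [CommRing Fb] [Nontrivial Fb] [Algebra k Fb]

/-- **the rich statement**: a connected model of `C[p]` generated by the chart functions of a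
one-cluster chart, together with the closed-fibre facts needed for the toric claim -/
def MltphRich (d : T2Base Qb ↥(modularFunctionFieldBar (N' * 𝔓.p)) k Fb)
    {x : ↥(modularFunctionFieldBar (N' * 𝔓.p))}
    (hx : IsFunctionFieldGen Qb ↥(modularFunctionFieldBar (N' * 𝔓.p)) x)
    [Algebra.IsSeparable (IntermediateField.adjoin Qb {x})
      ↥(modularFunctionFieldBar (N' * 𝔓.p))] : Prop :=
  haveI := s33w_Cp_finite 𝔓 N' h
  ∃ (ch : S33xChart d ↥(s33wCp 𝔓 N' h))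
    (M : FFModel 𝔓 ↥(s33wCp 𝔓 N' h) (s33wActC 𝔓 N' h)),
    M.carrier = Algebra.adjoin 𝔓.W (Set.range (s33xFam hx ch)) ∧
    (∀ ji v, s33xFam hx ch ji v ∈ 𝔓.P) ∧ (∀ y, M.OrdGT y 0) ∧
    (∀ v : ↥(s33wCp 𝔓 N' h),
      ∃ hdeg : ch.D v - ch.E0 ∈
          Divisor.degZero (K := Qb) (F := ↥(modularFunctionFieldBar (N' * 𝔓.p))),
        Pic0.mk ⟨ch.D v - ch.E0, hdeg⟩ = (v : JZero (N' * 𝔓.p))) ∧
    (∀ u : Fb, u ^ 𝔓.p ∈ d.resBall (riemannRochSpace (𝔓.p • ch.B - 𝔓.p • ch.E0)) →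
      u ∈ d.resBall (riemannRochSpace (ch.B - ch.E0))) ∧
    (∀ T : Fb, T ^ 𝔓.p ∈ d.resBall (riemannRochSpace (𝔓.p • ch.E0)) →
      ∃ a : k, T = algebraMap k Fb a) ∧
    (∀ t ∈ d.resBall (riemannRochSpace ch.E0), ∃ a : k, t = algebraMap k Fb a) ∧
    (∀ (X : Divisor Qb ↥(modularFunctionFieldBar (N' * 𝔓.p)))
      (w : ↥(modularFunctionFieldBar (N' * 𝔓.p))), w ≠ 0 →
      (∀ P : Place Qb ↥(modularFunctionFieldBar (N' * 𝔓.p)), P.ord w = ((𝔓.p : ℤ) • X) P) →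
      Divisor.degree X = 0 → ∀ hwO : w ∈ d.Ov, w⁻¹ ∈ d.Ov → d.res ⟨w, hwO⟩ = 1 →
        d.resBall (riemannRochSpace (ch.E0 - X)) ≤ d.resBall (riemannRochSpace ch.E0))

end Rich

section Red

variable {k F₁ F₂ σ₁ σ₂ : Type} [Field k] [Field F₁] [Field F₂] [Algebra k F₁] [Algebra k F₂]
  [IsAlgClosed k] [Fintype σ₁] [Fintype σ₂] [ExpChar k 𝔓.p]
  {x₁ : F₁} {x₂ : F₂} (hx₁ : IsFunctionFieldGen k F₁ x₁) (hx₂ : IsFunctionFieldGen k F₂ x₂)
  [Algebra.IsSeparable (IntermediateField.adjoin k {x₁}) F₁]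
  [Algebra.IsSeparable (IntermediateField.adjoin k {x₂}) F₂]
  (N : S33nDatum k F₁ F₂ σ₁ σ₂)

include hx₁ hx₂ in
/-- fork of `s33w_model_of_red` -/
theorem mltph_rich_of_red {d : T2Base Qb ↥(modularFunctionFieldBar (N' * 𝔓.p)) k (F₁ × F₂)}
    (hdA : d.A = 𝔓.P) {x : ↥(modularFunctionFieldBar (N' * 𝔓.p))}
    (hx : IsFunctionFieldGen Qb ↥(modularFunctionFieldBar (N' * 𝔓.p)) x)
    [Algebra.IsSeparable (IntermediateField.adjoin Qb {x}) ↥(modularFunctionFieldBar (N' * 𝔓.p))]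
    (hunit : ∀ f (hf : f ∈ d.Ov), IsUnit (d.res ⟨f, hf⟩) → f⁻¹ ∈ d.Ov)
    (hcong : ∀ t : (↥(modularFunctionFieldBar (N' * 𝔓.p)))ˣ, t ∈ s33gCong 𝔓 N' h →
      ∃ ht : (t : ↥(modularFunctionFieldBar (N' * 𝔓.p))) ∈ d.Ov,
        d.res ⟨(t : ↥(modularFunctionFieldBar (N' * 𝔓.p))), ht⟩ = 1)
    (hconn : ∀ c₁ c₂ : k, Sum.elim (fun _ : σ₁ => c₁) (fun _ : σ₂ => c₂) ∈ N.Δ → c₁ = c₂)
    {I E0 : Divisor Qb ↥(modularFunctionFieldBar (N' * 𝔓.p))}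
    {I₁ E₁ : Divisor k F₁} {I₂ E₂ : Divisor k F₂}
    (hIoff : N.Off I₁ I₂) (hEoff : N.Off E₁ E₂) (hE0 : 0 ≤ E0) (hE₁ : 0 ≤ E₁) (hE₂ : 0 ≤ E₂)
    (hell : Module.finrank k ↥(s33nL N E₁ E₂) = 1)
    (hdegI : Divisor.degree I = Divisor.degree I₁ + Divisor.degree I₂)
    (hdegE : Divisor.degree E0 = Divisor.degree E₁ + Divisor.degree E₂)
    (hg : (CurveP.genusR Qb ↥(modularFunctionFieldBar (N' * 𝔓.p)) : ℤ) = s33nPa N)
    (hE0deg : Divisor.degree E0 = CurveP.genusR Qb ↥(modularFunctionFieldBar (N' * 𝔓.p)))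
    (hI : ∀ n j : ℕ, d.resBall (riemannRochSpace (n • I - j • E0)) ≤
      s33nL N (n • I₁ - j • E₁) (n • I₂ - j • E₂))
    (hpE : d.resBall (riemannRochSpace (𝔓.p • E0)) ≤ s33nL N (𝔓.p • E₁) (𝔓.p • E₂))
    (hIG : ∀ σ ∈ 𝔓.I, arithmeticGalois (modularFunctionFieldFull (N' * 𝔓.p)) σ • I = I)
    (hE0G : ∀ σ ∈ 𝔓.I, arithmeticGalois (modularFunctionFieldFull (N' * 𝔓.p)) σ • E0 = E0)
    (n : ℕ) (m : ℕ) (hm : Divisor.degree (n • I) = (m : ℤ))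
    (hmg : 6 * CurveP.genusR Qb ↥(modularFunctionFieldBar (N' * 𝔓.p)) + 2 ≤ m)
    (hn₁ : 4 * (CurveP.genusR k F₁ : ℤ) + 2 * Fintype.card σ₁ ≤
      n * Divisor.degree I₁ - Divisor.degree E₁)
    (hn₂ : 4 * (CurveP.genusR k F₂ : ℤ) + 2 * Fintype.card σ₂ ≤
      n * Divisor.degree I₂ - Divisor.degree E₂)
    {M : ℕ} (Fr : S33xFrame d M) (hFr : Fr.spanK = riemannRochSpace (n • I))
    (heG : ∀ σ ∈ 𝔓.I, ∀ j,
      arithmeticGalois (modularFunctionFieldFull (N' * 𝔓.p)) σ • Fr.e j = Fr.e j)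
    (c : Fin (CurveP.genusR Qb ↥(modularFunctionFieldBar (N' * 𝔓.p))) → Fin M → ↥d.A)
    (hcG : ∀ σ ∈ 𝔓.I, ∀ i s, σ ((c i s : ↥d.A) : Qb) = ((c i s : ↥d.A) : Qb))
    (hG2a : ∀ γ : Fin (CurveP.genusR Qb ↥(modularFunctionFieldBar (N' * 𝔓.p))) → k,
      (∑ i, γ i • Fr.combB (fun s => d.resA (c i s))) ∈
        d.resBall (riemannRochSpace (n • I - E0)) → γ = 0)
    (hG2b : Fr.spanB ≤ d.resBall (riemannRochSpace (n • I - E0)) ⊔
      Submodule.span k (Set.range fun i => Fr.combB (fun s => d.resA (c i s)))) :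
    MltphRich 𝔓 N' h d hx := by
  obtain ⟨hKprod, hKhom, hKcol, hKunit, hone, hbridge⟩ :=
    s33h_package hx₁ hx₂ N hx d 𝔓.p hconn hIoff hEoff hE0 hE₁ hE₂ hell hdegI hdegE hg hI hpE n
      hn₁ hn₂
  have hbr := s33w_hbr 𝔓 N' h d hcong (n • I) E0 hbridge
  have hBG : ∀ σ ∈ 𝔓.I,
      arithmeticGalois (modularFunctionFieldFull (N' * 𝔓.p)) σ • (n • I) = n • I := by
    intro σ hσ
    rw [smul_comm, hIG σ hσ]
  obtain ⟨ch, Mod, hchB, hchE, hMod, hint, hgt, hDcl⟩ :=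
    mltph_model_of_data 𝔓 N' h hdA hx hunit (n • I) m hm hmg hBG E0 hE0 hE0deg hE0G hone hbr
      Fr hFr heG c hcG hG2a hG2b hKprod hKhom hKcol hKunit
  -- the dictionary for `n • I - E0`
  have hg₁ : (0 : ℤ) ≤ CurveP.genusR k F₁ := Int.natCast_nonneg _
  have hg₂ : (0 : ℤ) ≤ CurveP.genusR k F₂ := Int.natCast_nonneg _
  have hc₁ : (0 : ℤ) ≤ Fintype.card σ₁ := Int.natCast_nonneg _
  have hc₂ : (0 : ℤ) ≤ Fintype.card σ₂ := Int.natCast_nonneg _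
  have hpa := s33h_pa_le N
  have hBoff : N.Off (n • I₁) (n • I₂) :=
    ⟨fun s => by rw [Finsupp.smul_apply, hIoff.1 s, smul_zero],
      fun s => by rw [Finsupp.smul_apply, hIoff.2 s, smul_zero]⟩
  have hB₁deg : Divisor.degree (n • I₁) = n * Divisor.degree I₁ := by
    rw [map_nsmul, nsmul_eq_mul]
  have hB₂deg : Divisor.degree (n • I₂) = n * Divisor.degree I₂ := by
    rw [map_nsmul, nsmul_eq_mul]
  have hBdeg : Divisor.degree (n • I) = n * Divisor.degree I₁ + n * Divisor.degree I₂ := by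
    rw [map_nsmul, nsmul_eq_mul, hdegI]; ring
  have r1 : n • I - E0 = n • I - 1 • E0 := by rw [one_smul]
  have r1₁ : n • I₁ - E₁ = n • I₁ - 1 • E₁ := by rw [one_smul]
  have r1₂ : n • I₂ - E₂ = n • I₂ - 1 • E₂ := by rw [one_smul]
  have hX : d.resBall (riemannRochSpace (n • I - E0)) = s33nL N (n • I₁ - E₁) (n • I₂ - E₂) := by
    refine s33h_dict_eq hx₁ hx₂ N hx d ?_ (hBoff.sub N hEoff) ?_ hg ?_ ?_ ?_
    · rw [r1, r1₁, r1₂]; exact hI n 1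
    · rw [map_sub, map_sub, map_sub, hBdeg, hB₁deg, hB₂deg, hdegE]; ring
    · rw [map_sub, hB₁deg]; omega
    · rw [map_sub, hB₂deg]; omega
    · rw [map_sub, hBdeg, hdegE, hg]; omega
  refine ⟨ch, Mod, hMod, hint, hgt, ?_, ?_, ?_, ?_, ?_⟩
  · intro v
    rw [hchE]
    exact hDcl v
  · -- (KM-Frob)
    intro u hu
    rw [hchB, hchE] at hu ⊢
    have e : 𝔓.p • (n • I) - 𝔓.p • E0 = (𝔓.p * n) • I - 𝔓.p • E0 := by rw [mul_smul]
    have e₁ : (𝔓.p * n) • I₁ - 𝔓.p • E₁ = 𝔓.p • (n • I₁ - E₁) := by rw [smul_sub, mul_smul]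
    have e₂ : (𝔓.p * n) • I₂ - 𝔓.p • E₂ = 𝔓.p • (n • I₂ - E₂) := by rw [smul_sub, mul_smul]
    rw [e] at hu
    have h1 := hI (𝔓.p * n) 𝔓.p hu
    rw [e₁, e₂] at h1
    rw [hX]
    exact s33h_root N hx₁ hx₂ 𝔓.p h1
  · -- (GL)
    intro T hT
    rw [hchE] at hT
    have h1 := s33h_root N hx₁ hx₂ 𝔓.p (hpE hT)
    rw [s33h_eq_span_one N hE₁ hE₂ hell, Submodule.mem_span_singleton] at h1
    obtain ⟨a, ha⟩ := h1
    exact ⟨a, by rw [← ha, Algebra.algebraMap_eq_smul_one]⟩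
  · rw [hchE]
    exact hone
  · intro X w hw0 hdiv hXdeg hwO hwinv hres
    rw [hchE]
    exact (hbridge X w hw0 hdiv hXdeg hwO hwinv hres).1

end Red

section Setup

attribute [local instance] t2i_dvr t2i_isAlgClosed t2i_charP t2i_fact

set_option maxHeartbeats 1600000 in
/-- fork of `s33w_model_of_setup` -/
theorem mltph_rich_of_setup {σ : Type} [Fintype σ]
    (su₂ : T2Setup (s33qBase 𝔓 N' h) σ) (hsx : su₂.x = s33biX 𝔓 N' h)
    (hsxb : su₂.xb = (t2sfXi (IsLocalRing.ResidueField ↥𝔓.P) 𝔓.p N',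
      t2sfXi (IsLocalRing.ResidueField ↥𝔓.P) 𝔓.p N'))
    (hincl : ∀ hH : S33rdHyp su₂,
      ∃ S₁ S₂ : Set (Place (IsLocalRing.ResidueField ↥𝔓.P) ↥(tbBarF 𝔓 N')),
        S₁.Finite ∧ S₂.Finite ∧
        ∀ E₁ E₂ : Divisor (IsLocalRing.ResidueField ↥𝔓.P) ↥(tbBarF 𝔓 N'),
          0 ≤ E₁ → 0 ≤ E₂ → (∀ v, E₁ v ≤ 1) → (∀ v, E₂ v ≤ 1) →
          (∀ v ∈ S₁, E₁ v = 0) → (∀ v ∈ S₂, E₂ v = 0) →
          ∃ E0 : Divisor Qb ↥(modularFunctionFieldBar (N' * 𝔓.p)), 0 ≤ E0 ∧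
            Divisor.degree E0 = Divisor.degree E₁ + Divisor.degree E₂ ∧
            (∀ σ ∈ 𝔓.I, arithmeticGalois (modularFunctionFieldFull (N' * 𝔓.p)) σ • E0 = E0) ∧
            (∀ n j : ℕ, (s33qBase 𝔓 N' h).resBall
                (riemannRochSpace (n • s33rdI su₂ hH - j • E0)) ≤
              s33nL (s33rdN su₂ hH) (n • s33rdI₁ su₂ hH - j • E₁)
                (n • s33rdI₂ su₂ hH - j • E₂)) ∧
            (∀ j : ℕ, (s33qBase 𝔓 N' h).resBall (riemannRochSpace (j • E0)) ≤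
              s33nL (s33rdN su₂ hH) (j • E₁) (j • E₂))) :
    MltphRich 𝔓 N' h (s33qBase 𝔓 N' h) (s33biX_gen 𝔓 N' h) := by
  classical
  haveI : ExpChar (IsLocalRing.ResidueField ↥𝔓.P) 𝔓.p := inferInstance
  have hH : S33rdHyp su₂ := s33w_hyp 𝔓 N' h su₂ hsx hsxb
  haveI := hH.sep
  haveI := hH.sep₁
  haveI := hH.sep₂
  have hconn := s33rd_hconn su₂ hH (s33w_hidem 𝔓 N' h su₂ hsx)
  obtain ⟨S₁, S₂, hS₁, hS₂, hE⟩ := hincl hH
  obtain ⟨E₁, E₂, hE₁, hE₂, hE₁1, hE₂1, hE₁S, hE₂S, hEoff, hEdeg, hell⟩ :=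
    s33h_exists_generic' hH.gen₁ hH.gen₂ (s33rdN su₂ hH) hconn hS₁ hS₂
  obtain ⟨E0, hE0, hE0deg, hE0G, hI, hpole⟩ := hE E₁ E₂ hE₁ hE₂ hE₁1 hE₂1 hE₁S hE₂S
  have hg := s33rd_pa su₂ hH
  have hIeq : s33rdI su₂ hH = s33biI 𝔓 N' h := s33biI_eq' 𝔓 N' h hH.gen hsx
  rw [hIeq] at hI
  have hdegI := s33rd_degI su₂ hH
  rw [hIeq] at hdegI
  -- degrees
  have hd₁ : 0 < Divisor.degree (s33rdI₁ su₂ hH) := s33bi_degree_pos hH.gen₁
  have hd₂ : 0 < Divisor.degree (s33rdI₂ su₂ hH) := s33bi_degree_pos hH.gen₂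
  have hdE₁ : 0 ≤ Divisor.degree E₁ := Fermat.Agent.CurveP.RRAux.degree_nonneg_of_nonneg hE₁
  have hdE₂ : 0 ≤ Divisor.degree E₂ := Fermat.Agent.CurveP.RRAux.degree_nonneg_of_nonneg hE₂
  have hE0g : Divisor.degree E0 =
      CurveP.genusR Qb ↥(modularFunctionFieldBar (N' * 𝔓.p)) := by
    rw [hE0deg, hEdeg, hg]
  haveI := (s33biX_gen 𝔓 N' h).finite
  have hD : 0 < Module.finrank ↥(IntermediateField.adjoin Qb {s33biX 𝔓 N' h})
      ↥(modularFunctionFieldBar (N' * 𝔓.p)) := Module.finrank_pos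
  -- the choice of `n`
  set g : ℕ := CurveP.genusR Qb ↥(modularFunctionFieldBar (N' * 𝔓.p)) with hgdef
  set g₁ : ℕ := CurveP.genusR (IsLocalRing.ResidueField ↥𝔓.P) ↥(tbBarF 𝔓 N') with hg₁def
  set n : ℕ := 6 * g + 2 + 4 * g₁ + 2 * Fintype.card ↥(s33rdNodes su₂ hH 0) +
    2 * Fintype.card ↥(s33rdNodes su₂ hH 1) + g with hn
  have hmg : 6 * g + 2 ≤ n * Module.finrank ↥(IntermediateField.adjoin Qb {s33biX 𝔓 N' h})
      ↥(modularFunctionFieldBar (N' * 𝔓.p)) := by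
    calc 6 * g + 2 ≤ n * 1 := by omega
      _ ≤ _ := Nat.mul_le_mul_left n hD
  have hgE : Divisor.degree E₁ + Divisor.degree E₂ = (g : ℤ) := by
    rw [hEdeg, ← hg]
  have hn₁ : 4 * (g₁ : ℤ) + 2 * Fintype.card ↥(s33rdNodes su₂ hH 0) ≤
      n * Divisor.degree (s33rdI₁ su₂ hH) - Divisor.degree E₁ := by
    have h1 : (n : ℤ) * 1 ≤ n * Divisor.degree (s33rdI₁ su₂ hH) :=
      mul_le_mul_of_nonneg_left (by omega) (Int.natCast_nonneg n)
    have h2 : (n : ℤ) = 6 * g + 2 + 4 * g₁ + 2 * Fintype.card ↥(s33rdNodes su₂ hH 0) +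
        2 * Fintype.card ↥(s33rdNodes su₂ hH 1) + g := by
      rw [hn]; push_cast; ring
    have h3 : (0 : ℤ) ≤ Fintype.card ↥(s33rdNodes su₂ hH 1) := Int.natCast_nonneg _
    have h4 : (0 : ℤ) ≤ g := Int.natCast_nonneg _
    linarith
  have hn₂ : 4 * (g₁ : ℤ) + 2 * Fintype.card ↥(s33rdNodes su₂ hH 1) ≤
      n * Divisor.degree (s33rdI₂ su₂ hH) - Divisor.degree E₂ := by
    have h1 : (n : ℤ) * 1 ≤ n * Divisor.degree (s33rdI₂ su₂ hH) :=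
      mul_le_mul_of_nonneg_left (by omega) (Int.natCast_nonneg n)
    have h2 : (n : ℤ) = 6 * g + 2 + 4 * g₁ + 2 * Fintype.card ↥(s33rdNodes su₂ hH 0) +
        2 * Fintype.card ↥(s33rdNodes su₂ hH 1) + g := by
      rw [hn]; push_cast; ring
    have h3 : (0 : ℤ) ≤ Fintype.card ↥(s33rdNodes su₂ hH 0) := Int.natCast_nonneg _
    have h4 : (0 : ℤ) ≤ g := Int.natCast_nonneg _
    linarith
  -- the inertia-fixed frame
  have hBdeg : 3 * (g : ℤ) - 1 ≤ Divisor.degree (n • s33biI 𝔓 N' h) := by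
    rw [s33bi_degree_nsmul 𝔓 N' h n]
    have : (6 * g + 2 : ℤ) ≤ ((n * Module.finrank ↥(IntermediateField.adjoin Qb {s33biX 𝔓 N' h})
      ↥(modularFunctionFieldBar (N' * 𝔓.p)) : ℕ) : ℤ) := by exact_mod_cast hmg
    have h4 : (0 : ℤ) ≤ g := Int.natCast_nonneg _
    linarith
  obtain ⟨M, Fr, c, hFr, heG, hcG, hG2a, hG2b⟩ :=
    s33i_exists_chart_frame 𝔓 N' h (s33biX_gen 𝔓 N' h) (n • s33biI 𝔓 N' h) E0
      (fun σ _ => s33bi_smul_nsmul_I 𝔓 N' h σ n) hE0 hE0g hBdeg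
  exact mltph_rich_of_red 𝔓 N' h hH.gen₁ hH.gen₂ (s33rdN su₂ hH) (d := s33qBase 𝔓 N' h) rfl
    (s33biX_gen 𝔓 N' h) (s33q_inv_mem 𝔓 N' h) (s33g_cong_base 𝔓 N' h) hconn
    (I := s33biI 𝔓 N' h) (E0 := E0) (s33rdN_off_I_one su₂ hH) hEoff hE0 hE₁ hE₂ hell hdegI
    hE0deg hg hE0g hI (hpole 𝔓.p) (s33bi_hIG 𝔓 N' h) hE0G n _ (s33bi_degree_nsmul 𝔓 N' h n) hmg
    hn₁ hn₂ Fr hFr heG c hcG hG2a hG2b


set_option maxHeartbeats 1600000 in
/-- fork of `s33w_model_of_setup'` -/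
theorem mltph_rich_of_setup' {σ : Type} [Fintype σ]
    (su₂ : T2Setup (s33qBase 𝔓 N' h) σ) (hsx : su₂.x = s33biX 𝔓 N' h)
    (hsxb : su₂.xb = (t2sfXi (IsLocalRing.ResidueField ↥𝔓.P) 𝔓.p N',
      t2sfXi (IsLocalRing.ResidueField ↥𝔓.P) 𝔓.p N')) :
    MltphRich 𝔓 N' h (s33qBase 𝔓 N' h) (s33biX_gen 𝔓 N' h) := by
  refine mltph_rich_of_setup 𝔓 N' h su₂ hsx hsxb fun hH => ?_
  set G : Set (SemilinearAut Qb ↥(modularFunctionFieldBar (N' * 𝔓.p))) :=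
    {g | ∃ σ ∈ 𝔓.I, g = arithmeticGalois (modularFunctionFieldFull (N' * 𝔓.p)) σ} with hGdef
  have hG : ∀ g ∈ G, S33rdInert (s33qBase 𝔓 N' h) su₂.x g := by
    rintro g ⟨σ, hσ, rfl⟩
    refine s33i_inert 𝔓 N' h hσ ?_
    rw [hsx]
    exact s33bi_smul_X 𝔓 N' h σ
  have hfix : ∀ c : IsLocalRing.ResidueField ↥𝔓.P, ∃ a : ↥(s33qBase 𝔓 N' h).A,
      (s33qBase 𝔓 N' h).resA a = c ∧
        ∀ g ∈ G, SemilinearAut.baseAut g (a : Qb) = (a : Qb) := by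
    intro c
    obtain ⟨a, ha, hac⟩ := s33i_exists_rep 𝔓 c
    refine ⟨a, hac, ?_⟩
    rintro g ⟨σ, hσ, rfl⟩
    exact ha σ hσ
  obtain ⟨S₁, S₂, hS₁, hS₂, hE⟩ := s33rd_exists_lift su₂ hH G hG hfix
  refine ⟨S₁, S₂, hS₁, hS₂, fun E₁ E₂ hE₁ hE₂ hm₁ hm₂ hv₁ hv₂ => ?_⟩
  obtain ⟨E0, hE0, hdeg, hE0G, -, hI, hpole⟩ := hE E₁ E₂ hE₁ hE₂ hm₁ hm₂ hv₁ hv₂
  exact ⟨E0, hE0, hdeg, fun σ hσ => hE0G _ ⟨σ, hσ, rfl⟩, hI, hpole⟩


set_option maxHeartbeats 1600000 in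
/-- **the rich model of `C[p]`** at the rigid levels `4 ∣ N'` (fork of `s33w_model_final`) -/
theorem mltph_rich_final (h4 : 4 ∣ N') :
    MltphRich 𝔓 N' h (s33qBase 𝔓 N' h) (s33biX_gen 𝔓 N' h) := by
  obtain ⟨n, su, hsx, -, -, -, hsxb⟩ := s33q_exists_setup 𝔓 N' h (Or.inl h4)
  have hsx' : su.x = s33biX 𝔓 N' h := hsx
  rw [s33w_xi_eq] at hsxb
  exact mltph_rich_of_setup' 𝔓 N' h su hsx' hsxb

end Setup

end

end Fermat.Agent.MLT
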