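/-
MLT / stream [P] = AtP, Hecke side (helper4), part 15: **Claim (T), the order layer**
(function-model orders, helper2's toolbox `Lib/TW/Flat/Char.lean`).

`M : FFModel 𝔓 X act` a function model generated by a family `m : ι → X → ℚ̄` of integral
functions.
* `mltph_ordGT_of_gen` : `v(m i y - m i 0) > s` for all `i` ⇒ `M.OrdGT y s`;
* `mltph_ordGE_top`    : a connected `p`-torsion point `y` such that NO `s < 1/(p-1)` is the exact
  order of the family at `y` (hypothesis `hbr`, the output of the bridge) has `ord ≥ 1/(p-1)`;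
* `mltph_chi_of_ordGE` : on a `p`-torsion point of order `≥ 1/(p-1)` the inertia group acts
  through the cyclotomic character.
-/
import Fermat.Agent.Lib.TW.Flat.Char
import Fermat.Agent.Lib.T4.Inst.CycVal

set_option autoImplicit false
set_option linter.unusedSectionVars false
set_option linter.unusedVariables false
set_option linter.style.haveILetI false

namespace Fermat.Agent.MLT

open Fermat.Agent.TW Fermat.Agent.S05Lib Fermat.Agent.T4

local notation "Qb" => AlgebraicClosure ℚ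
local notation "GQ" => (AlgebraicClosure ℚ ≃ₐ[ℚ] AlgebraicClosure ℚ)

variable {𝔓 : FFPlace} {X : Type*} [AddCommGroup X] {act : GQ → X →+ X}
  {ι : Type*} {m : ι → X → Qb}

theorem mltph_ge_sum {ι' : Type*} (s : Finset ι') (f : ι' → Qb) {c : ℚ}
    (h : ∀ i ∈ s, 𝔓.v.Ge (f i) c) : 𝔓.v.Ge (∑ i ∈ s, f i) c := by
  classical
  induction s using Finset.induction_on with
  | empty => simpa using QVal.ge_zero'
  | insert a s ha ih =>
    rw [Finset.sum_insert ha]
    exact (h a (Finset.mem_insert_self a s)).add (ih (fun i hi => h i (Finset.mem_insert_of_mem hi)))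

/-- a point at which all generators are congruent to their value at `0` modulo `> s` has
order `> s` -/
theorem mltph_ordGT_of_gen (M : FFModel 𝔓 X act)
    (hM : M.carrier = Algebra.adjoin 𝔓.W (Set.range m))
    (hint : ∀ i x, m i x ∈ 𝔓.P) {y : X} {s : ℚ} (hs : 0 ≤ s)
    (hy : ∀ i, 𝔓.v.Gt (m i y - m i 0) s) : M.OrdGT y s := by
  let Sy : Subalgebra 𝔓.W (X → Qb) :=
    { carrier := {f | 𝔓.v.Ge (f y) 0 ∧ 𝔓.v.Ge (f 0) 0 ∧ 𝔓.v.Gt (f y - f 0) s}
      mul_mem' := by
        rintro f g ⟨hf1, hf2, hf3⟩ ⟨hg1, hg2, hg3⟩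
        refine ⟨?_, ?_, ?_⟩
        · have := hf1.mul hg1
          rwa [zero_add] at this
        · have := hf2.mul hg2
          rwa [zero_add] at this
        · have h1 : (f * g) y - (f * g) 0 = f y * (g y - g 0) + (f y - f 0) * g 0 := by
            simp only [Pi.mul_apply]; ring
          rw [h1]
          have h2 := hf1.mul_gt hg3
          have h3 := hf3.mul_ge hg2
          rw [zero_add] at h2
          rw [add_zero] at h3
          exact h2.add h3
      add_mem' := by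
        rintro f g ⟨hf1, hf2, hf3⟩ ⟨hg1, hg2, hg3⟩
        refine ⟨hf1.add hg1, hf2.add hg2, ?_⟩
        have h1 : (f + g) y - (f + g) 0 = (f y - f 0) + (g y - g 0) := by
          simp only [Pi.add_apply]; ring
        rw [h1]
        exact hf3.add hg3
      algebraMap_mem' := by
        intro w
        have hw : 𝔓.v.Ge ((w : 𝔓.W) : Qb) 0 := ((𝔓.mem_W_iff _).mp w.2).1
        have h1 : ∀ x : X, algebraMap 𝔓.W (X → Qb) w x = (w : Qb) := fun x => by
          simp [Algebra.algebraMap_eq_smul_one, Subring.smul_def]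
        refine ⟨?_, ?_, ?_⟩
        · rw [h1]; exact hw
        · rw [h1]; exact hw
        · rw [h1, h1, sub_self]; exact QVal.gt_zero' }
  have hle : M.carrier ≤ Sy := by
    rw [hM]
    refine Algebra.adjoin_le ?_
    rintro _ ⟨i, rfl⟩
    exact ⟨(𝔓.mem_P_iff _).mp (hint i y), (𝔓.mem_P_iff _).mp (hint i 0), hy i⟩
  intro f hf hf0
  have := (hle hf).2.2
  rwa [hf0, sub_zero] at this

/-- the generators minus their values at `0` lie in the augmentation ideal -/
theorem mltph_gen_sub_mem_aug (M : FFModel 𝔓 X act)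
    (hM : M.carrier = Algebra.adjoin 𝔓.W (Set.range m)) (i : ι) :
    (fun x => m i x - m i 0) ∈ M.aug := by
  have h1 : m i ∈ M.carrier := by
    rw [hM]
    exact Algebra.subset_adjoin ⟨i, rfl⟩
  exact ⟨M.sub_eval_zero_mem h1, sub_self _⟩

/-- **the order is `≥ 1/(p-1)`** when no smaller value is an exact order of the generators -/
theorem mltph_ordGE_top (hU : 𝔓.Unr) (M : FFModel 𝔓 X act)
    (hM : M.carrier = Algebra.adjoin 𝔓.W (Set.range m))
    (hint : ∀ i x, m i x ∈ 𝔓.P) {y : X} (hpy : 𝔓.p • y = 0) (hgt : M.OrdGT y 0)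
    (hbr : ∀ (ρ : Qb) (s : ℚ), 0 < s → s * ((𝔓.p : ℚ) - 1) < 1 → 𝔓.v.Is ρ s →
      (∀ i, 𝔓.v.Ge (m i y - m i 0) s) → ∀ i, 𝔓.v.Gt (m i y - m i 0) s) :
    M.OrdGE y (1 / ((𝔓.p : ℚ) - 1)) := by
  have hp1 : (0 : ℚ) < (𝔓.p : ℚ) - 1 := by
    have : (1 : ℚ) < 𝔓.p := by exact_mod_cast 𝔓.hp.one_lt
    linarith
  by_cases hy : y = 0
  · intro f hf hf0
    rw [hy, hf0]
    exact QVal.ge_zero'
  obtain ⟨s, hs0, hge, f, hf, hfy⟩ := FFModel.exists_ord (M := M) hy
  have hs : 0 < s := by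
    rcases hgt f hf.1 hf.2 with h | h
    · exact absurd h hfy.1
    · rw [hfy.2] at h; exact h
  have hle := FFModel.ord_mul_le hU hpy hs hge hf hfy
  rcases hle.lt_or_eq with hlt | heq
  · exfalso
    have h1 : ∀ i, 𝔓.v.Ge (m i y - m i 0) s := fun i =>
      hge _ (mltph_gen_sub_mem_aug M hM i).1 (mltph_gen_sub_mem_aug M hM i).2
    have h2 := hbr (f y) s hs hlt hfy h1
    have h3 := mltph_ordGT_of_gen M hM hint hs.le h2
    exact hfy.not_gt (h3 f hf.1 hf.2) le_rfl
  · have : s = 1 / ((𝔓.p : ℚ) - 1) := by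
      field_simp
      linarith
    rw [← this]
    exact hge

/-- **inertia acts through the cyclotomic character** on the `p`-torsion points of order
`≥ 1/(p-1)` -/
theorem mltph_chi_of_ordGE [Finite X] (hU : 𝔓.Unr) (M : FFModel 𝔓 X act) {y : X}
    (hpy : 𝔓.p • y = 0) (hge : M.OrdGE y (1 / ((𝔓.p : ℚ) - 1)))
    {ζ : Qb} (hζ : IsPrimitiveRoot ζ 𝔓.p) {σ : GQ} (hσ : σ ∈ 𝔓.I) {k : ℕ} (hk : σ ζ = ζ ^ k) :
    act σ y = k • y := by
  have hp1 : (0 : ℚ) < (𝔓.p : ℚ) - 1 := by
    have : (1 : ℚ) < 𝔓.p := by exact_mod_cast 𝔓.hp.one_lt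
    linarith
  set s : ℚ := 1 / ((𝔓.p : ℚ) - 1) with hs
  have hs0 : 0 < s := by rw [hs]; positivity
  have hϖ : 𝔓.v.Is (1 - ζ) s := t4cy_is_one_sub 𝔓 hζ
  have hϖ0 : (1 : Qb) - ζ ≠ 0 := hϖ.1
  -- the point `z = σ y - k y`
  set σs : Fin 2 → GQ := ![σ, 1] with hσs
  set ns : Fin 2 → ℤ := ![1, -(k : ℤ)] with hns
  have hσs' : ∀ i ∈ (Finset.univ : Finset (Fin 2)), σs i ∈ 𝔓.I := by
    intro i _
    fin_cases i
    · exact hσ
    · exact 𝔓.I.one_mem
  have hact1 : act (1 : GQ) y = y := by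
    by_contra hne
    obtain ⟨f, hf, hfne⟩ := M.separates _ _ hne
    apply hfne
    rw [M.equivariant f hf 1 𝔓.I.one_mem]
    rfl
  have hz : ∑ i : Fin 2, ns i • act (σs i) y = act σ y - k • y := by
    rw [Fin.sum_univ_two]
    simp only [hσs, hns, Matrix.cons_val_zero, Matrix.cons_val_one, one_smul, neg_smul,
      natCast_zsmul, hact1]
    abel
  -- the character relation
  have hchar : 𝔓.v.Gt (∑ i : Fin 2, (ns i : Qb) * (σs i (1 - ζ) / (1 - ζ))) 0 := by
    rw [Fin.sum_univ_two]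
    simp only [hσs, hns, Matrix.cons_val_zero, Matrix.cons_val_one, Int.cast_one, one_mul,
      Int.cast_neg, Int.cast_natCast, AlgEquiv.one_apply, div_self hϖ0, mul_one]
    rw [map_sub, map_one, hk]
    -- `(1 - ζ^k)/(1 - ζ) - k = Σ_{j<k} (ζ^j - 1)`
    have h1 : (1 - ζ ^ k) / (1 - ζ) + -(k : Qb) = ∑ j ∈ Finset.range k, (ζ ^ j - 1) := by
      rw [Finset.sum_sub_distrib, Finset.sum_const, Finset.card_range, nsmul_eq_mul, mul_one,
        ← sub_eq_add_neg]
      congr 1
      rw [div_eq_iff hϖ0, mul_comm]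
      have := mul_neg_geom_sum ζ k
      exact this.symm
    rw [h1]
    refine 𝔓.gt_sum _ _ fun j _ => ?_
    have h2 : ζ ^ j - 1 = -((1 - ζ) * ∑ i ∈ Finset.range j, ζ ^ i) := by
      rw [mul_neg_geom_sum]; ring
    rw [h2]
    have hζint : 𝔓.v.Ge ζ 0 := by
      rcases 𝔓.v.lt_or_ge ζ 0 with hlt | hge'
      · exfalso
        have h3 := (hlt.is.pow 𝔓.p)
        rw [hζ.pow_eq_one] at h3
        have h4 := h3.unique QVal.is_one
        have h5 : (0 : ℚ) < 𝔓.p := by exact_mod_cast 𝔓.hp.pos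
        have h6 := hlt.2
        nlinarith
      · exact hge'
    have h3 : 𝔓.v.Ge (∑ i ∈ Finset.range j, ζ ^ i) 0 := by
      refine mltph_ge_sum _ _ fun i _ => ?_
      have := hζint.pow i
      rwa [mul_zero] at this
    have h4 := (hϖ.gt hs0).mul_ge h3
    rw [add_zero] at h4
    exact h4.neg
  -- `z` has order `> s`
  have hzgt : M.OrdGT (act σ y - k • y) s := by
    intro f hf hf0
    have h1 := FFModel.jet_congr hs0 hϖ Finset.univ σs hσs' ns hge (⟨hf, hf0⟩ : f ∈ M.aug)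
    have h2 := hchar.mul_ge (hge f hf hf0)
    rw [zero_add] at h2
    have := h1.add h2
    rwa [sub_add_cancel, hz] at this
  -- hence `z = 0`
  by_contra hne
  have hz0 : act σ y - k • y ≠ 0 := sub_ne_zero.mpr hne
  obtain ⟨s', hs'0, hge', f, hf, hfz⟩ := FFModel.exists_ord (M := M) hz0
  have hss' : s < s' := by
    rcases hzgt f hf.1 hf.2 with h | h
    · exact absurd h hfz.1
    · rw [hfz.2] at h; exact h
  have hpz : 𝔓.p • (act σ y - k • y) = 0 := by
    rw [smul_sub, ← map_nsmul, hpy, map_zero, smul_comm, hpy, smul_zero, sub_zero]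
  have hle := FFModel.ord_mul_le hU hpz (hs0.trans hss') hge' hf hfz
  have : s * ((𝔓.p : ℚ) - 1) = 1 := by
    rw [hs]; field_simp
  nlinarith

end Fermat.Agent.MLT
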