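/-
MLT / stream [P] = AtP, Hecke side (helper4), part 18: **Claim (T)** — the inertia group at `𝔓`
acts through the cyclotomic character on the toric part `C[p] ∩ ker α_* ∩ ker β_*` of
`J₀(N' p)[p]` (`4 ∣ N'`, `p > 2`).

Assembly: the rich model of `C[p]` (`mltph_rich_final`), the normalised Kummer function
(`mltph_exists_kummer`), its depth (`mltph_level_depth`), the bridge to the chart coordinates
(`mltph_bridge`) and the order layer (`mltph_ordGE_top`, `mltph_chi_of_ordGE`).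
-/
import Mathlib
import Fermat.Agent.Lib.MLT.AtP.H.TorModel
import Fermat.Agent.Lib.MLT.AtP.H.TorKum
import Fermat.Agent.Lib.MLT.AtP.H.TorLevel
import Fermat.Agent.Lib.MLT.AtP.H.TorBridge
import Fermat.Agent.Lib.MLT.AtP.H.TorOrd
import Fermat.Agent.Lib.MLT.AtP.H.PN

set_option autoImplicit false
set_option linter.unusedSectionVars false
set_option linter.unusedVariables false
set_option linter.style.haveILetI false
set_option synthInstance.maxHeartbeats 400000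

namespace Fermat.Agent.MLT

open AlgebraicCurve ModularCurve Fermat.Agent.T1 Fermat.Agent.T3 Fermat.Agent.TW Fermat.Agent.S33
  Fermat.Agent.S33C Fermat.Agent.Alpha Fermat.Agent.T2 Fermat.Agent.CurveP Fermat.Agent.Curve
  Fermat.Agent.S33N Fermat.Agent.S33Q Fermat.Agent.S33W Fermat.Agent.S24Lib RRAux
  Fermat.Agent.S05Lib

local notation "Qb" => AlgebraicClosure ℚ
local notation "GQ" => (AlgebraicClosure ℚ ≃ₐ[ℚ] AlgebraicClosure ℚ)

noncomputable section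

attribute [local instance] s33g_neZero

variable (𝔓 : FFPlace) (N' : ℕ) [NeZero N'] (h : ¬ 𝔓.p ∣ N')

/-- elements of positive valuation, as elements of the maximal ideal of `A = 𝔓.P` -/
theorem mltph_exists_max {a : Qb} (ha : 𝔓.v.Gt a 0) :
    ∃ a' : ↥(s33qBase 𝔓 N' h).A, a' ∈ IsLocalRing.maximalIdeal ↥(s33qBase 𝔓 N' h).A ∧
      ((a' : ↥(s33qBase 𝔓 N' h).A) : Qb) = a := by
  have haP : a ∈ 𝔓.P := (𝔓.mem_P_iff a).mpr ha.ge
  exact ⟨⟨a, haP⟩, (tb_mem_maximalIdeal_iff 𝔓 ⟨a, haP⟩).mpr ha, rfl⟩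

/-- elements of the maximal ideal of `A = 𝔓.P` have positive valuation -/
theorem mltph_gt_of_max {a' : ↥(s33qBase 𝔓 N' h).A}
    (ha : a' ∈ IsLocalRing.maximalIdeal ↥(s33qBase 𝔓 N' h).A) :
    𝔓.v.Gt ((a' : ↥(s33qBase 𝔓 N' h).A) : Qb) 0 :=
  (tb_mem_maximalIdeal_iff 𝔓 a').mp ha

section D0

variable {k Fb : Type} [Field k] [CommRing Fb] [Algebra k Fb]

/-- the divisor of the origin is the base point of the chart -/
theorem mltph_D_zero {d : T2Base Qb ↥(modularFunctionFieldBar (N' * 𝔓.p)) k Fb}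
    {V : Type} [AddCommGroup V] (ch : S33xChart d V)
    {x : ↥(modularFunctionFieldBar (N' * 𝔓.p))}
    (hx : IsFunctionFieldGen Qb ↥(modularFunctionFieldBar (N' * 𝔓.p)) x)
    [Algebra.IsSeparable (IntermediateField.adjoin Qb {x}) ↥(modularFunctionFieldBar (N' * 𝔓.p))]
    (hR : ∃ hdeg : ch.D 0 - ch.E0 ∈
        Divisor.degZero (K := Qb) (F := ↥(modularFunctionFieldBar (N' * 𝔓.p))),
      Pic0.mk ⟨ch.D 0 - ch.E0, hdeg⟩ = (0 : JZero (N' * 𝔓.p))) :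
    ch.D 0 = ch.E0 := by
  obtain ⟨hdeg, hcl⟩ := hR
  unfold Pic0.mk at hcl
  rw [QuotientAddGroup.eq_zero_iff, AddSubgroup.mem_addSubgroupOf] at hcl
  obtain ⟨g, hg0, hg⟩ := hcl
  have hgi : g⁻¹ ≠ 0 := inv_ne_zero hg0
  have h1 := alpk_unique_effective hx (ch.hell 0) (one_ne_zero) hgi
    (by
      intro P
      rw [Finsupp.zero_apply, Finsupp.add_apply, CurveP.divOf_apply hx one_ne_zero, Place.ord_one,
        add_zero]
      exact ch.hD 0 P)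
    (by
      intro P
      rw [Finsupp.zero_apply, Finsupp.add_apply, CurveP.divOf_apply hx hgi, Place.ord_inv, ← hg P]
      have h2 := ch.hE0 P
      simp only [Finsupp.zero_apply, Finsupp.sub_apply] at h2 ⊢
      linarith)
  ext P
  have h2 := DFunLike.congr_fun h1 P
  rw [Finsupp.add_apply, Finsupp.add_apply, CurveP.divOf_apply hx one_ne_zero, Place.ord_one, add_zero,
    CurveP.divOf_apply hx hgi, Place.ord_inv, ← hg P] at h2
  simp only [Finsupp.sub_apply] at h2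
  linarith

end D0

/-- **Claim (T)** -/
theorem mltph_toricChi : MltpToricChi := by
  intro 𝔓 N' _ h h4 hp2 ζ hζ x hxC hpx hA hB σ hσ k hk
  haveI := s33w_Cp_finite 𝔓 N' h
  obtain ⟨ch, M, hM, hint, hconn, hR3, hFrob, hGL, hone, hbridge⟩ := mltph_rich_final 𝔓 N' h h4
  have hp0 : 𝔓.p ≠ 0 := 𝔓.hp.ne_zero
  have hp1 : (0 : ℚ) < (𝔓.p : ℚ) - 1 := by
    have : (1 : ℚ) < 𝔓.p := by exact_mod_cast 𝔓.hp.one_lt
    linarith
  -- the point
  have hv : ∃ v : ↥(s33wCp 𝔓 N' h), (v : JZero (N' * 𝔓.p)) = x := ⟨⟨x, hxC, hpx⟩, rfl⟩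
  obtain ⟨v, hvx⟩ := hv
  have hpv : 𝔓.p • v = 0 := by
    apply Subtype.ext
    rw [AddSubgroup.coe_nsmul, hvx, hpx]
    rfl
  have hD0 : ch.D 0 = ch.E0 := mltph_D_zero 𝔓 N' ch (s33biX_gen 𝔓 N' h) (hR3 0)
  -- the Kummer function
  obtain ⟨φ, hφ0, hφord, hφO, hφres⟩ := mltph_exists_kummer 𝔓 N' h (s33qBase 𝔓 N' h)
    (s33g_cong_base 𝔓 N' h) ch.E0 hone hbridge v (ch.D v) (ch.hD v) (hR3 v)
  have hφi : φ⁻¹ ∈ (s33qBase 𝔓 N' h).Ov :=
    s33q_inv_mem 𝔓 N' h φ hφO (by rw [hφres]; exact isUnit_one)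
  have hord : ∀ P : Place Qb ↥(modularFunctionFieldBar (N' * 𝔓.p)), (𝔓.p : ℤ) ∣ P.ord φ :=
    fun P => ⟨_, hφord P⟩
  have hcl : alpfClass 𝔓.hp.ne_zero (Units.mk0 φ hφ0) hord = x := by
    obtain ⟨hdeg, hcl⟩ := hR3 v
    rw [← hvx, ← hcl]
    unfold alpfClass
    congr 1
    apply Subtype.ext
    ext P
    rw [alpfDivQuot_apply, Units.val_mk0, hφord P,
      Int.mul_ediv_cancel_left _ (by exact_mod_cast hp0 : (𝔓.p : ℤ) ≠ 0)]
    rfl
  -- the depth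
  have h1L : (1 : ↥(modularFunctionFieldBar (N' * 𝔓.p))) ∈ riemannRochSpace (𝔓.p • ch.E0) := by
    rw [mem_riemannRochSpace_iff]
    intro P
    right
    rw [Place.ord_one, Finsupp.smul_apply]
    have := ch.hE0 P
    simp only [Finsupp.zero_apply] at this
    have h2 : 0 ≤ 𝔓.p • ch.E0 P := nsmul_nonneg this _
    linarith
  have hφL : φ ∈ riemannRochSpace (𝔓.p • ch.E0) := by
    rw [mem_riemannRochSpace_iff]
    intro P
    right
    rw [hφord P, Finsupp.smul_apply, nsmul_eq_mul]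
    have := ch.hD v P
    simp only [Finsupp.zero_apply] at this
    have h2 : (0 : ℤ) ≤ (𝔓.p : ℤ) * ch.D v P := mul_nonneg (by positivity) this
    linarith
  obtain ⟨c, lam, ψ, hψO, hφeq, hlam⟩ := mltph_level_depth 𝔓 N' h φ hφ0 hφO hφres hord
    (by rw [hcl]; exact hA) (by rw [hcl]; exact hB) (riemannRochSpace (𝔓.p • ch.E0)) h1L hφL hGL
  -- the order
  have hge : M.OrdGE v (1 / ((𝔓.p : ℚ) - 1)) := by
    refine mltph_ordGE_top 𝔓.lf_unr M hM hint hpv (hconn v) ?_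
    intro ρ s hs0 hs1 hρ hges
    have hρ0 : ρ ≠ 0 := hρ.1
    have hlam' : ∃ a : ↥(s33qBase 𝔓 N' h).A,
        a ∈ IsLocalRing.maximalIdeal ↥(s33qBase 𝔓 N' h).A ∧ lam = ρ ^ 𝔓.p * (a : Qb) := by
      have h1 : 𝔓.v.Gt (lam / ρ ^ 𝔓.p) 0 := by
        have h2 := hlam.div_is (hρ.pow 𝔓.p)
        refine h2.gt ?_
        have h3 : (𝔓.p : ℚ) / ((𝔓.p : ℚ) - 1) - (𝔓.p : ℚ) * s =
            (𝔓.p : ℚ) * (1 - s * ((𝔓.p : ℚ) - 1)) / ((𝔓.p : ℚ) - 1) := by
          field_simp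
        rw [h3]
        have h4 : (0 : ℚ) < (𝔓.p : ℚ) := by exact_mod_cast 𝔓.hp.pos
        have h5 : (0 : ℚ) < 1 - s * ((𝔓.p : ℚ) - 1) := by linarith
        positivity
      obtain ⟨a', ha', haeq⟩ := mltph_exists_max 𝔓 N' h h1
      refine ⟨a', ha', ?_⟩
      rw [haeq, mul_div_cancel₀ _ (pow_ne_zero _ hρ0)]
    have hpρ : ∃ a : ↥(s33qBase 𝔓 N' h).A,
        a ∈ IsLocalRing.maximalIdeal ↥(s33qBase 𝔓 N' h).A ∧
          ((𝔓.p : ℕ) : Qb) = ρ ^ (𝔓.p - 1) * (a : Qb) := by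
      have h1 : 𝔓.v.Gt (((𝔓.p : ℕ) : Qb) / ρ ^ (𝔓.p - 1)) 0 := by
        have h2 := (𝔓.is_p.div (hρ.pow (𝔓.p - 1))).gt (s := 0) (by
          rw [Nat.cast_sub 𝔓.hp.one_le, Nat.cast_one]
          linarith)
        exact h2
      obtain ⟨a', ha', haeq⟩ := mltph_exists_max 𝔓 N' h h1
      refine ⟨a', ha', ?_⟩
      rw [haeq, mul_div_cancel₀ _ (pow_ne_zero _ hρ0)]
    have hδ : ∀ j i, ∃ a : ↥(s33qBase 𝔓 N' h).A,
        ch.m (s33biX_gen 𝔓 N' h) j i v - ch.m (s33biX_gen 𝔓 N' h) j i 0 = ρ * (a : Qb) := by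
      intro j i
      have h1 : 𝔓.v.Ge ((ch.m (s33biX_gen 𝔓 N' h) j i v - ch.m (s33biX_gen 𝔓 N' h) j i 0) / ρ)
          0 := by
        have h2 := (hges (j, i)).div_is hρ
        rwa [sub_self] at h2
      refine ⟨⟨_, (𝔓.mem_P_iff _).mpr h1⟩, ?_⟩
      show _ = ρ * ((ch.m (s33biX_gen 𝔓 N' h) j i v - ch.m (s33biX_gen 𝔓 N' h) j i 0) / ρ)
      rw [mul_div_cancel₀ _ hρ0]
    have hbr := mltph_bridge ch (s33biX_gen 𝔓 N' h) 𝔓.hp (by omega) hD0 hFrob v hφ0 hφord hφi c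
      hψO hφeq hρ0 hlam' hpρ hδ
    rintro ⟨j, i⟩
    obtain ⟨a, ha, haeq⟩ := hbr j i
    show 𝔓.v.Gt (ch.m (s33biX_gen 𝔓 N' h) j i v - ch.m (s33biX_gen 𝔓 N' h) j i 0) s
    rw [haeq]
    have h1 := hρ.ge.mul_gt (mltph_gt_of_max 𝔓 N' h ha)
    rwa [add_zero] at h1
  -- the conclusion
  have hkey := mltph_chi_of_ordGE 𝔓.lf_unr M hpv hge hζ hσ hk
  have h2 := congrArg (fun w : ↥(s33wCp 𝔓 N' h) => (w : JZero (N' * 𝔓.p))) hkey
  simp only [s33wActC_coe 𝔓 N' h hσ, AddSubgroup.coe_nsmul, hvx] at h2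
  exact h2

/-- **CONTRACT (AtP-1) = (PN)**: not ordinary at `p` ⇒ `p` leaves the level (all odd `p`) -/
theorem mltph_lowerContract : MltpLowerContract := mltph_lowerContract_of_toric mltph_toricChi

end

end Fermat.Agent.MLT
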